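import Fermat.Agent.X0Analytic.Genus
import Fermat.Agent.Reduction.Facts
import Fermat.Agent.SemistableRed.PoleFacts
import Fermat.Agent.Igusa.Degree

/-!
# `12 (g(M q) + 1 - 2 g(M)) = (q - 1) ψ(M)` when `36 ∣ M` and `q ∤ M` is prime
-/

set_option autoImplicit false

noncomputable section

open ModularCurve AlgebraicCurve Fermat.Agent.FunctionFieldRR Fermat.Agent.Reduction

namespace Fermat.Agent.XHLite

theorem nuTwo_eq_zero {N : ℕ} (h : 4 ∣ N) : nuTwo N = 0 := by
  rw [nuTwo, Nat.card_eq_zero]
  refine Or.inl ⟨fun x => ?_⟩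
  have h1 := congrArg (ZMod.castHom h (ZMod 4)) x.2
  rw [map_add, map_pow, map_one, map_zero] at h1
  revert h1
  generalize ZMod.castHom h (ZMod 4) x.1 = z
  revert z
  decide

theorem nuThree_eq_zero {N : ℕ} (h : 9 ∣ N) : nuThree N = 0 := by
  rw [nuThree, Nat.card_eq_zero]
  refine Or.inl ⟨fun x => ?_⟩
  have h1 := congrArg (ZMod.castHom h (ZMod 9)) x.2
  rw [map_add, map_add, map_pow, map_one, map_zero] at h1
  revert h1
  generalize ZMod.castHom h (ZMod 9) x.1 = z
  revert z
  decide

theorem cuspCount_mul_prime {M q : ℕ} [NeZero M] (hq : q.Prime) (hqM : ¬ q ∣ M) :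
    cuspCount (M * q) = 2 * cuspCount M := by
  classical
  have hcop : ∀ {d : ℕ}, d ∣ M → Nat.Coprime q d := fun hd =>
    hq.coprime_iff_not_dvd.mpr fun h => hqM (h.trans hd)
  have hdiv : (M * q).divisors = M.divisors ∪ M.divisors.image (· * q) := by
    ext d
    simp only [Nat.mem_divisors, Finset.mem_union, Finset.mem_image, mul_ne_zero_iff,
      ne_eq, NeZero.ne M, not_false_eq_true, hq.ne_zero, and_true]
    constructor
    · intro hd
      by_cases h : q ∣ d
      · obtain ⟨e, rfl⟩ := h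
        refine Or.inr ⟨e, ?_, mul_comm _ _⟩
        rw [mul_comm M] at hd
        exact Nat.dvd_of_mul_dvd_mul_left hq.pos hd
      · exact Or.inl (Nat.Coprime.dvd_of_dvd_mul_right (hq.coprime_iff_not_dvd.mpr h).symm hd)
    · rintro (hd | ⟨e, he, rfl⟩)
      · exact hd.trans (dvd_mul_right _ _)
      · exact Nat.mul_dvd_mul_right he q
  have hdisj : Disjoint M.divisors (M.divisors.image (· * q)) := by
    rw [Finset.disjoint_left]
    intro d hd hd'
    obtain ⟨e, -, rfl⟩ := Finset.mem_image.mp hd'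
    exact hqM ((dvd_mul_left q e).trans (Nat.mem_divisors.mp hd).1)
  rw [cuspCount, hdiv, Finset.sum_union hdisj,
    Finset.sum_image fun a _ b _ h => Nat.eq_of_mul_eq_mul_right hq.pos h, two_mul, cuspCount]
  congr 1
  · refine Finset.sum_congr rfl fun d hd => ?_
    have hdM := (Nat.mem_divisors.mp hd).1
    rw [mul_comm M, Nat.mul_div_assoc _ hdM, Nat.Coprime.gcd_mul_left_cancel_right _ (hcop hdM)]
  · refine Finset.sum_congr rfl fun d hd => ?_
    have hdM := (Nat.mem_divisors.mp hd).1
    rw [Nat.mul_div_mul_right _ _ hq.pos, mul_comm d,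
      Nat.Coprime.gcd_mul_left_cancel _ (hcop (Nat.div_dvd_of_dvd hdM))]

/-- The genus does not depend on how the separating element is named. -/
theorem genusOf_congr {K F : Type*} [Field K] [Field F] [Algebra K F] [IsAlgClosed K]
    [IsFunctionField K F] {x x' : F} (h : x = x') (hx : Transcendental K x)
    (hx' : Transcendental K x')
    [FiniteDimensional (IntermediateField.adjoin K ({x} : Set F)) F]
    [Algebra.IsSeparable (IntermediateField.adjoin K ({x} : Set F)) F]
    [FiniteDimensional (IntermediateField.adjoin K ({x'} : Set F)) F]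
    [Algebra.IsSeparable (IntermediateField.adjoin K ({x'} : Set F)) F] :
    genusOf hx = genusOf hx' := by
  subst h
  rfl

theorem genus0_eq (φ : AlgebraicClosure ℚ →+* ℂ) (N : ℕ) [NeZero N] :
    (genus0 N : ℚ) = genusFormula N := by
  have hj : X0Analytic.jEl (AlgebraicClosure ℚ) N = jBar N := SemistableRed.jEl_eq_jBar N
  haveI : IsFunctionField (AlgebraicClosure ℚ) ↥(modularFunctionFieldBar N) :=
    haveI := finiteDimensional_jBar N
    IsFunctionField.of_finiteDimensional _ (transcendental_jBar N)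
  haveI := finiteDimensional_jBar N
  haveI := isSeparable_jBar N
  haveI : FiniteDimensional
      ↥(X0Analytic.jField (AlgebraicClosure ℚ) N) ↥(X0Analytic.FLevel (AlgebraicClosure ℚ) N) :=
    X0Analytic.finiteDimensional_jField φ
  haveI := X0Analytic.isSeparable_jField (N := N) φ
  rw [← X0Analytic.genusOf_eq_genusFormula (L := AlgebraicClosure ℚ) (N := N) φ]
  exact congrArg Nat.cast (genusOf_congr hj.symm (transcendental_jBar N)
    (X0Analytic.transcendental_jEl φ))

/-- **The count.** -/
theorem twelve_mul_genus0 (φ : AlgebraicClosure ℚ →+* ℂ) {M q : ℕ} [NeZero M] [NeZero q]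
    (hq : q.Prime) (hqM : ¬ q ∣ M) (h36 : 36 ∣ M) :
    12 * ((genus0 (M * q) : ℤ) + 1 - 2 * genus0 M) = ((q - 1 : ℕ) : ℤ) * dedekindPsi M := by
  have h4 : 4 ∣ M := Dvd.dvd.trans (by norm_num) h36
  have h9 : 9 ∣ M := Dvd.dvd.trans (by norm_num) h36
  have key : (12 : ℚ) * ((genus0 (M * q) : ℚ) + 1 - 2 * genus0 M) =
      ((q : ℚ) - 1) * dedekindPsi M := by
    rw [genus0_eq φ, genus0_eq φ, genusFormula, genusFormula, nuTwo_eq_zero h4, nuThree_eq_zero h9,
      nuTwo_eq_zero (h4.trans (dvd_mul_right _ _)), nuThree_eq_zero (h9.trans (dvd_mul_right _ _)),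
      cuspCount_mul_prime hq hqM, Igusa.dedekindPsi_mul_prime_of_not_dvd hq hqM]
    push_cast
    ring
  rw [← Int.cast_inj (α := ℚ)]
  push_cast [Nat.cast_sub hq.one_le]
  exact key

end Fermat.Agent.XHLite

end
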