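import Fermat.Agent.Congruence.Laurent
import Fermat.Prelude.Def_ModularCurve_ModularUnit
import Fermat.Prelude.Def_ModularCurve_X0ModL

/-!
# The series of `Δ`, of `F₄ = η(4z)^8/η(2z)^4` and of the units `Δ(z)/Δ(e z)`

They are units of `ℤ((q))`; modulo a prime `q` the series of `Δ(z)/Δ(q z)` becomes
`β ^ 12 * u ^ (q - 1)` with `u = Δ₂/Δ₄²` (`Δ_e := Δ(z)/Δ(e z)`) and `β = F₄ ^ (-(q - 1)/2)`.
-/

set_option autoImplicit false

noncomputable section

open ModularCurve HahnSeries

namespace Fermat.Agent.XHLite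

/-- A power series with constant term `1` as a unit of the Laurent series ring. -/
def psUnit (P : PowerSeries ℤ) (h : PowerSeries.constantCoeff P = 1) : (LaurentSeries ℤ)ˣ :=
  Units.map (HahnSeries.ofPowerSeries ℤ ℤ).toMonoidHom
    ((PowerSeries.isUnit_iff_constantCoeff.mpr (h ▸ isUnit_one)).unit)

theorem coe_psUnit (P : PowerSeries ℤ) (h : PowerSeries.constantCoeff P = 1) :
    (psUnit P h : LaurentSeries ℤ) = HahnSeries.ofPowerSeries ℤ ℤ P := rfl

/-- The variable as a unit. -/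
def qUnit : (LaurentSeries ℤ)ˣ where
  val := HahnSeries.single 1 1
  inv := HahnSeries.single (-1) 1
  val_inv := by simp
  inv_val := by simp

/-- The series of `Δ`. -/
def deltaUnit : (LaurentSeries ℤ)ˣ :=
  qUnit * psUnit etaProd constantCoeff_etaProd ^ 24

/-- `z ↦ z(q ^ e)` on units. -/
def expandUnit (e : ℕ) [NeZero e] : (LaurentSeries ℤ)ˣ →* (LaurentSeries ℤ)ˣ :=
  Units.map (qExpand ℤ e).toMonoidHom

/-- The series of `Δ(z)/Δ(e z)`. -/
def unitSer (e : ℕ) [NeZero e] : (LaurentSeries ℤ)ˣ :=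
  deltaUnit * (expandUnit e deltaUnit)⁻¹

/-- The series of `F₄`. -/
def f4Unit : (LaurentSeries ℤ)ˣ :=
  qUnit * expandUnit 4 (psUnit etaProd constantCoeff_etaProd) ^ 8 *
    (expandUnit 2 (psUnit etaProd constantCoeff_etaProd))⁻¹ ^ 4

theorem expandUnit_qUnit (e : ℕ) [NeZero e] : expandUnit e qUnit = qUnit ^ e := by
  refine Units.ext ?_
  show qExpand ℤ e (HahnSeries.single 1 1) = _
  rw [qExpand_single, Units.val_pow_eq_pow_val]
  show _ = (HahnSeries.single (1 : ℤ) (1 : ℤ)) ^ e
  rw [HahnSeries.single_pow, one_pow, nsmul_eq_mul]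

/-- The series of `Δ₂/Δ₄²`. -/
def uSer : (LaurentSeries ℤ)ˣ := unitSer 2 * (unitSer 4 ^ 2)⁻¹

theorem uSer_eq : uSer = f4Unit ^ 6 * deltaUnit⁻¹ := by
  simp only [uSer, unitSer, f4Unit, deltaUnit, map_mul, map_pow, expandUnit_qUnit]
  generalize expandUnit 4 (psUnit etaProd constantCoeff_etaProd) = P4
  generalize expandUnit 2 (psUnit etaProd constantCoeff_etaProd) = P2
  generalize psUnit etaProd constantCoeff_etaProd = P
  generalize qUnit = x
  apply Additive.ofMul.injective
  simp only [ofMul_mul, ofMul_inv, ofMul_pow, smul_add, smul_neg]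
  abel

theorem coe_deltaUnit :
    (deltaUnit : LaurentSeries ℤ) =
      HahnSeries.single 1 1 * HahnSeries.ofPowerSeries ℤ ℤ dedekindEtaUnit := by
  rw [deltaUnit, Units.val_mul, Units.val_pow_eq_pow_val, coe_psUnit, ← map_pow]
  rfl

theorem coeffMap_expandUnit_char (k : Type*) [Field k] (q : ℕ) [Fact q.Prime] [CharP k q]
    [NeZero q] (x : (LaurentSeries ℤ)ˣ) :
    coeffMap (Int.castRingHom k) (expandUnit q x : LaurentSeries ℤ) =
      coeffMap (Int.castRingHom k) (x : LaurentSeries ℤ) ^ q := by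
  rw [Congruence.laurent_pow_char q (coeffMap (Int.castRingHom k) (x : LaurentSeries ℤ)),
    coeffMap_coeffMap,
    RingHom.ext_int ((frobenius k q).comp (Int.castRingHom k)) (Int.castRingHom k),
    show (expandUnit q x : LaurentSeries ℤ) = qExpand ℤ q (x : LaurentSeries ℤ) from rfl,
    coeffMap_qExpand]

/-- The series `β`. -/
def betaSer (q : ℕ) : (LaurentSeries ℤ)ˣ := (f4Unit ^ ((q - 1) / 2))⁻¹

/-- **The factorisation modulo `q`.** -/
theorem coeffMap_unitSer_char (k : Type*) [Field k] (q : ℕ) [Fact q.Prime] [CharP k q]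
    [NeZero q] (hq : Odd q) :
    coeffMap (Int.castRingHom k) (unitSer q : LaurentSeries ℤ) =
      coeffMap (Int.castRingHom k) (betaSer q : LaurentSeries ℤ) ^ 12 *
        coeffMap (Int.castRingHom k) (uSer : LaurentSeries ℤ) ^ (q - 1) := by
  set φ : (LaurentSeries ℤ)ˣ →* (LaurentSeries k)ˣ :=
    Units.map (coeffMap (Int.castRingHom k)).toMonoidHom with hφ
  have hphi : ∀ x, ((φ x : (LaurentSeries k)ˣ) : LaurentSeries k) =
      coeffMap (Int.castRingHom k) (x : LaurentSeries ℤ) := fun x => rfl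
  have hexp : φ (expandUnit q deltaUnit) = φ deltaUnit ^ q := Units.ext (by
    rw [hphi, Units.val_pow_eq_pow_val, hphi]
    exact coeffMap_expandUnit_char k q deltaUnit)
  obtain ⟨m, rfl⟩ := hq
  have key : φ (unitSer (2 * m + 1)) =
      φ (betaSer (2 * m + 1)) ^ 12 * φ uSer ^ (2 * m + 1 - 1) := by
    rw [unitSer, uSer_eq, betaSer, map_mul, map_inv, hexp, map_inv, map_mul, map_inv, map_pow,
      map_pow, show 2 * m + 1 - 1 = 2 * m by omega, show 2 * m / 2 = m by omega]
    generalize φ f4Unit = f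
    generalize φ deltaUnit = x
    rw [inv_pow, ← pow_mul, mul_pow, ← pow_mul, inv_pow, show 6 * (2 * m) = m * 12 by ring,
      inv_mul_cancel_left, pow_succ', mul_inv_rev, mul_comm, mul_assoc, inv_mul_cancel, mul_one]
  have h := congrArg (fun z : (LaurentSeries k)ˣ => (z : LaurentSeries k)) key
  simpa only [Units.val_mul, Units.val_pow_eq_pow_val, hphi] using h

end Fermat.Agent.XHLite

end
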