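import Fermat.Agent.XHLite.Glue.Zeta
import Fermat.Agent.FunctionFieldRR.RationalBase

/-!
# Simple zeros at the glued places

If the reductions reach `(a, 0)` and `(0, a)`, the poles of `a` are bounded and there are as many
glued pairs as this bound allows for a function which is the twelfth power of `b₀` up to a unit on
the affine part, then `b₀` has a simple zero at every glued place.
-/

set_option autoImplicit false
set_option linter.unusedSectionVars false

noncomputable section

open AlgebraicCurve Fermat.Agent.FunctionFieldRR Fermat.Agent.SemistableRed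

namespace Fermat.Agent.XHLite.GlueModel

variable {L : Type*} [Field L] {A : ValuationSubring L} {k : Type*} [Field k] [IsAlgClosed k]
  {π : A →+* k} {F : Type*} [Field F] [Algebra L F] {G : Type*} [Field G] [Algebra k G]
  [IsFunctionField k G]
variable (S : GlueModel A π F G)

/-- A reached pair `(a, 0)` vanishes at the first member of every glued pair. -/
theorem ord_pos_of_reach {a : G} (ha : a ≠ 0) {x : Place k G × Place k G} (hx : x ∈ S.pairs)
    {m : ℕ} {f : F} (hf : f ∈ riemannRochSpace ((m : ℤ) • S.H)) (hfi : ∀ i, S.Int i f) :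
    (S.red 0 f = a → S.red 1 f = 0 → 0 < x.1.ord a) ∧
      (S.red 1 f = a → S.red 0 f = 0 → 0 < x.2.ord a) := by
  have hb := S.bound m f hfi hf
  have hp := S.pairs_affine x hx
  have hg := S.pairs_glue m f hfi hf x hx
  have key : ∀ (i : Fin 2) (P : Place k G), S.C P = 0 → S.red i f = a →
      residueConst P (S.red i f) = 0 → 0 < P.ord a := fun i P hP he h0 => by
    have hreg : VanishesTo P 0 (S.red i f) :=
      (mem_rrs_iff.mp (hb i)).imp id fun h => by simpa [hP] using h P
    have h1 := (vanishesTo_one_iff hreg).mpr h0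
    rw [he] at h1
    have := h1.resolve_left ha
    omega
  refine ⟨fun h0 h1 => key 0 _ hp.1 h0 ?_, fun h1 h0 => key 1 _ hp.2 h1 ?_⟩
  · rw [hg, h1, residueConst_zero]
  · rw [← hg, h0, residueConst_zero]

/-- **Simple zeros by counting.** -/
theorem ord_eq_one_of_count {a u b₀ : G} (ha : a ≠ 0) (hu : u ≠ 0) (hb₀ : b₀ ≠ 0)
    (haff : ∀ P, S.C P = 0 → 0 ≤ P.ord a) (huaff : ∀ P, S.C P = 0 → P.ord u = 0) (t : ℤ)
    (hab : a = b₀ ^ 12 * u ^ t) (B : Divisor k G) (hBC : ∀ P, S.C P = 0 → B P = 0)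
    (hpole : ∀ P, S.C P ≠ 0 → -(B P) ≤ P.ord a)
    (hcount : Divisor.degree B ≤ 12 * (S.pairs.card : ℤ))
    (hzero : ∀ x ∈ S.pairs, 0 < x.1.ord a ∧ 0 < x.2.ord a) :
    ∀ x ∈ S.pairs, x.1.ord b₀ = 1 ∧ x.2.ord b₀ = 1 := by
  classical
  have hord : ∀ P, S.C P = 0 → P.ord a = 12 * P.ord b₀ := fun P hP => by
    rw [hab, P.ord_mul (pow_ne_zero _ hb₀) (zpow_ne_zero _ hu), P.ord_zpow, huaff P hP, ord_pow]
    simp
  set U := (divisorOf (K := k) a).support ∪ B.support with hU
  have hsumB : Divisor.degree B = ∑ P ∈ U, B P := by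
    conv_lhs => rw [← Finsupp.sum_single B]
    rw [Finsupp.sum, map_sum]
    simp only [Divisor.degree_single, deg_eq_one, Nat.cast_one, mul_one]
    exact Finset.sum_subset Finset.subset_union_right fun v _ hv => Finsupp.notMem_support_iff.mp hv
  have hsum0 : ∑ P ∈ U, P.ord a = 0 := by
    have h := degree_divisorOf (K := k) a
    rw [← Finsupp.sum_single (divisorOf (K := k) a), Finsupp.sum, map_sum] at h
    simp only [Divisor.degree_single, deg_eq_one, Nat.cast_one, mul_one, divisorOf_apply] at h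
    rw [← h]
    exact (Finset.sum_subset Finset.subset_union_left fun v _ hv => by
      simpa using hv).symm
  have key : ∀ (p : Place k G × Place k G → Place k G),
      (∀ x ∈ S.pairs, ∀ y ∈ S.pairs, p x = p y → x = y) → (∀ x ∈ S.pairs, S.C (p x) = 0) →
      (∀ x ∈ S.pairs, 0 < (p x).ord a) → ∀ x ∈ S.pairs, (p x).ord b₀ = 1 := by
    intro p hinj hC hpos
    have hone : ∀ x ∈ S.pairs, 1 ≤ (p x).ord b₀ := fun x hx => by
      have h1 := hpos x hx
      rw [hord _ (hC x hx)] at h1
      omega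
    set V := S.pairs.image p with hV
    have hVU : V ⊆ U := fun P hP => by
      obtain ⟨x, hx, rfl⟩ := Finset.mem_image.mp hP
      refine Finset.mem_union_left _ ?_
      rw [Finsupp.mem_support_iff, divisorOf_apply]
      exact (hpos x hx).ne'
    have hrest : ∀ P ∈ U \ V, 0 ≤ P.ord a + B P := fun P _ => by
      by_cases hP : S.C P = 0
      · rw [hBC P hP, add_zero]; exact haff P hP
      · linarith [hpole P hP]
    have hV0 : ∀ P ∈ V, P.ord a + B P = 12 * P.ord b₀ := fun P hP => by
      obtain ⟨x, hx, rfl⟩ := Finset.mem_image.mp hP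
      rw [hBC _ (hC x hx), hord _ (hC x hx), add_zero]
    have h1 : ∑ P ∈ V, 12 * P.ord b₀ ≤ Divisor.degree B := by
      calc ∑ P ∈ V, 12 * P.ord b₀ = ∑ P ∈ V, (P.ord a + B P) :=
            (Finset.sum_congr rfl hV0).symm
        _ ≤ ∑ P ∈ U, (P.ord a + B P) := by
            rw [← Finset.sum_sdiff hVU]
            linarith [Finset.sum_nonneg hrest]
        _ = Divisor.degree B := by rw [Finset.sum_add_distrib, hsum0, zero_add, hsumB]
    rw [hV, Finset.sum_image fun x hx y hy => hinj x hx y hy, ← Finset.mul_sum] at h1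
    have h2 : ∑ x ∈ S.pairs, ((p x).ord b₀ - 1) ≤ 0 := by
      rw [Finset.sum_sub_distrib, Finset.sum_const, nsmul_eq_mul, mul_one]
      linarith
    intro x hx
    have h3 := Finset.single_le_sum (f := fun x => (p x).ord b₀ - 1)
      (fun y hy => sub_nonneg.mpr (hone y hy)) hx
    have := hone x hx
    linarith
  intro x hx
  exact ⟨key Prod.fst S.pairs_inj_left (fun y hy => (S.pairs_affine y hy).1)
      (fun y hy => (hzero y hy).1) x hx,
    key Prod.snd S.pairs_inj_right (fun y hy => (S.pairs_affine y hy).2)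
      (fun y hy => (hzero y hy).2) x hx⟩

/-- Orders prime to `d` for `b̄ = g ^ d * b₀ ^ r`. -/
theorem coprime_ord_of_simple {b₀ bbar g : G} (hb₀ : b₀ ≠ 0) (hg : g ≠ 0) {d r : ℕ}
    (hr : Nat.Coprime r d) (hb : bbar = g ^ d * b₀ ^ r)
    (h : ∀ x ∈ S.pairs, x.1.ord b₀ = 1 ∧ x.2.ord b₀ = 1) :
    ∀ x ∈ S.pairs, IsCoprime (x.1.ord bbar) (d : ℤ) ∧ IsCoprime (x.2.ord bbar) (d : ℤ) := by
  intro x hx
  have key : ∀ P : Place k G, P.ord b₀ = 1 → IsCoprime (P.ord bbar) (d : ℤ) := fun P hP => by
    rw [hb, P.ord_mul (pow_ne_zero _ hg) (pow_ne_zero _ hb₀), ord_pow, ord_pow, hP, mul_one,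
      add_comm]
    exact (Int.isCoprime_iff_nat_coprime.mpr (by simpa using hr)).add_mul_left_left _
  exact ⟨key _ (h x hx).1, key _ (h x hx).2⟩

end Fermat.Agent.XHLite.GlueModel

end
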