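import Fermat.Agent.XHLite.Glue.Base
import Fermat.Agent.XHLite.Glue.Count
import Fermat.Agent.XHLite.Glue.UnitSeries
import Fermat.Agent.SemistableRed.Frob
import Fermat.Agent.Reduction.FieldFacts
import Fermat.Agent.Reduction.Facts
import Fermat.Agent.SemistableRed.Poles

/-!
# The supersingular count on `X₀(M q)`

`Δ(z)/Δ(q z)` reduces to `a = Δ̄ ^ (1 - q)` on one component and to `0` on the other, so every
glued place is a zero of `a`; `a` has only `(q - 1) ψ(M)` poles, which is twelve times the number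
of pairs. As `a = β ^ 12 u ^ (q - 1)` with `u` a unit on the affine part, `β` has a simple zero at
every glued place.
-/

set_option autoImplicit false
set_option linter.unusedSectionVars false

noncomputable section

open AlgebraicCurve ModularCurve Fermat.Agent.FunctionFieldRR Fermat.Agent.SemistableRed
  Fermat.Agent.Reduction
open scoped Fermat.Agent.Reduction

namespace Fermat.Agent.XHLite

local notation "Qbar" => AlgebraicClosure ℚ

variable {A : ValuationSubring Qbar}

/-- An integral series read over the residue field. -/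
def kSer (A : ValuationSubring Qbar) (x : (LaurentSeries ℤ)ˣ) :
    LaurentSeries (IsLocalRing.ResidueField A) :=
  coeffMap (Int.castRingHom _) (x : LaurentSeries ℤ)

/-- An integral series read over `A`. -/
def aSer (A : ValuationSubring Qbar) (x : (LaurentSeries ℤ)ˣ) : LaurentSeries A :=
  coeffMap (Int.castRingHom _) (x : LaurentSeries ℤ)

/-- An integral series read over `Qbar`. -/
def qSerZ (x : (LaurentSeries ℤ)ˣ) : LaurentSeries Qbar :=
  coeffMap (Int.castRingHom _) (x : LaurentSeries ℤ)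

theorem ιS_aSer (x : (LaurentSeries ℤ)ˣ) : ιS A (aSer A x) = qSerZ x := by
  rw [aSer, qSerZ, coeffMap_coeffMap]
  exact coeffMap_congr (RingHom.ext_int _ _) _

theorem redS_aSer (x : (LaurentSeries ℤ)ˣ) : redS A (aSer A x) = kSer A x := by
  rw [aSer, kSer, coeffMap_coeffMap]
  exact coeffMap_congr (RingHom.ext_int _ _) _

theorem qSerZ_ne_zero (x : (LaurentSeries ℤ)ˣ) : qSerZ x ≠ 0 :=
  (x.isUnit.map (coeffMap (Int.castRingHom Qbar))).ne_zero

theorem qSerZ_inv (x : (LaurentSeries ℤ)ˣ) : qSerZ x⁻¹ = (qSerZ x)⁻¹ := by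
  refine eq_inv_of_mul_eq_one_left ?_
  rw [qSerZ, qSerZ, ← map_mul, ← Units.val_mul, inv_mul_cancel, Units.val_one, map_one]

variable [IsAlgClosed (IsLocalRing.ResidueField A)] {M q : ℕ} [NeZero M] [NeZero q]
  [Fact q.Prime] [CharP (IsLocalRing.ResidueField A) q]
  [IsFunctionField (IsLocalRing.ResidueField A)
    ↥(modularFunctionFieldFullC (IsLocalRing.ResidueField A) M)]

/-- `j`. -/
def jEl0 (M q : ℕ) [NeZero M] [NeZero q] : ↥(modularFunctionFieldBar (M * q)) :=
  heckeAlphaBar Qbar M q (jBar M)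

/-- `j(q z)`. -/
def jqEl0 (M q : ℕ) [NeZero M] [NeZero q] : ↥(modularFunctionFieldBar (M * q)) :=
  heckeBetaBar Qbar M q (jBar M)

/-- The cusps of a model and its number of pairs. -/
structure CuspData
    (S : GlueModel A (IsLocalRing.residue A) ↥(modularFunctionFieldBar (M * q))
      ↥(modularFunctionFieldFullC (IsLocalRing.ResidueField A) M)) : Prop where
  H_eq : ∀ P, S.H P = max (-P.ord (jEl0 M q)) 0 + max (-P.ord (jqEl0 M q)) 0
  C_eq : ∀ P, S.C P = ((q + 1 : ℕ) : ℤ) *
    max (-P.ord (jbar (IsLocalRing.ResidueField A) M)) 0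
  card_pairs : ((q - 1 : ℕ) : ℤ) * dedekindPsi M ≤ 12 * (S.pairs.card : ℤ)

/-- The two modular units used for the count. -/
structure UnitInputs (hq : q.Prime) (hqM : ¬ q ∣ M)
    (S : GlueModel A (IsLocalRing.residue A) ↥(modularFunctionFieldBar (M * q))
      ↥(modularFunctionFieldFullC (IsLocalRing.ResidueField A) M)) where
  /-- `Δ(z)/Δ(q z)` -/
  x : ↥(modularFunctionFieldBar (M * q))
  coe_x : (x : LaurentSeries Qbar) = qSerZ (unitSer q)
  x_mul_wq : x * wq hq hqM x = algebraMap Qbar _ ((q : Qbar) ^ 12)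
  x_poles : ∀ P, -(((q : ℤ) - 1) * S.H P) ≤ ((q : ℤ) + 1) * P.ord x
  /-- `Δ₂/Δ₄²` -/
  v : ↥(modularFunctionFieldBar M)
  coe_v : (v : LaurentSeries Qbar) = qSerZ uSer
  v_affine : ∀ P : Place Qbar ↥(modularFunctionFieldBar (M * q)), S.H P = 0 →
    P.ord (heckeAlphaBar Qbar M q v) = 0

variable {hq : q.Prime} {hqM : ¬ q ∣ M}
  {S : GlueModel A (IsLocalRing.residue A) ↥(modularFunctionFieldBar (M * q))
    ↥(modularFunctionFieldFullC (IsLocalRing.ResidueField A) M)}

/-- An element with poles at cusps only lies in some `L(m H)`. -/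
theorem exists_mem_mul {K E : Type*} [Field K] [IsAlgClosed K] [Field E] [Algebra K E]
    [IsFunctionField K E]
    {H : Divisor K E} (hH : ∀ P, 0 ≤ H P) {f : E} (hf : ∀ P, H P = 0 → 0 ≤ P.ord f) :
    ∃ m : ℕ, f ∈ riemannRochSpace ((m : ℤ) • H) := by
  classical
  refine ⟨(divisorOf (K := K) f).support.sup fun P => (P.ord f).natAbs,
    mem_rrs_iff.mpr (Or.inr fun P => ?_)⟩
  rw [Finsupp.smul_apply, smul_eq_mul]
  rcases (hH P).eq_or_lt with h | h
  · rw [← h, mul_zero, neg_zero]; exact hf P h.symm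
  by_cases hP : P ∈ (divisorOf (K := K) f).support
  · have h1 : ((P.ord f).natAbs : ℤ) ≤
        ((divisorOf (K := K) f).support.sup fun P => (P.ord f).natAbs : ℕ) := by
      exact_mod_cast Finset.le_sup (f := fun P => (P.ord f).natAbs) hP
    have h2 : -((P.ord f).natAbs : ℤ) ≤ P.ord f := by omega
    nlinarith
  · rw [Finsupp.notMem_support_iff, divisorOf_apply] at hP
    rw [hP, neg_nonpos]
    positivity

namespace CuspData

variable (hC : CuspData S)

include hC in
theorem H_smul_wq (P : Place Qbar ↥(modularFunctionFieldBar (M * q))) :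
    S.H (SemilinearAut.ofAlgAut (wq hq hqM) • P) = S.H P := by
  have key : ∀ a b, wq hq hqM a = b →
      (SemilinearAut.ofAlgAut (wq hq hqM) • P).ord b = P.ord a := fun a b h => by
    rw [← h, ← SemilinearAut.ofAlgAut_smul, SemilinearAut.ord_smul]
  have k1 := key (jEl0 M q) (jqEl0 M q) (wq_heckeAlphaBar hq hqM (jBar M))
  have k2 := key (jqEl0 M q) (jEl0 M q) (wq_heckeBetaBar hq hqM (jBar M))
  rw [hC.H_eq, hC.H_eq, k1, k2, add_comm]

end CuspData

namespace UnitInputs

variable (U : UnitInputs hq hqM S) (hS : IsSeriesModel hq hqM S) (hC : CuspData S)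

theorem x_ne : U.x ≠ 0 := fun h => by
  have := U.coe_x
  rw [h] at this
  exact qSerZ_ne_zero _ (this.symm.trans (ZeroMemClass.coe_zero _))

include hS in
theorem red_x :
    (S.Int 0 U.x ∧ (S.red 0 U.x : LaurentSeries (IsLocalRing.ResidueField A)) =
      kSer A (unitSer q)) ∧ (S.Int 1 U.x ∧ S.red 1 U.x = 0) := by
  have h0 := hS.red_eq_series (i := 0) (f := U.x) (y := aSer A (unitSer q))
    (by rw [expansion_zero, U.coe_x, ιS_aSer])
  rw [redS_aSer] at h0
  refine ⟨h0, ?_⟩
  have hw : wq hq hqM U.x = algebraMap Qbar _ ((q : Qbar) ^ 12) * U.x⁻¹ := by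
    rw [← U.x_mul_wq, mul_comm U.x, mul_assoc, mul_inv_cancel₀ U.x_ne, mul_one]
  have h1 := hS.red_eq_series (i := 1) (f := U.x)
    (y := HahnSeries.single 0 ((q : A) ^ 12) * aSer A (unitSer q)⁻¹) (by
      rw [expansion_one, hw, map_mul, ιS_aSer, qSerZ_inv, ← U.coe_x, MulMemClass.coe_mul,
        IntermediateField.coe_inv, ιS_single]
      congr 1
      rw [show ((algebraMap Qbar ↥(modularFunctionFieldBar (M * q)) ((q : Qbar) ^ 12) :
        ↥(modularFunctionFieldBar (M * q))) : LaurentSeries Qbar) =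
          algebraMap Qbar (LaurentSeries Qbar) ((q : Qbar) ^ 12) from rfl,
        algebraMap_laurentSeries_eq_single]
      push_cast
      rfl)
  refine ⟨h1.1, Subtype.ext (h1.2.trans ?_)⟩
  rw [map_mul, redS_single, map_pow, map_natCast, CharP.cast_eq_zero, zero_pow (by norm_num),
    map_zero, zero_mul]
  rfl

include hS in
theorem red_wq_x :
    (S.Int 1 (wq hq hqM U.x) ∧ S.red 1 (wq hq hqM U.x) = S.red 0 U.x) ∧
      (S.Int 0 (wq hq hqM U.x) ∧ S.red 0 (wq hq hqM U.x) = 0) := by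
  obtain ⟨⟨h0, -⟩, ⟨h1, h1r⟩⟩ := U.red_x hS
  have e1 : expansion hq hqM 1 (wq hq hqM U.x) = expansion hq hqM 0 U.x := by
    rw [expansion_one, wq_wq, expansion_zero]
  have e0 : expansion hq hqM 0 (wq hq hqM U.x) = expansion hq hqM 1 U.x := by
    rw [expansion_one, expansion_zero]
  obtain ⟨i1, r1⟩ := hS.red_eq (i := 1) (f := wq hq hqM U.x)
    (v := (S.red 0 U.x : LaurentSeries (IsLocalRing.ResidueField A)))
    (by rw [e1]; exact hS.srep_red 0 U.x h0)
  obtain ⟨i0, r0⟩ := hS.red_eq (i := 0) (f := wq hq hqM U.x)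
    (v := (S.red 1 U.x : LaurentSeries (IsLocalRing.ResidueField A)))
    (by rw [e0]; exact hS.srep_red 1 U.x h1)
  exact ⟨⟨i1, Subtype.ext r1⟩, ⟨i0, (Subtype.ext r0 : S.red 0 _ = S.red 1 U.x).trans h1r⟩⟩

theorem ord_x_nonneg (P : Place Qbar ↥(modularFunctionFieldBar (M * q))) (hP : S.H P = 0) :
    0 ≤ P.ord U.x := by
  have h := U.x_poles P
  rw [hP, mul_zero, neg_zero] at h
  exact nonneg_of_mul_nonneg_right h (by positivity)

include U hS hC in
theorem pos_at_pairs {a : ↥(modularFunctionFieldFullC (IsLocalRing.ResidueField A) M)}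
    (ha : a ≠ 0) (hax : S.red 0 U.x = a) :
    ∀ p ∈ S.pairs, 0 < p.1.ord a ∧ 0 < p.2.ord a := by
  haveI := isFunctionField_level (M * q)
  intro p hp
  obtain ⟨⟨h0, -⟩, ⟨h1, h1r⟩⟩ := U.red_x hS
  obtain ⟨⟨w1, w1r⟩, ⟨w0, w0r⟩⟩ := U.red_wq_x hS
  obtain ⟨m, hm⟩ := exists_mem_mul S.H_nonneg U.ord_x_nonneg
  obtain ⟨m', hm'⟩ := exists_mem_mul (H := S.H) S.H_nonneg (f := wq hq hqM U.x) fun P hP => by
    have h2 := U.ord_x_nonneg ((SemilinearAut.ofAlgAut (wq hq hqM))⁻¹ • P) (by
      rw [← hC.H_smul_wq (hq := hq) (hqM := hqM), smul_inv_smul]; exact hP)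
    rwa [← SemilinearAut.ord_smul (SemilinearAut.ofAlgAut (wq hq hqM)), smul_inv_smul,
      SemilinearAut.ofAlgAut_smul] at h2
  have hi : ∀ i, S.Int i U.x := fun i => by
    rcases (show i = 0 ∨ i = 1 by omega) with rfl | rfl <;> assumption
  have hi' : ∀ i, S.Int i (wq hq hqM U.x) := fun i => by
    rcases (show i = 0 ∨ i = 1 by omega) with rfl | rfl <;> assumption
  exact ⟨(S.ord_pos_of_reach ha hp hm hi).1 hax h1r,
    (S.ord_pos_of_reach ha hp hm' hi').2 (w1r.trans hax) w0r⟩

include U hS hC in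
/-- **Simple zeros at the supersingular places.** -/
theorem ord_beta_eq_one (hodd : Odd q) (hM : (M : IsLocalRing.ResidueField A) ≠ 0)
    {β : ↥(modularFunctionFieldFullC (IsLocalRing.ResidueField A) M)}
    (hβ : (β : LaurentSeries (IsLocalRing.ResidueField A)) = kSer A (betaSer q)) :
    ∀ p ∈ S.pairs, p.1.ord β = 1 ∧ p.2.ord β = 1 := by
  classical
  haveI := isFunctionField_level (M * q)
  haveI := finiteDimensional_jC (IsLocalRing.ResidueField A) M hM
  obtain ⟨⟨h0, h0r⟩, ⟨h1, h1r⟩⟩ := U.red_x hS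
  set a := S.red 0 U.x with hadef
  have hane : a ≠ 0 := fun h => by
    rw [h] at h0r
    exact ((unitSer q).isUnit.map (coeffMap (Int.castRingHom (IsLocalRing.ResidueField A)))).ne_zero h0r.symm
  -- the unit `u`
  set v' := heckeAlphaBar Qbar M q U.v
  have hv0 : expansion hq hqM 0 v' = qSerZ uSer := by
    rw [expansion_zero, coe_heckeAlphaBar, U.coe_v]
  have hv1 : expansion hq hqM 1 v' = qExpand Qbar q (qSerZ uSer) := by
    rw [expansion_one, wq_heckeAlphaBar, coe_heckeBetaBar, U.coe_v]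
  obtain ⟨hu0, hu0r⟩ := hS.red_eq_series (i := 0) (y := aSer A uSer) (by rw [hv0, ιS_aSer])
  obtain ⟨hu1, -⟩ := hS.red_eq_series (i := 1) (y := qExpand A q (aSer A uSer))
    (by rw [hv1, ιS, coeffMap_qExpand, ← ιS, ιS_aSer])
  obtain ⟨hi0, -⟩ := hS.red_eq_series (i := 0) (f := v'⁻¹) (y := aSer A uSer⁻¹)
    (by rw [map_inv₀, hv0, ιS_aSer, qSerZ_inv])
  obtain ⟨hi1, -⟩ := hS.red_eq_series (i := 1) (f := v'⁻¹) (y := qExpand A q (aSer A uSer⁻¹))
    (by rw [map_inv₀, hv1, ιS, coeffMap_qExpand, ← ιS, ιS_aSer, qSerZ_inv, map_inv₀])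
  set u := S.red 0 v' with hudef
  rw [redS_aSer] at hu0r
  have hune : u ≠ 0 := fun h => by
    rw [h] at hu0r
    exact (uSer.isUnit.map (coeffMap (Int.castRingHom (IsLocalRing.ResidueField A)))).ne_zero hu0r.symm
  have hvne : v' ≠ 0 := S.ne_zero_of_red_ne hune
  have huu : S.red 0 v' * S.red 0 v'⁻¹ = 1 := by
    rw [← S.red_mul 0 _ _ hu0 hi0, mul_inv_cancel₀ hvne, S.red_one]
  have huaff : ∀ P, S.C P = 0 → P.ord u = 0 := by
    have hmem : ∀ (f : ↥(modularFunctionFieldBar (M * q))), (∀ P, S.H P = 0 → P.ord f = 0) →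
        (∀ i, S.Int i f) → S.red 0 f ≠ 0 → ∀ P, S.C P = 0 → 0 ≤ P.ord (S.red 0 f) := by
      intro f hf hfi hf0 P hP
      obtain ⟨m, hm⟩ := exists_mem_mul S.H_nonneg fun P hP => (hf P hP).ge
      have := (mem_rrs_iff.mp (S.bound m f hfi hm 0)).resolve_left hf0 P
      simpa [hP] using this
    intro P hP
    have h2 := hmem v' U.v_affine (fun i => by
      rcases (show i = 0 ∨ i = 1 by omega) with rfl | rfl <;> assumption) hune P hP
    have h3 := hmem v'⁻¹ (fun P hP => by rw [P.ord_inv, U.v_affine P hP, neg_zero]) (fun i => by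
      rcases (show i = 0 ∨ i = 1 by omega) with rfl | rfl <;> assumption)
      (right_ne_zero_of_mul_eq_one huu) P hP
    rw [eq_inv_of_mul_eq_one_right huu, P.ord_inv] at h3
    rw [← hudef] at h3 h2
    omega
  -- `a` has poles at cusps only
  have hq1 : 1 ≤ q := NeZero.one_le
  have hpow : U.x ^ (q + 1) ∈ riemannRochSpace (((q - 1 : ℕ) : ℤ) • S.H) := by
    refine mem_rrs_iff.mpr (Or.inr fun P => ?_)
    rw [Finsupp.smul_apply, smul_eq_mul, ord_pow]
    push_cast [Nat.cast_sub hq1]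
    exact U.x_poles P
  have hbd : ∀ P : Place (IsLocalRing.ResidueField A)
      ↥(modularFunctionFieldFullC (IsLocalRing.ResidueField A) M), -(((q - 1 : ℕ) : ℤ) * max (-P.ord (jbar (IsLocalRing.ResidueField A) M)) 0) ≤ P.ord a := by
    intro P
    have h2 := (mem_rrs_iff.mp (S.bound _ _ (fun i => S.int_pow
      (show S.Int i U.x by rcases (show i = 0 ∨ i = 1 by omega) with rfl | rfl <;> assumption)
        _) hpow 0)).resolve_left
      (by rw [S.red_pow h0]; exact pow_ne_zero _ hane) P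
    rw [S.red_pow h0, ord_pow, ← hadef, Finsupp.smul_apply, smul_eq_mul, hC.C_eq] at h2
    refine le_of_mul_le_mul_left ?_ (by positivity : (0 : ℤ) < ((q + 1 : ℕ) : ℤ))
    linarith
  have hC0 : ∀ P, S.C P = 0 → max (-P.ord (jbar (IsLocalRing.ResidueField A) M)) 0 = 0 := fun P hP => by
    rw [hC.C_eq] at hP
    exact (mul_eq_zero.mp hP).resolve_left (by positivity)
  refine S.ord_eq_one_of_count hane hune
    (fun h => ((betaSer q).isUnit.map (coeffMap (Int.castRingHom (IsLocalRing.ResidueField A)))).ne_zero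
      (hβ.symm.trans (by rw [h]; rfl)))
    (fun P hP => by have := hbd P; rw [hC0 P hP, mul_zero, neg_zero] at this; exact this) huaff
    ((q - 1 : ℕ) : ℤ) ?_ (((q - 1 : ℕ) : ℤ) • polarDivisor (jbar (IsLocalRing.ResidueField A) M)) (fun P hP => ?_)
    (fun P _ => ?_) ?_ (U.pos_at_pairs hS hC hane rfl)
  · refine Subtype.ext ?_
    rw [zpow_natCast, MulMemClass.coe_mul, SubmonoidClass.coe_pow, SubmonoidClass.coe_pow, h0r,
      hβ, hu0r]
    exact coeffMap_unitSer_char (IsLocalRing.ResidueField A) q hodd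
  · rw [Finsupp.smul_apply, polarDivisor_apply, hC0 P hP, smul_zero]
  · rw [Finsupp.smul_apply, polarDivisor_apply, smul_eq_mul]
    exact hbd P
  · rw [map_zsmul, show jbar (IsLocalRing.ResidueField A) M = jC (IsLocalRing.ResidueField A) M from rfl, degree_polarDivisor (transcendental_jC (IsLocalRing.ResidueField A) M),
      finrank_jC (IsLocalRing.ResidueField A) M hM, smul_eq_mul]
    exact hC.card_pairs

end UnitInputs

end Fermat.Agent.XHLite

end
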