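import Fermat.Agent.XHLite.Glue.Cover
import Fermat.Agent.XHLite.Glue.Supersingular
import Fermat.Agent.XHLite.Analytic.Series

/-!
# The character and the numerators modulo `q`

At a place above `q` some power `χ ^ i`, `i` prime to the order `d`, reduces to `x ↦ x ^ (-(q-1)/d)`;
in weight `(1 + d) (q - 1) / d` its numerator at `∞` reduces to
`∑ (σ (n) - σ (n / 2)) X ^ n`, `σ n = ∑_{e ∣ n} e ^ (q - 2)`.
-/

set_option autoImplicit false
set_option linter.unusedSectionVars false

noncomputable section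

open ModularCurve IsLocalRing Fermat.Agent.SemistableRed Fermat.Agent.Reduction

namespace Fermat.Agent.XHLite

local notation "Qbar" => AlgebraicClosure ℚ

/-- `∑_{e ∣ n} e ^ (q - 2) - ∑_{e ∣ n / 2} e ^ (q - 2)`. -/
def levelTwoCoeff (R : Type*) [CommRing R] (q n : ℕ) : R :=
  (∑ x ∈ n.divisorsAntidiagonal, (x.2 : R) ^ (q - 2)) -
    if 2 ∣ n then ∑ x ∈ (n / 2).divisorsAntidiagonal, (x.2 : R) ^ (q - 2) else 0

theorem map_levelTwoCoeff {R S : Type*} [CommRing R] [CommRing S] (f : R →+* S) (q n : ℕ) :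
    f (levelTwoCoeff R q n) = levelTwoCoeff S q n := by
  simp only [levelTwoCoeff, map_sub, apply_ite f, map_sum, map_pow, map_natCast, map_zero]

/-- The series of the level two form of weight `q - 1` over `f₄ ^ ((q - 1) / 2)`. -/
def levelTwoSer (R : Type*) [CommRing R] (q : ℕ) : LaurentSeries R :=
  HahnSeries.ofPowerSeries ℤ R (PowerSeries.mk (levelTwoCoeff R q)) *
    coeffMap (Int.castRingHom R)
      ((f4Unit⁻¹ ^ ((q - 1) / 2) : (LaurentSeries ℤ)ˣ) : LaurentSeries ℤ)

theorem coeffMap_levelTwoSer {R S : Type*} [CommRing R] [CommRing S] (f : R →+* S) (q : ℕ) :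
    coeffMap f (levelTwoSer R q) = levelTwoSer S q := by
  rw [levelTwoSer, levelTwoSer, map_mul, coeffMap_ofPowerSeries, map_mk, coeffMap_coeffMap,
    RingHom.ext_int (f.comp (Int.castRingHom R)) (Int.castRingHom S)]
  simp only [map_levelTwoCoeff]

variable {q : ℕ} [Fact q.Prime]

theorem levelTwoSer_ne_zero (R : Type*) [CommRing R] [Nontrivial R] : levelTwoSer R q ≠ 0 := by
  intro h
  have hu : IsUnit (coeffMap (Int.castRingHom R)
      ((f4Unit⁻¹ ^ ((q - 1) / 2) : (LaurentSeries ℤ)ˣ) : LaurentSeries ℤ)) :=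
    (Units.isUnit _).map _
  rw [levelTwoSer, IsUnit.mul_left_eq_zero hu] at h
  have h1 := congrArg (fun x : LaurentSeries R => x.coeff ((1 : ℕ) : ℤ)) h
  simp only [HahnSeries.ofPowerSeries_apply_coeff, PowerSeries.coeff_mk, levelTwoCoeff,
    HahnSeries.coeff_zero] at h1
  simp at h1

theorem yZeroSer_ne_zero {R : Type*} [CommRing R] [Nontrivial R] (χ : MulChar (ZMod q) R) (m : ℕ) :
    yZeroSer χ m ≠ 0 := by
  intro h
  have hu : IsUnit (coeffMap (Int.castRingHom R)
      ((expandUnit q f4Unit⁻¹ ^ m : (LaurentSeries ℤ)ˣ) : LaurentSeries ℤ)) :=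
    (Units.isUnit _).map _
  rw [yZeroSer, IsUnit.mul_left_eq_zero hu] at h
  have h1 := congrArg (fun x : LaurentSeries R => x.coeff ((1 : ℕ) : ℤ)) h
  simp only [HahnSeries.ofPowerSeries_apply_coeff, PowerSeries.coeff_mk, numZeroCoeff_one,
    HahnSeries.coeff_zero] at h1
  exact one_ne_zero h1

/-- The exponents of weight `r + (q - 1)` collapse to those of weight `q - 1`. -/
theorem numInfCoeff_of_character {k : Type*} [Field k] [CharP k q] (hq : 3 ≤ q)
    (χ : MulChar (ZMod q) k) {r : ℕ}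
    (h : ∀ x : ℕ, (x : ZMod q) ≠ 0 → χ (x : ZMod q) * (x : k) ^ r = 1) (n : ℕ) :
    numInfCoeff χ (r + (q - 1)) n = levelTwoCoeff k q n := by
  have key : ∀ x : ℕ, χ (x : ZMod q) * (x : k) ^ (r + (q - 1) - 1) = (x : k) ^ (q - 2) := by
    intro x
    rw [show r + (q - 1) - 1 = r + (q - 2) by omega]
    by_cases hx : (x : ZMod q) = 0
    · have hk : (x : k) = 0 := by
        rw [CharP.cast_eq_zero_iff k q, ← ZMod.natCast_eq_zero_iff]; exact hx
      rw [hk, hx, MulChar.map_zero, zero_mul, zero_pow (by omega)]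
    · rw [pow_add, ← mul_assoc, h x hx, one_mul]
  simp only [numInfCoeff, divSumInf, levelTwoCoeff, key]

theorem natCast_castHom {k : Type*} [Field k] [CharP k q] (x : ℕ) :
    ZMod.castHom (dvd_refl q) k (x : ZMod q) = (x : k) := map_natCast _ x

variable {A : ValuationSubring Qbar}

theorem value_mem (χ : MulChar (ZMod q) Qbar) (x : ZMod q) : χ x ∈ A := by
  by_cases hx : x = 0
  · rw [hx, MulChar.map_zero]; exact zero_mem A
  · have h : χ x ^ (q - 1) = 1 := by
      rw [← map_pow, ZMod.pow_card_sub_one_eq_one hx, map_one]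
    refine (A.mem_or_inv_mem (χ x)).elim id fun hinv => ?_
    have h2 := (Fact.out : q.Prime).two_le
    have hz : χ x = (χ x)⁻¹ ^ (q - 2) := by
      rw [inv_pow]
      refine eq_inv_of_mul_eq_one_left ?_
      rw [← pow_succ', show q - 2 + 1 = q - 1 by omega, h]
    rw [hz]
    exact pow_mem hinv _

variable (A) in
/-- The character with values in `A`. -/
def charA (χ : MulChar (ZMod q) Qbar) : MulChar (ZMod q) A where
  toFun x := ⟨χ x, value_mem χ x⟩
  map_one' := Subtype.ext (MulChar.map_one χ)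
  map_mul' x y := Subtype.ext (map_mul χ x y)
  map_nonunit' _ hx := Subtype.ext (χ.map_nonunit hx)

theorem charA_comp_subtype (χ : MulChar (ZMod q) Qbar) :
    (charA A χ).ringHomComp A.subtype = χ := MulChar.ext fun _ => rfl

variable (A) in
/-- The reduced character. -/
def charK (χ : MulChar (ZMod q) Qbar) : MulChar (ZMod q) (ResidueField A) :=
  (charA A χ).ringHomComp (residue A)

theorem srep_ySer (χ : MulChar (ZMod q) Qbar) (m : ℕ) :
    SRep (A := A) (ySer χ m) (ySer (charK A χ) m) := by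
  have h := SRep.series (A := A) (ySer (charA A χ) m)
  rw [show ιS A (ySer (charA A χ) m) = ySer χ m from
      (coeffMap_ySer A.subtype _ m).trans (by rw [charA_comp_subtype]),
    show redS A (ySer (charA A χ) m) = ySer (charK A χ) m from coeffMap_ySer _ _ m] at h
  exact h

theorem srep_yZeroSer (χ : MulChar (ZMod q) Qbar) (m : ℕ) :
    SRep (A := A) (yZeroSer χ m) (yZeroSer (charK A χ) m) := by
  have h := SRep.series (A := A) (yZeroSer (charA A χ) m)
  rw [show ιS A (yZeroSer (charA A χ) m) = yZeroSer χ m from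
      (coeffMap_yZeroSer A.subtype _ m).trans (by rw [charA_comp_subtype]),
    show redS A (yZeroSer (charA A χ) m) = yZeroSer (charK A χ) m from
      coeffMap_yZeroSer _ _ m] at h
  exact h

theorem srep_levelTwoSer : SRep (A := A) (levelTwoSer Qbar q) (levelTwoSer (ResidueField A) q) := by
  have h := SRep.series (A := A) (levelTwoSer A q)
  rw [show ιS A (levelTwoSer A q) = levelTwoSer Qbar q from coeffMap_levelTwoSer A.subtype q,
    show redS A (levelTwoSer A q) = levelTwoSer (ResidueField A) q from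
      coeffMap_levelTwoSer _ q] at h
  exact h

/-- **The exponent at a place.** -/
theorem exists_exponent [CharP (ResidueField A) q] (χ : MulChar (ZMod q) Qbar) {d : ℕ}
    (hd : orderOf χ = d) {r : ℕ} (hr : d * r = q - 1) :
    ∃ i : ℕ, i.Coprime d ∧ orderOf (χ ^ i) = d ∧
      ∀ x : ℕ, (x : ZMod q) ≠ 0 →
        charK A (χ ^ i) (x : ZMod q) * (x : ResidueField A) ^ r = 1 := by
  have h2 := (Fact.out : q.Prime).two_le
  have hd0 : d ≠ 0 := hd ▸ χ.orderOf_pos.ne'
  have hr0 : r ≠ 0 := fun h => by rw [h, mul_zero] at hr; omega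
  have : NeZero d := ⟨hd0⟩
  have hdk : (d : ResidueField A) ≠ 0 := fun h0 => by
    have h3 := (CharP.cast_eq_zero_iff (ResidueField A) q _).mp h0
    have h4 : q ∣ q - 1 := hr ▸ dvd_mul_of_dvd_left h3 r
    have := Nat.le_of_dvd (by omega) h4
    omega
  obtain ⟨g, hg⟩ := IsCyclic.exists_generator (α := (ZMod q)ˣ)
  have hord : orderOf g = q - 1 := by
    rw [orderOf_eq_card_of_forall_mem_zpowers hg, Nat.card_eq_fintype_card, ZMod.card_units]
  have hζ : IsPrimitiveRoot (χ (g : ZMod q)) d := by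
    refine IsPrimitiveRoot.iff_def _ _ |>.mpr ⟨?_, fun l hl => ?_⟩
    · rw [← MulChar.pow_apply_coe, ← hd, pow_orderOf_eq_one, MulChar.one_apply_coe]
    · rw [← hd, orderOf_dvd_iff_pow_eq_one]
      refine MulChar.ext fun a => ?_
      obtain ⟨e, rfl⟩ := Submonoid.mem_powers_iff _ _ |>.mp (mem_powers_iff_mem_zpowers.mpr (hg a))
      rw [Units.val_pow_eq_pow_val, map_pow, MulChar.pow_apply_coe, hl, one_pow,
        MulChar.one_apply ((g.isUnit).pow e)]
  obtain ⟨hmem, hprim⟩ := residue_isPrimitiveRoot (A := A) hζ hdk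
  set w : ResidueField A := ZMod.castHom (dvd_refl q) _ (g : ZMod q) with hw
  have hwp : IsPrimitiveRoot w (q - 1) :=
    (hord ▸ (IsPrimitiveRoot.orderOf g).map_of_injective (f := Units.coeHom (ZMod q))
      Units.val_injective).map_of_injective (RingHom.injective (ZMod.castHom (dvd_refl q) (ResidueField A)))
  have htarget : IsPrimitiveRoot (w ^ r)⁻¹ d :=
    (hwp.pow (by omega) (hr.symm.trans (mul_comm _ _))).inv
  obtain ⟨i, -, hi⟩ := hprim.eq_pow_of_pow_eq_one htarget.pow_eq_one
  have hcop : i.Coprime d :=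
    (hprim.pow_iff_coprime (Nat.pos_of_ne_zero hd0) i).mp (hi ▸ htarget)
  refine ⟨i, hcop, by rw [Nat.Coprime.orderOf_pow (hd ▸ hcop.symm), hd], fun x hx => ?_⟩
  obtain ⟨e, he⟩ := Submonoid.mem_powers_iff _ _ |>.mp
    (mem_powers_iff_mem_zpowers.mpr (hg (Units.mk0 _ hx)))
  have hx' : (x : ZMod q) = (g : ZMod q) ^ e := by
    rw [← Units.val_pow_eq_pow_val, he, Units.val_mk0]
  have hxk : (x : ResidueField A) = w ^ e := by rw [← natCast_castHom, hx', map_pow]
  have hval : charK A (χ ^ i) (g : ZMod q) = residue A ⟨_, hmem⟩ ^ i := by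
    rw [← map_pow]
    exact congrArg (residue A) (Subtype.ext (MulChar.pow_apply_coe χ i g))
  have hw0 : w ^ r ≠ 0 := pow_ne_zero _ (hwp.ne_zero (by omega))
  rw [hx', hxk, map_pow, hval, hi, ← pow_mul w, mul_comm e r, pow_mul, ← mul_pow,
    inv_mul_cancel₀ hw0, one_pow]

/-- **The numerator modulo `q`.** -/
theorem ySer_charK_pow [CharP (ResidueField A) q] (hq : Odd q) (χ : MulChar (ZMod q) Qbar)
    {d r : ℕ} (hr : d * (2 * r) = q - 1)
    (h : ∀ x : ℕ, (x : ZMod q) ≠ 0 →
      charK A χ (x : ZMod q) * (x : ResidueField A) ^ (2 * r) = 1) :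
    ySer (charK A χ) ((1 + d) * r) ^ d =
      levelTwoSer (ResidueField A) q ^ d * kSer A (betaSer q) := by
  obtain ⟨j, rfl⟩ := hq
  have hj : d * r = j := by
    rw [show d * (2 * r) = 2 * (d * r) by ring] at hr
    omega
  have hcoe : numInfCoeff (charK A χ) (2 * ((1 + d) * r)) =
      levelTwoCoeff (ResidueField A) (2 * j + 1) := by
    funext n
    rw [show 2 * ((1 + d) * r) = 2 * r + (2 * j + 1 - 1) by
      rw [show 2 * ((1 + d) * r) = 2 * r + 2 * (d * r) by ring, hj]; omega]
    exact numInfCoeff_of_character (by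
      rcases Nat.eq_zero_or_pos j with rfl | hj0
      · exact absurd (Fact.out : (2 * 0 + 1).Prime) (by norm_num)
      · omega) _ h n
  rw [ySer, levelTwoSer, hcoe, mul_pow, mul_pow, mul_assoc]
  congr 1
  rw [kSer, betaSer, ← map_pow, ← map_pow, ← map_mul, ← Units.val_pow_eq_pow_val,
    ← Units.val_pow_eq_pow_val, ← Units.val_mul]
  congr 2
  rw [← pow_mul, ← pow_mul, ← inv_pow, show (2 * j + 1 - 1) / 2 = j by omega, ← pow_add]
  congr 1
  rw [← hj]
  ring

end Fermat.Agent.XHLite

end
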