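import Fermat.Agent.J0Torsion.SerMem
import Fermat.Agent.J0Torsion.CoeffDescent
import Fermat.Agent.X0Analytic.Places
import Fermat.Agent.X0Analytic.Theta
import Fermat.Agent.SemistableRed.AtkinLehner
import Fermat.Agent.FunctionFieldRR.RationalBase

/-!
# Elements of the function field represented by modular functions

`IsRep φ x G` says that `G` has the series of `x`. Then the expansions of `x` at points and cusps
are those of the conjugates of `G`, and `w_q x` is represented by `G ∘ W`.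
-/

set_option autoImplicit false

noncomputable section

open UpperHalfPlane CongruenceSubgroup AlgebraicCurve Fermat.Agent.FunctionFieldRR
open scoped MatrixGroups

namespace Fermat.Agent.XHLite

open X0Analytic (modFun FLevel algGen algToField toModFun ser embCusp embPoint qSer conj scaleGL
  scaledJ)
open Gamma0Count (CosetSpace)

section

variable {L : Type} [Field L] [Algebra ℚ L] {N : ℕ} [NeZero N] (φ : L →+* ℂ)

/-- `G` has the series of `x`. -/
def IsRep (x : ↥(FLevel L N)) (G : ↥(modFun N)) : Prop :=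
  ser N G = ModularCurve.coeffMap φ (x : LaurentSeries L)

theorem isRep_algebraMap (c : L) :
    IsRep φ (algebraMap L ↥(FLevel L N) c) (algebraMap ℂ ↥(modFun N) (φ c)) := by
  rw [IsRep, X0Analytic.ser_algebraMap,
    show ((algebraMap L ↥(FLevel L N) c : ↥(FLevel L N)) : LaurentSeries L) =
      algebraMap L (LaurentSeries L) c from rfl,
    ModularCurve.algebraMap_laurentSeries_eq_single, ModularCurve.coeffMap_single]

theorem IsRep.mul {x y : ↥(FLevel L N)} {G H : ↥(modFun N)} (hx : IsRep φ x G)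
    (hy : IsRep φ y H) : IsRep φ (x * y) (G * H) := by
  rw [IsRep, map_mul, hx, hy, MulMemClass.coe_mul, map_mul]

theorem IsRep.inv {x : ↥(FLevel L N)} {G H : ↥(modFun N)} (hx : IsRep φ x G) (hGH : G * H = 1) :
    IsRep φ x⁻¹ H := by
  rw [IsRep, IntermediateField.coe_inv, map_inv₀, ← hx]
  exact eq_inv_of_mul_eq_one_right (by rw [← map_mul, hGH, map_one])

theorem IsRep.ne_zero {x : ↥(FLevel L N)} {G : ↥(modFun N)} (hx : IsRep φ x G) (hG : G ≠ 0) :
    x ≠ 0 := fun h => hG (X0Analytic.ser_injective (by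
  rw [hx, h, ZeroMemClass.coe_zero, map_zero, map_zero]))

/-- **Membership**: a series over `L` which is the series of a modular function. -/
theorem exists_isRep {z : LaurentSeries L} {G : ↥(modFun N)}
    (h : ser N G = ModularCurve.coeffMap φ z) :
    ∃ x : ↥(FLevel L N), (x : LaurentSeries L) = z ∧ IsRep φ x G :=
  ⟨⟨z, J0Torsion.mem_FLevel_of_coeffMap_mem φ (h ▸ J0Torsion.ser_mem_FLevel G)⟩, rfl, h⟩

theorem IsRep.exists_num_den {x : ↥(FLevel L N)} {G : ↥(modFun N)} (hx : IsRep φ x G) :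
    ∃ a b : ↥(algGen L N), b ≠ 0 ∧ x * algToField L N b = algToField L N a ∧
      G * toModFun φ b = toModFun φ a := by
  obtain ⟨a, b, hb, hab⟩ := X0Analytic.exists_div L N x
  refine ⟨a, b, hb, hab, X0Analytic.ser_injective ?_⟩
  rw [map_mul, hx, X0Analytic.ser_toModFun, X0Analytic.ser_toModFun, ← map_mul]
  congr 1
  simpa using congrArg (fun z : ↥(FLevel L N) => (z : LaurentSeries L)) hab

theorem IsRep.embCusp_eq {x : ↥(FLevel L N)} {G : ↥(modFun N)} (hx : IsRep φ x G)
    (s : CosetSpace N) : embCusp φ s x = qSer N (conj s G) := by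
  obtain ⟨a, b, hb, hab, hG⟩ := hx.exists_num_den
  have h := congrArg (embCusp φ s) hab
  rw [map_mul, X0Analytic.embCusp_algToField, X0Analytic.embCusp_algToField, ← hG, map_mul,
    map_mul] at h
  refine mul_right_cancel₀ ?_ h
  exact fun h0 => hb (X0Analytic.toModFun_injective φ (by
    rw [map_zero]
    exact X0Analytic.conj_injective s (X0Analytic.qSer_injective (by rw [h0, map_zero, map_zero]))))

theorem IsRep.embPoint_eq {x : ↥(FLevel L N)} {G : ↥(modFun N)} (hx : IsRep φ x G) (τ : ℍ)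
    (s : CosetSpace N) : embPoint φ τ s x = X0Analytic.pointHom τ s G := by
  obtain ⟨a, b, hb, hab, hG⟩ := hx.exists_num_den
  have h := congrArg (embPoint φ τ s) hab
  rw [map_mul, X0Analytic.embPoint_algToField, X0Analytic.embPoint_algToField, ← hG,
    ← X0Analytic.pointHom_apply, ← X0Analytic.pointHom_apply, map_mul] at h
  refine mul_right_cancel₀ ?_ h
  exact fun h0 => hb (X0Analytic.toModFun_injective φ (by
    rw [map_zero]
    exact X0Analytic.pointHom_injective τ s (by rw [h0, map_zero])))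

theorem order_psL_nonneg (P : PowerSeries ℂ) : 0 ≤ (X0Analytic.psL P).order := by
  rcases eq_or_ne (X0Analytic.psL P) 0 with h | h
  · rw [h, HahnSeries.order_zero]
  · by_contra hlt
    push Not at hlt
    exact mt HahnSeries.coeff_order_eq_zero.mp h
      (ModularCurve.ofPowerSeries_coeff_of_neg P hlt)

/-- A modular function has no pole where `j` is finite. -/
theorem IsRep.ord_nonneg [IsAlgClosed L] {x : ↥(FLevel L N)} {G : ↥(modFun N)}
    (hx : IsRep φ x G) (P : Place L ↥(FLevel L N))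
    (hP : 0 ≤ P.ord (X0Analytic.jEl L N)) : 0 ≤ P.ord x := by
  classical
  have := X0Analytic.isFunctionField (N := N) φ
  set j := X0Analytic.jEl L N with hj
  set c := residueConst P j with hc
  have hjne : j - algebraMap L ↥(FLevel L N) c ≠ 0 := fun h => by
    refine X0Analytic.transcendental_jEl (N := N) φ ?_
    rw [← hj, sub_eq_zero.mp h]
    exact isAlgebraic_algebraMap c
  have hpos : 0 < P.ord (j - algebraMap L ↥(FLevel L N) c) :=
    (residueConst_spec P ((ord_nonneg_iff _ _).mp hP)).resolve_left hjne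
  have key : ∀ (τ : ℍ) (m : ℕ) (σ : Equiv.Perm (CosetSpace N))
      (pl : CosetSpace N → Place L ↥(FLevel L N)), 0 < m →
      X0Analytic.FibreData (embPoint φ τ) (j - algebraMap L ↥(FLevel L N) c) m σ pl →
      0 ≤ P.ord x := by
    rintro τ m σ pl hm ⟨-, -, hord, -, hsurj⟩
    obtain ⟨s, rfl⟩ := hsurj P hpos
    have h := hord s x
    rw [hx.embPoint_eq, X0Analytic.pointHom_apply] at h
    refine nonneg_of_mul_nonneg_right (b := (pl s).ord x) (a := (m : ℤ)) ?_ (by exact_mod_cast hm)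
    rw [← h]
    exact mul_nonneg (order_psL_nonneg _) (Int.natCast_nonneg _)
  rcases eq_or_ne c 0 with h0 | h0
  · obtain ⟨pl, hpl⟩ := X0Analytic.exists_places_zero (N := N) φ
    rw [← h0, ← hj] at hpl
    exact key _ 3 _ pl (by norm_num) hpl
  rcases eq_or_ne c 1728 with h1 | h1
  · obtain ⟨pl, hpl⟩ := X0Analytic.exists_places_1728 (N := N) φ
    rw [← h1, ← hj] at hpl
    exact key _ 2 _ pl (by norm_num) hpl
  obtain ⟨τ, hτ⟩ := X0Analytic.exists_jFun_eq (φ c)
  obtain ⟨pl, hpl⟩ := X0Analytic.exists_places_generic (N := N) φ hτ h0 h1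
  exact key τ 1 _ pl one_pos hpl

theorem IsRep.ord_eq_zero [IsAlgClosed L] {x : ↥(FLevel L N)} {G H : ↥(modFun N)}
    (hx : IsRep φ x G) (hGH : G * H = 1) (P : Place L ↥(FLevel L N))
    (hP : 0 ≤ P.ord (X0Analytic.jEl L N)) : P.ord x = 0 := by
  have h1 := hx.ord_nonneg φ P hP
  have h2 := (hx.inv φ hGH).ord_nonneg φ P hP
  rw [P.ord_inv] at h2
  omega

end

section AtkinLehner

variable (M q : ℕ) [NeZero M] [NeZero q]

/-- `W = γ ∘ (z ↦ q z)` and `q W = γ'`, with `γ, γ' ∈ Γ₀(M)` of lower row `(M, q u)`, `(M, u)`. -/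
theorem exists_alData (hcop : q.Coprime M) :
    ∃ (u : ℤ) (γ γ' : SL(2, ℤ)), γ 1 0 = M ∧ γ 1 1 = q * u ∧ γ' 1 0 = M ∧ γ' 1 1 = u ∧
      ∀ τ : ℍ, scaleGL q • (γ • (scaleGL q • τ)) = γ' • τ := by
  obtain ⟨u, v, huv⟩ : IsCoprime (q : ℤ) (M : ℤ) := Nat.isCoprime_iff_coprime.mpr hcop
  let γ : SL(2, ℤ) := ⟨!![1, -v; (M : ℤ), (q : ℤ) * u], by
    rw [Matrix.det_fin_two_of]; linear_combination huv⟩
  let γ' : SL(2, ℤ) := ⟨!![(q : ℤ), -v; (M : ℤ), u], by
    rw [Matrix.det_fin_two_of]; linear_combination huv⟩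
  refine ⟨u, γ, γ', by simp [γ], by simp [γ], by simp [γ'], by simp [γ'], fun τ => ?_⟩
  apply UpperHalfPlane.ext
  rw [X0Analytic.coe_scaleGL_smul, UpperHalfPlane.coe_specialLinearGroup_apply,
    UpperHalfPlane.coe_specialLinearGroup_apply]
  simp only [X0Analytic.coe_scaleGL_smul, γ, γ', Matrix.SpecialLinearGroup.coe_mk,
    algebraMap_int_eq, Matrix.of_apply, Matrix.cons_val_zero, Matrix.cons_val_one,
    Matrix.cons_val', Matrix.empty_val', Matrix.cons_val_fin_one, eq_intCast, Int.cast_one,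
    Int.cast_neg, Int.cast_natCast, Int.cast_mul, Complex.ofReal_natCast, Complex.ofReal_neg,
    Complex.ofReal_intCast, Complex.ofReal_one, Complex.ofReal_mul]
  have hl : (q : ℂ) ≠ 0 := Nat.cast_ne_zero.mpr (NeZero.ne q)
  rw [← mul_div_assoc]
  conv_lhs => rw [show (M : ℂ) * ((q : ℂ) * (τ : ℂ)) + (q : ℂ) * (u : ℂ) =
    (q : ℂ) * ((M : ℂ) * (τ : ℂ) + (u : ℂ)) by ring]
  rw [mul_div_mul_left _ _ hl]
  ring

theorem mem_Gamma0_of_lower {γ : SL(2, ℤ)} (h : γ 1 0 = M) : γ ∈ Gamma0 M := by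
  rw [Gamma0_mem, h]; simp

variable {L : Type} [Field L] [Algebra ℚ L] (φ : L →+* ℂ)

/-- `toModFun` intertwines the algebraic swap with `W`. -/
theorem toModFun_swapAlg (hq : q.Prime) (hqM : ¬ q ∣ M) {γ γ' : SL(2, ℤ)} (h : γ 1 0 = M)
    (h' : γ' 1 0 = M) (hW : ∀ τ : ℍ, scaleGL q • (γ • (scaleGL q • τ)) = γ' • τ)
    (a : ↥(algGen L (M * q))) (τ : ℍ) :
    (toModFun φ (Congruence.swapAlg φ hq hqM a) : ℍ → ℂ) τ =
      (toModFun φ a : ℍ → ℂ) (γ • (scaleGL q • τ)) := by
  obtain ⟨p, rfl⟩ := Congruence.genAt_surjective (L := L) hq a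
  rw [Congruence.swapAlg_aeval, Congruence.toModFun_aeval, Congruence.toModFun_aeval]
  have hgen : (fun i => (toModFun φ (Congruence.genSwap L M q i) : ℍ → ℂ) τ) =
      fun i => (toModFun φ (Congruence.genAt L M q i) : ℍ → ℂ) (γ • (scaleGL q • τ)) := by
    funext i
    obtain ⟨⟨d, hd⟩, b⟩ := i
    haveI : NeZero d := ⟨fun h0 => NeZero.ne M (Nat.eq_zero_of_zero_dvd (h0 ▸ hd))⟩
    have hscale : ∀ z : ℍ, scaledJ d (scaleGL q • z) = scaledJ (d * q) z :=
      Congruence.scaledJ_scaleGL d q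
    cases b
    · show (toModFun φ (Congruence.genAt L M q (⟨d, hd⟩, true)) : ℍ → ℂ) τ = _
      simp only [Congruence.genAt]
      rw [X0Analytic.toModFun_jL φ (Nat.mul_dvd_mul_right hd q),
        X0Analytic.toModFun_jL φ (hd.mul_right q)]
      show scaledJ (d * q) τ = scaledJ d (γ • (scaleGL q • τ))
      rw [X0Analytic.scaledJ_smul_of_mem hd (mem_Gamma0_of_lower M h), hscale]
    · show (toModFun φ (Congruence.genAt L M q (⟨d, hd⟩, false)) : ℍ → ℂ) τ = _
      simp only [Congruence.genAt]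
      rw [X0Analytic.toModFun_jL φ (hd.mul_right q),
        X0Analytic.toModFun_jL φ (Nat.mul_dvd_mul_right hd q)]
      show scaledJ d τ = scaledJ (d * q) (γ • (scaleGL q • τ))
      rw [← hscale, hW, X0Analytic.scaledJ_smul_of_mem hd (mem_Gamma0_of_lower M h')]
  simp only [hgen]

/-- **The Atkin–Lehner automorphism is composition with `W`.** -/
theorem IsRep.atkinLehner {hq : q.Prime} {hqM : ¬ q ∣ M} {γ γ' : SL(2, ℤ)} (h : γ 1 0 = M)
    (h' : γ' 1 0 = M) (hW : ∀ τ : ℍ, scaleGL q • (γ • (scaleGL q • τ)) = γ' • τ)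
    {x : ↥(FLevel L (M * q))} {G G' : ↥(modFun (M * q))} (hx : IsRep φ x G)
    (hG' : ∀ τ : ℍ, (G' : ℍ → ℂ) τ = (G : ℍ → ℂ) (γ • (scaleGL q • τ))) :
    IsRep φ (SemistableRed.atkinLehner φ hq hqM x) G' := by
  obtain ⟨a, b, hb, hab, hG⟩ := hx.exists_num_den
  have h1 : G' * toModFun φ (Congruence.swapAlg φ hq hqM b) =
      toModFun φ (Congruence.swapAlg φ hq hqM a) := Subtype.ext (funext fun τ => by
    rw [MulMemClass.coe_mul, Pi.mul_apply, toModFun_swapAlg M q φ hq hqM h h' hW b τ,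
      toModFun_swapAlg M q φ hq hqM h h' hW a τ, hG', ← hG]
    rfl)
  have h2 := congrArg (SemistableRed.atkinLehner φ hq hqM) hab
  rw [map_mul, SemistableRed.atkinLehner_algToField, SemistableRed.atkinLehner_algToField] at h2
  have h3 := congrArg (fun z : ↥(FLevel L (M * q)) => ModularCurve.coeffMap φ (z : LaurentSeries L)) h2
  simp only [MulMemClass.coe_mul, map_mul, X0Analytic.coe_algToField] at h3
  have h4 := congrArg (ser (M * q)) h1
  rw [map_mul, X0Analytic.ser_toModFun, X0Analytic.ser_toModFun, ← h3] at h4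
  refine mul_right_cancel₀ ?_ h4
  refine (map_ne_zero_iff _ (X0Analytic.coeffMap_injective φ.injective)).mpr fun h0 => hb ?_
  exact Congruence.swapAlg_injective φ hq hqM ((Subtype.ext h0 :
    Congruence.swapAlg φ hq hqM b = 0).trans (map_zero _).symm)

end AtkinLehner

end Fermat.Agent.XHLite

end
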