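import Fermat.Agent.X0Analytic.Ser
import Fermat.Agent.XHLite.Analytic.WeightTwo
import Fermat.Agent.XHLite.Glue.UnitSeries

/-!
# `Δ(z)/Δ(e z)` as a modular function of level `Γ₀(N)`, `e ∣ N`

It has no zero on `ℍ`; its series at infinity is `unitSer e`; at the cusp where `j(e z)` has order
`-M` (in the variable `q_N`) it has order `N - M`.
-/

set_option autoImplicit false
set_option linter.unusedSectionVars false

noncomputable section

open UpperHalfPlane CongruenceSubgroup ModularCurve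
open scoped MatrixGroups Manifold

namespace Fermat.Agent.XHLite

open X0Analytic (perMero modFun scaleGL upperGL qp qSer rot ser scaledJ conj jqC toPerOne
  det_pos_upperGL det_pos_scaleGL det_pos_SL coe_scaleGL_smul coe_upperGL_smul)
open Gamma0Count (CosetSpace)

local notation "Δ" => ModularForm.discriminant

/-- `Δ` as a periodic function. -/
def deltaEl : ↥(perMero 1) := ⟨Δ, X0Analytic.discriminant_mem⟩

theorem invDelta_mem : (fun τ : ℍ => (Δ τ)⁻¹) ∈ perMero 1 := by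
  refine ⟨?_, fun τ => by simp only [X0Analytic.discriminant_mem.2.1 τ], 1, ?_⟩
  · exact UpperHalfPlane.mdifferentiable_iff.mpr
      ((UpperHalfPlane.mdifferentiable_iff.mp X0Analytic.discriminant_mem.1).inv
        fun _ _ => ModularForm.discriminant_ne_zero _)
  · have h : (fun τ : ℍ => (Δ τ)⁻¹) * qp 1 ^ 1 = fun τ => qp 1 τ / Δ τ := by
      funext τ
      simp only [Pi.mul_apply, pow_one]
      ring
    rw [h]
    refine (Asymptotics.div_isBoundedUnder_of_isBigO (α := ℍ) ?_).isBigO_one ℝ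
    refine Asymptotics.IsBigO.trans (Asymptotics.isBigO_of_le _ fun τ => le_of_eq ?_)
      ModularForm.exp_isBigO_discriminant
    simp [qp, Function.Periodic.qParam, Complex.norm_exp]

/-- `1/Δ` as a periodic function. -/
def invDeltaEl : ↥(perMero 1) := ⟨_, invDelta_mem⟩

theorem deltaEl_mul_invDeltaEl : deltaEl * invDeltaEl = 1 :=
  Subtype.ext (funext fun τ => mul_inv_cancel₀ (ModularForm.discriminant_ne_zero τ))

theorem qSer_deltaEl :
    qSer 1 deltaEl = coeffMap (Int.castRingHom ℂ) (deltaUnit : LaurentSeries ℤ) := by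
  rw [deltaEl, X0Analytic.qSer_discriminant, coe_deltaUnit, map_mul, coeffMap_single,
    map_one (Int.castRingHom ℂ), X0Analytic.coeffMap_ofPowerSeries]

theorem qSer_invDeltaEl :
    qSer 1 invDeltaEl = coeffMap (Int.castRingHom ℂ) (↑deltaUnit⁻¹ : LaurentSeries ℤ) := by
  have h := congrArg (qSer 1) deltaEl_mul_invDeltaEl
  rw [map_mul, map_one, qSer_deltaEl] at h
  refine mul_left_cancel₀ (IsUnit.ne_zero
    (deltaUnit.isUnit.map (coeffMap (Int.castRingHom ℂ)))) (h.trans ?_)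
  rw [← map_mul, deltaUnit.mul_inv, map_one]

theorem order_qSer_deltaEl : (qSer 1 deltaEl).order = 1 := by
  rw [deltaEl, X0Analytic.qSer_discriminant]
  have hc : ((HahnSeries.ofPowerSeries ℤ ℂ) (dedekindEtaUnit.map (Int.castRingHom ℂ))).coeff
      ((0 : ℕ) : ℤ) = 1 := by
    rw [HahnSeries.ofPowerSeries_apply_coeff, PowerSeries.coeff_map,
      PowerSeries.coeff_zero_eq_constantCoeff, constantCoeff_dedekindEtaUnit, map_one]
  have hne : (HahnSeries.ofPowerSeries ℤ ℂ) (dedekindEtaUnit.map (Int.castRingHom ℂ)) ≠ 0 :=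
    fun h => by rw [h] at hc; exact zero_ne_one hc
  have h0 : ((HahnSeries.ofPowerSeries ℤ ℂ) (dedekindEtaUnit.map (Int.castRingHom ℂ))).order = 0 := by
    refine le_antisymm (HahnSeries.order_le_of_coeff_ne_zero (by
      rw [Nat.cast_zero] at hc; rw [hc]; exact one_ne_zero)) ?_
    by_contra hlt
    exact mt HahnSeries.coeff_order_eq_zero.mp hne
      (ModularCurve.ofPowerSeries_coeff_of_neg _ (not_le.mp hlt))
  rw [HahnSeries.order_mul (HahnSeries.single_ne_zero one_ne_zero) hne,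
    HahnSeries.order_single one_ne_zero, h0, add_zero]

theorem order_qSer_invDeltaEl : (qSer 1 invDeltaEl).order = -1 := by
  have h := congrArg (qSer 1) deltaEl_mul_invDeltaEl
  rw [map_mul, map_one] at h
  have h0 : qSer 1 deltaEl ≠ 0 := left_ne_zero_of_mul_eq_one h
  have h1 : qSer 1 invDeltaEl ≠ 0 := right_ne_zero_of_mul_eq_one h
  have h2 := HahnSeries.order_mul h0 h1
  rw [h, HahnSeries.order_one, order_qSer_deltaEl] at h2
  omega

/-- Composition with a map multiplying the exponent by `M`. -/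
theorem exists_subst {h : ℕ} [NeZero h] {M : ℕ} [NeZero M] (f : ↥(perMero 1)) (φ : ℍ → ℍ)
    (hφ : MDiff φ) (ζ : ℂ) (hζ : ζ ≠ 0) (hq : ∀ τ, qp 1 (φ τ) = ζ * qp h τ ^ M)
    (hf : qSer 1 f ≠ 0) :
    ∃ F : ↥(perMero h), (∀ τ, (F : ℍ → ℂ) τ = (f : ℍ → ℂ) (φ τ)) ∧
      (qSer h F).order = (M : ℤ) * (qSer 1 f).order := by
  obtain ⟨hg, hs⟩ := X0Analytic.qSer_subst (h' := h) (M := M) f φ hφ ζ hζ hq
  refine ⟨⟨_, hg⟩, fun τ => rfl, ?_⟩
  rw [hs, X0Analytic.order_qExpand M ((map_ne_zero_iff _ (rot ζ hζ).injective).mpr hf),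
    X0Analytic.order_rot hζ hf]

/-- `Δ(z)/Δ(e z)`. -/
def deltaQuot (e : ℕ) [NeZero e] (τ : ℍ) : ℂ := Δ τ / Δ (scaleGL e • τ)

variable {N : ℕ} [NeZero N] {e : ℕ} [NeZero e]

theorem deltaQuot_smul_of_mem (he : e ∣ N) {γ : SL(2, ℤ)} (hγ : γ ∈ Gamma0 N) (τ : ℍ) :
    deltaQuot e (γ • τ) = deltaQuot e τ := by
  have hd : (e : ℤ) ∣ γ 1 0 := by
    rw [Gamma0_mem, ZMod.intCast_zmod_eq_zero_iff_dvd] at hγ
    exact (Int.natCast_dvd_natCast.mpr he).trans hγ
  obtain ⟨δ, -, -, hδ⟩ := exists_scale_conj e hd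
  obtain ⟨h1, h2⟩ := hδ τ
  rw [deltaQuot, deltaQuot, h1, X0Analytic.discriminant_smul, X0Analytic.discriminant_smul, h2]
  exact mul_div_mul_left _ _ (zpow_ne_zero _ (UpperHalfPlane.denom_ne_zero _ τ))

/-- `exists_decomp` with the relation between the automorphy factors. -/
theorem exists_decomp_denom (d : ℕ) [NeZero d] (g : SL(2, ℤ)) :
    ∃ (γ : SL(2, ℤ)) (A : ℕ) (B : ℤ) (D : ℕ) (_ : NeZero A) (_ : NeZero D),
      A * D = d ∧ ∀ τ : ℍ, scaleGL d • (g • τ) = γ • (upperGL A B D • τ) ∧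
        UpperHalfPlane.denom (g : GL (Fin 2) ℝ) τ =
          D * UpperHalfPlane.denom (γ : GL (Fin 2) ℝ) (upperGL A B D • τ : ℍ) := by
  set a := g 0 0 with ha
  set b := g 0 1 with hb
  set c := g 1 0 with hc
  set f := g 1 1 with hf
  have hdet : a * f - b * c = 1 := by
    have := g.det_coe
    rwa [Matrix.det_fin_two] at this
  have hd0 : (d : ℤ) ≠ 0 := by exact_mod_cast NeZero.ne d
  have hG0 : Int.gcd ((d : ℤ) * a) c ≠ 0 := by
    intro h0
    rw [Int.gcd_eq_zero_iff] at h0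
    rw [(mul_eq_zero.mp h0.1).resolve_left hd0, h0.2] at hdet
    simp at hdet
  obtain ⟨u, hu⟩ : (Int.gcd ((d : ℤ) * a) c : ℤ) ∣ (d : ℤ) * a := Int.gcd_dvd_left _ _
  obtain ⟨v, hv⟩ : (Int.gcd ((d : ℤ) * a) c : ℤ) ∣ c := Int.gcd_dvd_right _ _
  have hbez := Int.gcd_eq_gcd_ab ((d : ℤ) * a) c
  set x := Int.gcdA ((d : ℤ) * a) c
  set y := Int.gcdB ((d : ℤ) * a) c
  set G := Int.gcd ((d : ℤ) * a) c
  have hG0' : (G : ℤ) ≠ 0 := by exact_mod_cast hG0
  have hxy : u * x + v * y = 1 := by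
    apply mul_left_cancel₀ hG0'
    rw [mul_one]
    linear_combination -hbez - x * hu - y * hv
  have hD : (G : ℤ) * (u * f - v * ((d : ℤ) * b)) = d := by
    linear_combination (-f) * hu + (d : ℤ) * b * hv + (d : ℤ) * hdet
  have hDpos : 0 < u * f - v * ((d : ℤ) * b) := by
    have hdpos : (0 : ℤ) < d := by exact_mod_cast Nat.pos_of_ne_zero (NeZero.ne d)
    exact pos_of_mul_pos_right (hD ▸ hdpos) (by positivity)
  obtain ⟨D, hDe⟩ : ∃ D : ℕ, (D : ℤ) = u * f - v * ((d : ℤ) * b) :=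
    ⟨_, Int.toNat_of_nonneg hDpos.le⟩
  have hG' : NeZero G := ⟨hG0⟩
  have hD' : NeZero D := ⟨by omega⟩
  set B := x * ((d : ℤ) * b) + y * f with hB
  let γ : SL(2, ℤ) := ⟨!![u, -y; v, x], by
    rw [Matrix.det_fin_two_of]; linear_combination hxy⟩
  refine ⟨γ, G, B, D, hG', hD', ?_, fun τ => ?_⟩
  · exact_mod_cast (by rw [hDe]; exact hD : ((G : ℤ) * D = d))
  have h1 : (d : ℂ) * a = u * G := by exact_mod_cast (hu.trans (mul_comm _ _))
  have h2 : (c : ℂ) = v * G := by exact_mod_cast (hv.trans (mul_comm _ _))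
  have h3 : (d : ℂ) * b = u * B + -y * D := by
    have : (d : ℤ) * b = u * B + -y * D := by
      rw [hDe, hB]; linear_combination (-((d : ℤ) * b)) * hxy
    exact_mod_cast this
  have h4 : (f : ℂ) = v * B + x * D := by
    have : f = v * B + x * D := by rw [hDe, hB]; linear_combination (-f) * hxy
    exact_mod_cast this
  have hD0 : (D : ℂ) ≠ 0 := Nat.cast_ne_zero.mpr (NeZero.ne D)
  have hden : UpperHalfPlane.denom (g : GL (Fin 2) ℝ) τ =
      D * UpperHalfPlane.denom (γ : GL (Fin 2) ℝ) (upperGL G B D • τ : ℍ) := by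
    rw [ModularGroup.denom_apply, ModularGroup.denom_apply, coe_upperGL_smul, ← hc, ← hf, h2, h4]
    simp [γ]
    field_simp
    ring
  refine ⟨?_, hden⟩
  apply UpperHalfPlane.ext
  rw [coe_scaleGL_smul, UpperHalfPlane.coe_specialLinearGroup_apply,
    UpperHalfPlane.coe_specialLinearGroup_apply, coe_upperGL_smul]
  simp [γ, ← ha, ← hb, ← hc, ← hf]
  rw [h2, h4, ← mul_div_assoc, mul_add, ← mul_assoc, h1, h3]
  field_simp
  ring

/-- **The orders at the cusps.** -/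
theorem deltaQuot_comp (he : e ∣ N) (g : SL(2, ℤ)) :
    ∃ (M : ℕ) (F F' Jf : ↥(perMero N)),
      (∀ τ, (F : ℍ → ℂ) τ = deltaQuot e (g • τ)) ∧
      (∀ τ, (F' : ℍ → ℂ) τ = (deltaQuot e (g • τ))⁻¹) ∧
      (∀ τ, (Jf : ℍ → ℂ) τ = scaledJ e (g • τ)) ∧
      M ≤ e * N ∧ (qSer N F).order = (N : ℤ) - M ∧ (qSer N F').order = (M : ℤ) - N ∧
      (qSer N Jf).order = -(M : ℤ) := by
  obtain ⟨γ, A, B, D, _, _, hAD, hτ⟩ := exists_decomp_denom e g
  obtain ⟨k, hk⟩ := he
  have hM : (A * A * k) * D = A * N := by rw [hk, ← hAD]; ring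
  haveI : NeZero (A * A * k) := ⟨fun h => by
    rw [h, zero_mul] at hM
    exact mul_ne_zero (NeZero.ne A) (NeZero.ne N) hM.symm⟩
  have hup : MDiff fun τ : ℍ => upperGL A B D • τ :=
    mdifferentiable_smul (det_pos_upperGL A B D)
  have hz : Complex.exp (2 * Real.pi * Complex.I * B / D) ≠ 0 := Complex.exp_ne_zero _
  have hqu := X0Analytic.qp_one_upperGL A B D N _ hM
  have hq1 : ∀ τ : ℍ, qp 1 τ = 1 * qp N τ ^ N := fun τ => by
    rw [one_mul]; exact X0Analytic.qp_one_eq_pow N τ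
  have hd0 : qSer 1 deltaEl ≠ 0 := fun h => by
    have := order_qSer_deltaEl; rw [h, HahnSeries.order_zero] at this; omega
  have hi0 : qSer 1 invDeltaEl ≠ 0 := fun h => by
    have := order_qSer_invDeltaEl; rw [h, HahnSeries.order_zero] at this; omega
  obtain ⟨d1, hd1, od1⟩ := exists_subst deltaEl (fun τ => τ) mdifferentiable_id 1 one_ne_zero hq1
    hd0
  obtain ⟨i1, hi1, oi1⟩ := exists_subst invDeltaEl (fun τ => τ) mdifferentiable_id 1 one_ne_zero
    hq1 hi0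
  obtain ⟨dM, hdM, odM⟩ := exists_subst deltaEl _ hup _ hz hqu hd0
  obtain ⟨iM, hiM, oiM⟩ := exists_subst invDeltaEl _ hup _ hz hqu hi0
  obtain ⟨jM, hjM, ojM⟩ := exists_subst (⟨_, X0Analytic.jFun_mem⟩ : ↥(perMero 1)) _ hup _ hz hqu
    (by rw [X0Analytic.qSer_jFun]; exact X0Analytic.jqC_ne_zero)
  rw [X0Analytic.qSer_jFun, X0Analytic.jqC_order] at ojM
  rw [order_qSer_deltaEl] at od1 odM
  rw [order_qSer_invDeltaEl] at oi1 oiM
  have hval : ∀ τ, deltaQuot e (g • τ) =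
      (D : ℂ) ^ 12 * (Δ τ * (Δ (upperGL A B D • τ))⁻¹) := fun τ => by
    obtain ⟨h1, h2⟩ := hτ τ
    have := UpperHalfPlane.denom_ne_zero (γ : GL (Fin 2) ℝ) (upperGL A B D • τ : ℍ)
    have hD0 : (D : ℂ) ≠ 0 := Nat.cast_ne_zero.mpr (NeZero.ne D)
    rw [deltaQuot, h1, X0Analytic.discriminant_smul, X0Analytic.discriminant_smul, h2, mul_zpow]
    rw [show ((D : ℂ) ^ (12 : ℤ)) = (D : ℂ) ^ (12 : ℕ) from zpow_natCast _ 12]
    field_simp
  have hD12 : ((D : ℂ) ^ 12) ≠ 0 := pow_ne_zero _ (Nat.cast_ne_zero.mpr (NeZero.ne D))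
  have ord_const : ∀ (c : ℂ), c ≠ 0 → ∀ G H : ↥(perMero N), qSer N G ≠ 0 → qSer N H ≠ 0 →
      (qSer N (algebraMap ℂ _ c * (G * H))).order = (qSer N G).order + (qSer N H).order := by
    intro c hc G H hG hH
    rw [map_mul, map_mul, X0Analytic.qSer_algebraMap,
      HahnSeries.order_mul (HahnSeries.single_ne_zero hc) (mul_ne_zero hG hH),
      HahnSeries.order_single hc, zero_add, HahnSeries.order_mul hG hH]
  have hne : ∀ {F : ↥(perMero N)} {m : ℤ}, (qSer N F).order = m → m ≠ 0 → qSer N F ≠ 0 :=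
    fun h hm h0 => hm (by rw [← h, h0, HahnSeries.order_zero])
  have hN0 : (N : ℤ) ≠ 0 := by exact_mod_cast NeZero.ne N
  have hMk0 : ((A * A * k : ℕ) : ℤ) ≠ 0 := by exact_mod_cast NeZero.ne (A * A * k)
  refine ⟨A * A * k, algebraMap ℂ _ ((D : ℂ) ^ 12) * (d1 * iM),
    algebraMap ℂ _ ((D : ℂ) ^ 12)⁻¹ * (i1 * dM), jM, fun τ => ?_, fun τ => ?_, fun τ => ?_,
    ?_, ?_, ?_, ?_⟩
  · rw [hval]
    show (D : ℂ) ^ 12 * ((d1 : ℍ → ℂ) τ * (iM : ℍ → ℂ) τ) = _
    rw [hd1, hiM]; rfl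
  · rw [hval]
    show ((D : ℂ) ^ 12)⁻¹ * ((i1 : ℍ → ℂ) τ * (dM : ℍ → ℂ) τ) = _
    rw [hi1, hdM, mul_inv, mul_inv, inv_inv]; rfl
  · rw [hjM]
    show X0Analytic.jFun _ = X0Analytic.jFun _
    rw [(hτ τ).1, X0Analytic.jFun_smul]
  · calc A * A * k ≤ e * e * k := by
          have : A ≤ e := Nat.le_of_dvd (Nat.pos_of_ne_zero (NeZero.ne e)) ⟨D, hAD.symm⟩
          gcongr
      _ = e * N := by rw [hk]; ring
  · rw [ord_const _ hD12 _ _ (hne od1 (by simpa using hN0)) (hne oiM (by simpa using hMk0)),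
      od1, oiM]
    ring
  · rw [ord_const _ (inv_ne_zero hD12) _ _ (hne oi1 (by simpa using hN0))
      (hne odM (by simpa using hMk0)), oi1, odM]
    ring
  · rw [ojM]; ring

theorem deltaQuot_mdiff (e : ℕ) [NeZero e] : MDiff (deltaQuot e) :=
  UpperHalfPlane.mdifferentiable_iff.mpr
    ((UpperHalfPlane.mdifferentiable_iff.mp X0Analytic.discriminant_mem.1).div
      (UpperHalfPlane.mdifferentiable_iff.mp
        (X0Analytic.discriminant_mem.1.comp (mdifferentiable_smul (det_pos_scaleGL e))))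
      fun _ _ => ModularForm.discriminant_ne_zero _)

theorem deltaQuot_ne_zero (e : ℕ) [NeZero e] (τ : ℍ) : deltaQuot e τ ≠ 0 :=
  div_ne_zero (ModularForm.discriminant_ne_zero _) (ModularForm.discriminant_ne_zero _)

theorem deltaQuot_mem (he : e ∣ N) : deltaQuot e ∈ modFun N :=
  ⟨deltaQuot_mdiff e, fun _ hγ τ => deltaQuot_smul_of_mem he hγ τ, fun g => by
    obtain ⟨-, F, -, -, hF, -⟩ := deltaQuot_comp he g
    rw [show (fun τ : ℍ => deltaQuot e (g • τ)) = (F : ℍ → ℂ) from funext fun τ => (hF τ).symm]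
    exact F.2⟩

theorem invDeltaQuot_mem (he : e ∣ N) : (fun τ => (deltaQuot e τ)⁻¹) ∈ modFun N :=
  ⟨UpperHalfPlane.mdifferentiable_iff.mpr
      ((UpperHalfPlane.mdifferentiable_iff.mp (deltaQuot_mdiff e)).inv
        fun _ _ => deltaQuot_ne_zero e _),
    fun _ hγ τ => by simp only [deltaQuot_smul_of_mem he hγ], fun g => by
    obtain ⟨-, -, F, -, -, hF, -⟩ := deltaQuot_comp he g
    rw [show (fun τ : ℍ => (deltaQuot e (g • τ))⁻¹) = (F : ℍ → ℂ) from
      funext fun τ => (hF τ).symm]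
    exact F.2⟩

/-- `Δ(z)/Δ(e z)` as a modular function. -/
def deltaQuotEl (he : e ∣ N) : ↥(modFun N) := ⟨_, deltaQuot_mem he⟩

/-- Its inverse. -/
def invDeltaQuotEl (he : e ∣ N) : ↥(modFun N) := ⟨_, invDeltaQuot_mem he⟩

theorem deltaQuotEl_mul_inv (he : e ∣ N) : deltaQuotEl he * invDeltaQuotEl he = 1 :=
  Subtype.ext (funext fun τ => mul_inv_cancel₀ (deltaQuot_ne_zero e τ))

theorem ser_deltaQuotEl (he : e ∣ N) :
    ser N (deltaQuotEl he) = coeffMap (Int.castRingHom ℂ) (unitSer e : LaurentSeries ℤ) := by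
  obtain ⟨hm, hs⟩ := X0Analytic.qSer_subst (h' := 1) (M := e) invDeltaEl
    (fun τ => scaleGL e • τ) (mdifferentiable_smul (det_pos_scaleGL e)) 1 one_ne_zero
    fun τ => by rw [one_mul]; exact qp_one_scaleGL e τ
  have h : toPerOne N (deltaQuotEl he) = deltaEl * ⟨_, hm⟩ :=
    Subtype.ext (funext fun τ => div_eq_mul_inv _ _)
  rw [X0Analytic.rot_one, qSer_invDeltaEl, ← coeffMap_qExpand] at hs
  rw [X0Analytic.ser_apply, h, map_mul, hs, qSer_deltaEl, ← map_mul, unitSer, Units.val_mul]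
  rfl

/-- The orders of `Δ(z)/Δ(e z)` and of `j(e z)` at a cusp. -/
theorem exists_order_conj (he : e ∣ N) (s : CosetSpace N) :
    ∃ M : ℕ, M ≤ e * N ∧ (qSer N (conj s (deltaQuotEl he))).order = (N : ℤ) - M ∧
      (qSer N (conj s ⟨_, X0Analytic.scaledJ_mem he⟩)).order = -(M : ℤ) := by
  induction s using QuotientGroup.induction_on with
  | H g =>
    obtain ⟨M, F, -, Jf, hF, -, hJ, hMle, hoF, -, hoJ⟩ := deltaQuot_comp he g⁻¹
    refine ⟨M, hMle, ?_, ?_⟩
    · rw [← hoF]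
      exact congrArg (fun z => (qSer N z).order) (Subtype.ext (funext fun τ => (hF τ).symm))
    · rw [← hoJ]
      exact congrArg (fun z => (qSer N z).order) (Subtype.ext (funext fun τ => (hJ τ).symm))

end Fermat.Agent.XHLite

end
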