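import Fermat.Agent.XHLite.Glue.Supersingular
import Fermat.Agent.XHLite.Glue.DeltaQuot
import Fermat.Agent.XHLite.Glue.Bridge
import Fermat.Agent.SemistableRed.PoleFacts

/-!
# The modular units of the supersingular count exist
-/

set_option autoImplicit false
set_option linter.unusedSectionVars false

noncomputable section

open UpperHalfPlane CongruenceSubgroup AlgebraicCurve ModularCurve Fermat.Agent.FunctionFieldRR
  Fermat.Agent.SemistableRed Fermat.Agent.Reduction
open scoped MatrixGroups Fermat.Agent.Reduction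

namespace Fermat.Agent.XHLite

open X0Analytic (modFun FLevel ser scaleGL embCusp qSer conj)
open Gamma0Count (CosetSpace)

local notation "Qbar" => AlgebraicClosure ℚ

theorem coeffMap_qSerZ (φ : Qbar →+* ℂ) (x : (LaurentSeries ℤ)ˣ) :
    coeffMap φ (qSerZ x) = coeffMap (Int.castRingHom ℂ) (x : LaurentSeries ℤ) := by
  rw [qSerZ, coeffMap_coeffMap]
  exact coeffMap_congr (RingHom.ext_int _ _) _

theorem ser_invDeltaQuotEl {N e : ℕ} [NeZero N] [NeZero e] (he : e ∣ N) :
    ser N (invDeltaQuotEl he) =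
      coeffMap (Int.castRingHom ℂ) (↑(unitSer e)⁻¹ : LaurentSeries ℤ) := by
  refine mul_left_cancel₀ (IsUnit.ne_zero
    ((unitSer e).isUnit.map (coeffMap (Int.castRingHom ℂ)))) ?_
  rw [← map_mul (coeffMap (Int.castRingHom ℂ)), (unitSer e).mul_inv,
    map_one (coeffMap (Int.castRingHom ℂ)), ← ser_deltaQuotEl he, ← map_mul,
    deltaQuotEl_mul_inv, map_one]

theorem IsRep.unique {L : Type} [Field L] [Algebra ℚ L] {N : ℕ} [NeZero N] {φ : L →+* ℂ}
    {x y : ↥(FLevel L N)} {G : ↥(modFun N)} (hx : IsRep φ x G) (hy : IsRep φ y G) : x = y :=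
  Subtype.ext (X0Analytic.coeffMap_injective φ.injective (hx.symm.trans hy))

variable {A : ValuationSubring Qbar} {M q : ℕ} [NeZero M] [NeZero q]
  [IsFunctionField (IsLocalRing.ResidueField A)
    ↥(modularFunctionFieldFullC (IsLocalRing.ResidueField A) M)]
  [Fact q.Prime] [IsAlgClosed (IsLocalRing.ResidueField A)]
  [CharP (IsLocalRing.ResidueField A) q]

local notation "φc" => qbarToComplex

theorem jEl0_eq : jEl0 M q = X0Analytic.jEl Qbar (M * q) := by
  rw [jEl_eq_jBar]
  refine Subtype.ext ?_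
  rw [jEl0, coe_heckeAlphaBar]
  rfl

theorem isRep_jqEl0 :
    IsRep φc (jqEl0 M q) ⟨_, X0Analytic.scaledJ_mem (dvd_mul_left q M)⟩ := by
  rw [IsRep, X0Analytic.ser_scaledJ_eq φc (dvd_mul_left q M)]
  congr 1
  rw [jqEl0, coe_heckeBetaBar]
  show X0Analytic.jL Qbar q = qExpand Qbar q (jqModC Qbar)
  rw [X0Analytic.jL, coeffEmb, coeffMap_qExpand]
  congr 1
  rw [← jqModC_rat]
  exact coeffMap_jqModC _

/-- At an affine place nothing happens; at a cusp the orders are those of `deltaQuot_comp`. -/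
theorem poles_of_isRep (hq : q.Prime)
    {x : ↥(modularFunctionFieldBar (M * q))}
    (hx : IsRep φc x (deltaQuotEl (dvd_mul_left q M)))
    (P : Place Qbar ↥(modularFunctionFieldBar (M * q))) :
    -(((q : ℤ) - 1) * (max (-P.ord (jEl0 M q)) 0 + max (-P.ord (jqEl0 M q)) 0)) ≤
      ((q : ℤ) + 1) * P.ord x := by
  have hq1 : (1 : ℤ) ≤ q := by exact_mod_cast hq.one_le
  rcases le_or_gt 0 (P.ord (X0Analytic.jEl Qbar (M * q))) with hj | hj
  · rw [hx.ord_eq_zero φc (deltaQuotEl_mul_inv _) P hj, mul_zero, neg_nonpos]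
    exact mul_nonneg (by omega) (by positivity)
  obtain ⟨pl, -, hinv, hord, -, hsurj⟩ := X0Analytic.exists_places_infty (N := M * q) φc
  obtain ⟨s, rfl⟩ := hsurj P (by rw [P.ord_inv]; omega)
  obtain ⟨K, hK, hox, hoj⟩ := exists_order_conj (dvd_mul_left q M) s
  have h1 := hord s x
  rw [hx.embCusp_eq, hox] at h1
  have h2 := hord s (jqEl0 M q)
  rw [isRep_jqEl0.embCusp_eq, hoj] at h2
  have h3 := hinv s
  rw [(pl s).ord_inv, ← jEl0_eq] at h3
  generalize hp : (Function.minimalPeriod (X0Analytic.cosetPerm ModularGroup.T) s : ℤ) = p at *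
  have hp0 : 0 ≤ p := hp ▸ Int.natCast_nonneg _
  have hN : (0 : ℤ) < ((M * q : ℕ) : ℤ) := by exact_mod_cast Nat.pos_of_ne_zero (NeZero.ne _)
  have hK' : (K : ℤ) ≤ q * ((M * q : ℕ) : ℤ) := by exact_mod_cast hK
  rw [max_eq_left (by omega)]
  have hjq : max (-(pl s).ord (jqEl0 M q)) 0 = -(pl s).ord (jqEl0 M q) :=
    max_eq_left (by nlinarith)
  rw [hjq, h3]
  refine le_of_mul_le_mul_left ?_ hN
  nlinarith [mul_nonneg hp0 (sub_nonneg.mpr hK')]

/-- **The units exist.** -/
theorem nonempty_unitInputs (hq : q.Prime) (hqM : ¬ q ∣ M) (h4 : 4 ∣ M)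
    {S : GlueModel A (IsLocalRing.residue A) ↥(modularFunctionFieldBar (M * q))
      ↥(modularFunctionFieldFullC (IsLocalRing.ResidueField A) M)} (hC : CuspData S) :
    Nonempty (UnitInputs hq hqM S) := by
  -- `Δ(z)/Δ(q z)`
  set G := deltaQuotEl (dvd_mul_left q M) with hG
  set H := invDeltaQuotEl (dvd_mul_left q M) with hH
  obtain ⟨x, hxc, hx⟩ := exists_isRep φc (z := qSerZ (unitSer q)) (G := G)
    (by rw [coeffMap_qSerZ, hG, ser_deltaQuotEl])
  obtain ⟨u, γ, γ', h10, h11, h10', h11', hW⟩ :=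
    exists_alData M q ((hq.coprime_iff_not_dvd).mpr hqM)
  let G' : ↥(modFun (M * q)) := algebraMap ℂ _ ((q : ℂ) ^ 12) * H
  have hwx : IsRep φc (atkinLehner φc hq hqM x) G' := by
    refine hx.atkinLehner M q φc h10 h10' hW fun τ => ?_
    show (q : ℂ) ^ 12 * (deltaQuot q τ)⁻¹ = deltaQuot q (γ • (scaleGL q • τ))
    simp only [deltaQuot]
    rw [hW, X0Analytic.discriminant_smul, X0Analytic.discriminant_smul]
    have hden : UpperHalfPlane.denom (γ : GL (Fin 2) ℝ) (scaleGL q • τ : ℍ) =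
        q * UpperHalfPlane.denom (γ' : GL (Fin 2) ℝ) τ := by
      rw [ModularGroup.denom_apply, ModularGroup.denom_apply, X0Analytic.coe_scaleGL_smul, h10,
        h11, h10', h11']
      push_cast
      ring
    have := UpperHalfPlane.denom_ne_zero (γ' : GL (Fin 2) ℝ) τ
    have := ModularForm.discriminant_ne_zero τ
    have := ModularForm.discriminant_ne_zero (scaleGL q • τ)
    rw [hden, mul_zpow, show ((q : ℂ) ^ (12 : ℤ)) = (q : ℂ) ^ (12 : ℕ) from zpow_natCast _ 12]
    field_simp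
  have hmul : x * wq hq hqM x = algebraMap Qbar _ ((q : Qbar) ^ 12) := by
    refine (hx.mul φc hwx).unique ?_
    have h : G * G' = algebraMap ℂ ↥(modFun (M * q)) (φc ((q : Qbar) ^ 12)) := by
      rw [map_pow φc, map_natCast]
      show G * (_ * H) = _
      rw [mul_left_comm, hG, hH, deltaQuotEl_mul_inv, mul_one]
    rw [h]
    exact isRep_algebraMap φc _
  -- `Δ₂/Δ₄²`
  have h2 : 2 ∣ M := (show 2 ∣ 4 by norm_num).trans h4
  obtain ⟨v, hvc, -⟩ := exists_isRep φc (z := qSerZ uSer)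
    (G := deltaQuotEl h2 * invDeltaQuotEl h4 ^ 2) (by
      rw [coeffMap_qSerZ, map_mul, map_pow, ser_deltaQuotEl, ser_invDeltaQuotEl, uSer, ← inv_pow,
        Units.val_mul, Units.val_pow_eq_pow_val, map_mul, map_pow])
  have hv : IsRep φc (heckeAlphaBar Qbar M q v)
      (deltaQuotEl (h2.mul_right q) * invDeltaQuotEl (h4.mul_right q) ^ 2) := by
    rw [IsRep, coe_heckeAlphaBar, hvc, coeffMap_qSerZ, map_mul, map_pow, ser_deltaQuotEl,
      ser_invDeltaQuotEl, uSer, ← inv_pow, Units.val_mul, Units.val_pow_eq_pow_val, map_mul,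
      map_pow]
  exact ⟨{
    x := x
    coe_x := hxc
    x_mul_wq := hmul
    x_poles := fun P => by rw [hC.H_eq]; exact poles_of_isRep hq hx P
    v := v
    coe_v := hvc
    v_affine := fun P hP => by
      refine hv.ord_eq_zero φc (H := invDeltaQuotEl (h2.mul_right q) *
        deltaQuotEl (h4.mul_right q) ^ 2) ?_ P ?_
      · rw [mul_mul_mul_comm, deltaQuotEl_mul_inv, one_mul, ← mul_pow,
          mul_comm (invDeltaQuotEl _), deltaQuotEl_mul_inv, one_pow]
      · rw [hC.H_eq] at hP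
        rw [← jEl0_eq]
        omega }⟩

end Fermat.Agent.XHLite

end
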