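import Fermat.Agent.XHLite.Glue.TwistRelation
import Fermat.Agent.XHLite.Glue.UnitsInst
import Fermat.Agent.XHLite.Glue.CharMod
import Fermat.Agent.XHLite.Analytic.Products
import Fermat.Agent.XHLite.Analytic.NOne

/-!
# The cover inputs of the covers attached to characters, and the relation
-/

set_option autoImplicit false
set_option linter.unusedSectionVars false

noncomputable section

open IsLocalRing AlgebraicCurve ModularCurve CongruenceSubgroup Fermat.Agent.FunctionFieldRR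
  Fermat.Agent.SemistableRed Fermat.Agent.Reduction
open scoped MatrixGroups UpperHalfPlane Fermat.Agent.Reduction

namespace Fermat.Agent.XHLite

open X0Analytic (modFun ser scaleGL qSer)
open J0Torsion (jEmb powMod)

local notation "Qbar" => AlgebraicClosure ℚ

theorem nOneSer_eq_levelTwoSer (R : Type*) [CommRing R] {q : ℕ} (hq : Odd q) :
    nOneSer R ((q - 1) / 2) = levelTwoSer R q := by
  obtain ⟨j, rfl⟩ := hq
  rw [nOneSer, levelTwoSer]
  congr 3
  funext n
  rw [numOneCoeff, levelTwoCoeff, show 2 * ((2 * j + 1 - 1) / 2) - 1 = 2 * j + 1 - 2 by omega]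
  simp only [ArithmeticFunction.sigma_apply, Nat.cast_sum, Nat.cast_pow]
  rw [Nat.sum_divisorsAntidiagonal' (f := fun _ b => (b : R) ^ (2 * j + 1 - 2)),
    Nat.sum_divisorsAntidiagonal' (f := fun _ b => (b : R) ^ (2 * j + 1 - 2))]

variable {N q : ℕ} [NeZero N] [NeZero q] [Fact q.Prime]

theorem char_value_fix (χ : MulChar (ZMod q) Qbar) {A : ValuationSubring Qbar}
    (hA : A.LiesOverPrime q) {σ : Qbar ≃ₐ[ℚ] Qbar} (hσ : σ ∈ A.inertiaSubgroupIn ℚ) (a : ZMod q) :
    σ (χ a) = χ a := by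
  by_cases ha : IsUnit a
  · obtain ⟨u, rfl⟩ := ha
    refine BigImage.inertia_root_of_unity (n := q - 1) Fact.out hA hσ (fun h => ?_) ?_
    · have := (Fact.out : q.Prime).two_le
      have := Nat.le_of_dvd (by omega) h
      omega
    · rw [← map_pow, ← Units.val_pow_eq_pow_val, ZMod.units_pow_card_sub_one_eq_one, Units.val_one,
        map_one]
  · rw [χ.map_nonunit ha, map_zero]

/-- `w_q (y ^ d)` is a constant times `yZero ^ d`. -/
theorem coe_wq_bEl (hq : q.Prime) (hqN : ¬ q ∣ N) {χ : MulChar (ZMod q) Qbar} (hχ : χ ≠ 1)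
    (hev : χ (-1) = 1) {d : ℕ} (hd : χ ^ d = 1) {m : ℕ} (hm : 2 ≤ m) (hN : 4 ∣ N) {lam : Qbar}
    (hlam : lam ≠ 0) {γ γ' : SL(2, ℤ)} (h : γ 1 0 = N) (h' : γ' 1 0 = N)
    (hW : ∀ τ : ℍ, scaleGL q • (γ • (scaleGL q • τ)) = γ' • τ)
    (hscale : ∀ τ : ℍ, jEmb lam * yInf (chiC χ) m (γ • (scaleGL q • τ)) = yZero (chiC χ) m τ) :
    (wq hq hqN (bEl hχ hev hd hm hN) : LaurentSeries Qbar) =
      HahnSeries.single 0 (lam⁻¹ ^ d) * yZeroSer χ m ^ d := by
  have hb : IsRep qbarToComplex (bEl (N := N) hχ hev hd hm hN) (bFun (chiC_pow hd) hm hN) :=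
    (coeffMap_ySer_pow hχ hev hd hm hN).symm
  let Z : ↥(modFun (N * q)) :=
    powMod (n := d) (yZero_mem_twFun (χ := chiC χ) (N := N) hm hN)
      (multHom_pow (by rw [inv_pow, chiC_pow hd, inv_one]))
  have hZ : ser (N * q) Z = coeffMap jEmb (yZeroSer χ m ^ d) := by
    obtain ⟨hmem, hs⟩ := qSer_yZero (χ := chiC χ) (chiC_neg_one hev) hm
    rw [map_pow, coeffMap_yZeroSer, ← hs, ← map_pow, X0Analytic.ser_apply]
    rfl
  have hw := hb.atkinLehner N q qbarToComplex (hq := hq) (hqM := hqN) h h' hW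
    (G' := algebraMap ℂ _ (jEmb (lam⁻¹ ^ d)) * Z) fun τ => by
      show jEmb (lam⁻¹ ^ d) * yZero (chiC χ) m τ ^ d =
        yInf (chiC χ) m (γ • (scaleGL q • τ)) ^ d
      rw [← hscale τ, mul_pow, ← mul_assoc, ← map_pow jEmb, ← map_mul jEmb, ← mul_pow,
        
        inv_mul_cancel₀ hlam, one_pow, map_one, one_mul]
  refine X0Analytic.coeffMap_injective jEmb.injective ?_
  rw [map_mul, coeffMap_single, ← hZ]
  refine hw.symm.trans ?_
  rw [map_mul, X0Analytic.ser_algebraMap]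

/-- **The inputs exist.** -/
theorem hasCoverInputs_twistCoverOf (hq : q.Prime) (h5 : 5 ≤ q) (h36 : 36 ∣ N) (hqN : ¬ q ∣ N)
    (χ : MulChar (ZMod q) Qbar) (hχ : χ ≠ 1) (hev : χ (-1) = 1) {m : ℕ} (hm : 2 ≤ m)
    (hd : orderOf χ ∣ (q - 1) / 2) :
    (twistCoverOf χ hχ hev hm ((show 4 ∣ 36 by norm_num).trans h36) :
      TwistCover N q).HasCoverInputs hq hqN := by
  intro A _ _ _ _ S
  have h4 : 4 ∣ N := (show 4 ∣ 36 by norm_num).trans h36
  have hodd : Odd q := hq.odd_of_ne_two (by omega)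
  set d := orderOf χ with hd_def
  have hd0 : 0 < d := χ.orderOf_pos
  have hd1 : 1 < d := by
    rcases Nat.lt_or_ge 1 d with h | h
    · exact h
    · exact absurd (orderOf_eq_one_iff.mp (le_antisymm h hd0 : d = 1)) hχ
  obtain ⟨r, hr⟩ := hd
  have hr2 : d * (2 * r) = q - 1 := by
    obtain ⟨j, hj⟩ := hodd
    rw [show d * (2 * r) = 2 * (d * r) by ring, ← hr]
    omega
  have hr0 : 0 < r := Nat.pos_of_ne_zero fun h => by rw [h, mul_zero] at hr; omega
  obtain ⟨i, hi, hord, hval⟩ := exists_exponent (A := A) χ rfl hr2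
  set χ' := χ ^ i with hχ'_def
  have hne' : χ' ≠ 1 := fun h => by rw [h, orderOf_one] at hord; omega
  have hev' : χ' (-1) = 1 := by
    rw [show (-1 : ZMod q) = ((-1 : (ZMod q)ˣ) : ZMod q) by simp, MulChar.pow_apply_coe,
      Units.val_neg, Units.val_one, hev, one_pow]
  have hd' : χ' ^ d = 1 := by rw [← pow_mul, mul_comm, pow_mul, pow_orderOf_eq_one, one_pow]
  set m' := (1 + d) * r with hm'_def
  have hm' : 2 ≤ m' := by
    have : 2 * 1 ≤ (1 + d) * r := Nat.mul_le_mul (by omega) hr0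
    omega
  -- the change of generator
  have hj : χ' * χ ^ (i * (d - 1)) = 1 := by
    rw [← pow_add, show i + i * (d - 1) = d * i by
      rw [mul_comm d]; conv_lhs => rw [← mul_one i]
      rw [mul_assoc, ← mul_add, one_mul, Nat.add_sub_cancel' hd1.le], pow_mul, pow_orderOf_eq_one,
      one_pow]
  set f : ↥(modularFunctionFieldBar (N * q)) :=
    ⟨_, ySer_mul_pow_mem hχ hev hne' hev' hj hm hm' h4⟩ *
      (bEl hχ hev (pow_orderOf_eq_one χ) hm h4)⁻¹ ^ i with hf_def
  have hfc : (f : LaurentSeries Qbar) =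
      ySer χ' m' * ySer χ m ^ (i * (d - 1)) * (ySer χ m ^ d)⁻¹ ^ i := rfl
  -- the units and the reductions
  obtain ⟨U⟩ := nonempty_unitInputs (A := A) hq hqN h4 (cuspData_baseModel S h36)
  have hS := isSeriesModel_baseModel S
  have hq2 : 2 ≤ (q - 1) / 2 := by omega
  set n1 : ↥(modularFunctionFieldBar N) :=
    ⟨_, nOneSer_mem jEmb (N := N) hq2 h4⟩ with hn1
  obtain ⟨-, hg⟩ := hS.red_eq (i := 0) (f := heckeAlphaBar Qbar N q n1)
    (v := levelTwoSer (ResidueField A) q) (by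
      rw [expansion_zero, coe_heckeAlphaBar]
      show SRep (nOneSer Qbar ((q - 1) / 2)) _
      rw [nOneSer_eq_levelTwoSer Qbar hodd]
      exact srep_levelTwoSer)
  set c0 : ↥(modularFunctionFieldBar (N * q)) :=
    ⟨_, ySer_mul_yZeroSer_mem hne' hev' hm' h4⟩ with hc0
  obtain ⟨-, hcb⟩ := hS.red_eq (i := 0) (f := c0)
    (v := ySer (charK A χ') m' * yZeroSer (charK A χ') m')
    (by rw [expansion_zero]; exact (srep_ySer χ' m').mul (srep_yZeroSer χ' m'))
  -- `W`
  obtain ⟨u, γ, γ', h10, h11, h10', -, hW⟩ :=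
    exists_alData N q ((hq.coprime_iff_not_dvd).mpr hqN)
  have he : (q : ℤ) ∣ γ 1 1 := ⟨u, h11⟩
  have hc4 : (4 : ℤ) ∣ γ 1 0 := by rw [h10]; exact_mod_cast h4
  set lam := χ' ((γ 0 1 : ℤ) : ZMod q) * gaussQ χ' with hlam
  have hb01 : IsUnit ((γ 0 1 : ℤ) : ZMod q) := by
    refine isUnit_iff_ne_zero.mpr fun h0 => ?_
    have h := congrArg (Int.cast (R := ZMod q)) (det_eq γ)
    rw [Int.cast_sub, Int.cast_mul, Int.cast_mul, (ZMod.intCast_zmod_eq_zero_iff_dvd _ q).mpr he,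
      h0, mul_zero, zero_mul, sub_zero, Int.cast_one] at h
    exact zero_ne_one h
  have hlam0 : lam ≠ 0 :=
    mul_ne_zero (hb01.map χ'.toMonoidHom).ne_zero (gaussQ_ne_zero hne')
  have hw := coe_wq_bEl hq hqN hne' hev' hd' hm' h4 hlam0 h10 h10' hW
    (yZero_eq_smul_scale hne' hev' he hc4)
  obtain ⟨ζ, hζ⟩ : ∃ ζ : Qbar, IsPrimitiveRoot ζ d :=
    haveI : NeZero (d : Qbar) := ⟨Nat.cast_ne_zero.mpr hd0.ne'⟩
    HasEnoughRootsOfUnity.exists_primitiveRoot Qbar d
  refine ⟨{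
    units := U
    b := bEl hne' hev' hd' hm' h4
    dvd_ord := dvd_ord_bEl hne' hev' hd' hm' h36
    ζ := ζ
    isPrimitiveRoot := hζ
    g := (baseModel S).red 0 (heckeAlphaBar Qbar N q n1)
    g_ne := fun h => levelTwoSer_ne_zero (q := q) (ResidueField A)
      (hg.symm.trans (by rw [h]; rfl))
    srep_b := by
      show SRep (ySer χ' m' ^ d) _
      rw [hg]
      show SRep (ySer χ' m' ^ d) (levelTwoSer (ResidueField A) q ^ d * kSer A (betaSer q))
      rw [← ySer_charK_pow hodd χ' hr2 hval, hm'_def]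
      exact (srep_ySer χ' _).pow d
    c := algebraMap Qbar _ lam⁻¹ * c0
    c_pow := ?_
    μ := lam
    μ_ne := hlam0
    cbar := (baseModel S).red 0 c0
    cbar_ne := fun h => mul_ne_zero (ySer_ne_zero (charK A χ') m')
      (yZeroSer_ne_zero (charK A χ') m') (hcb.symm.trans (by rw [h]; rfl))
    srep_c := by
      rw [Algebra.smul_def, ← mul_assoc, ← map_mul, mul_inv_cancel₀ hlam0, map_one, one_mul, hcb]
      exact (srep_ySer χ' m').mul (srep_yZeroSer χ' m') }, i, f, hi, ?_, ?_, ?_⟩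
  · refine Subtype.ext ?_
    rw [SubmonoidClass.coe_pow, MulMemClass.coe_mul, MulMemClass.coe_mul, hw]
    show (algebraMap Qbar (LaurentSeries Qbar) lam⁻¹ * (ySer χ' m' * yZeroSer χ' m')) ^ d = _
    rw [mul_pow, mul_pow, algebraMap_laurentSeries_eq_single, HahnSeries.single_pow, smul_zero]
    show _ = ySer χ' m' ^ d * _
    ring
  · show ySer χ' m' ^ d = ((f : LaurentSeries Qbar) * ySer χ m ^ i) ^ d
    have hy : ySer χ m ^ d ≠ 0 := pow_ne_zero _ (ySer_ne_zero χ m)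
    congr 1
    rw [hfc, mul_assoc, mul_assoc, mul_comm (((ySer χ m ^ d)⁻¹) ^ i), ← mul_assoc (_ ^ (i * _)),
      ← pow_add, show i * (d - 1) + i = d * i by
        rw [mul_comm d]; conv_lhs => rw [← mul_one i]
        rw [mul_assoc, ← mul_add, one_mul, Nat.sub_add_cancel hd1.le], pow_mul, ← mul_pow,
      mul_inv_cancel₀ hy, one_pow, mul_one]
  · intro σ hσ
    rw [hfc]
    simp only [map_mul, map_pow, map_inv₀, ySer_inertia_fix _ _ S.above hσ]
  · intro σ hσ κ hκ c hc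
    have hcv : c = χ (κ : ZMod q) := jEmb.injective hc
    have hg := map_gaussQ (χ := χ') (σ := (σ : Qbar →+* Qbar))
      (fun a => char_value_fix χ' S.above hσ a) hκ
    show σ lam = c ^ i * lam
    rw [hlam, map_mul, char_value_fix χ' S.above hσ, show σ (gaussQ χ') = _ from hg, hcv,
      ← MulChar.pow_apply_coe]
    ring

/-- **The relation for the covers attached to characters.** -/
theorem relation_twistCoverOf (hq : q.Prime) (h5 : 5 ≤ q) (h36 : 36 ∣ N) (hqN : ¬ q ∣ N)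
    (χ : MulChar (ZMod q) Qbar) (hχ : χ ≠ 1) (hev : χ (-1) = 1) {m : ℕ} (hm : 2 ≤ m)
    (hd : orderOf χ ∣ (q - 1) / 2) :
    (twistCoverOf χ hχ hev hm ((show 4 ∣ 36 by norm_num).trans h36) : TwistCover N q).Relation :=
  TwistCover.relation_of_inputs _ hq h5 h36 hqN
    (by
      have := Nat.le_of_dvd (by omega) hd
      show orderOf χ < q
      omega)
    (hasCoverInputs_twistCoverOf hq h5 h36 hqN χ hχ hev hm hd)

/-- Covers with the relation exist for every order `d > 1` dividing `(q - 1) / 2`. -/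
theorem exists_twistCover_relation (hq : q.Prime) (h5 : 5 ≤ q) (h36 : 36 ∣ N) (hqN : ¬ q ∣ N)
    {d : ℕ} (hd : d ∣ (q - 1) / 2) (hd1 : 1 < d) :
    ∃ C : TwistCover N q, C.d = d ∧ orderOf C.chi = d ∧ C.Relation := by
  obtain ⟨χ, hχ⟩ := exists_chi (q := q) (by omega) hd (by omega)
  have hne : χ ≠ 1 := fun h => by rw [h, orderOf_one] at hχ; omega
  have hev := neg_one_of_dvd (χ := χ) (by omega) (hχ ▸ hd)
  refine ⟨twistCoverOf (m := 2) χ hne hev le_rfl ((show 4 ∣ 36 by norm_num).trans h36), hχ, ?_,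
    relation_twistCoverOf hq h5 h36 hqN χ hne hev le_rfl (hχ ▸ hd)⟩
  refine (orderOf_eq_iff (by omega)).mpr ⟨?_, fun k hk hk0 h => ?_⟩
  · have := unitHom_pow (chiC_pow (pow_orderOf_eq_one χ))
    rwa [hχ] at this
  · refine hk.not_ge (Nat.le_of_dvd hk0 (hχ ▸ orderOf_dvd_of_pow_eq_one (MulChar.ext fun a => ?_)))
    refine jEmb.injective ?_
    rw [MulChar.pow_apply_coe, map_pow, MulChar.one_apply_coe, map_one]
    exact congrArg (fun f : (ZMod q)ˣ →* ℂ => f a) h

end Fermat.Agent.XHLite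

end
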