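import Fermat.Agent.XHLite.Glue.KummerRed
import Fermat.Agent.SemistableRed.Injective

/-!
# Models from split models, pivots from series, inertia and constants

A split model gives a weakened model with the same pairs; an embedding of the reductions into
Laurent series gives pivots; an automorphism trivial on the residue field of an algebraic
extension preserves the size of every constant.
-/

set_option autoImplicit false
set_option linter.unusedSectionVars false

noncomputable section

open AlgebraicCurve Fermat.Agent.FunctionFieldRR Fermat.Agent.SemistableRed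

namespace Fermat.Agent.XHLite

variable {L : Type*} [Field L] {A : ValuationSubring L} {k : Type*} [Field k] [IsAlgClosed k]
  {π : A →+* k} {F : Type*} [Field F] [Algebra L F] {G : Type*} [Field G] [Algebra k G]
  [IsFunctionField k G]

/-- A split model as a weakened model. -/
def ofSplit (S : SplitModel A π F G) : GlueModel A π F G where
  Int := S.Int
  red := S.red
  int_one := S.int_one
  red_one := S.red_one
  int_add := S.int_add
  red_add := S.red_add
  int_mul := S.int_mul
  red_mul := S.red_mul
  int_smul := S.int_smul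
  red_smul := S.red_smul
  isResidueMap := S.isResidueMap
  residue_surjective := S.residue_surjective
  rankOne := S.rankOne
  normalise := S.normalise
  reduced_basis := S.reduced_basis
  H := S.H
  H_nonneg := S.H_nonneg
  C := S.C
  C_nonneg := S.C_nonneg
  degree_H := S.degree_H
  degree_C_pos := S.degree_C_pos
  T := S.T
  Tbar := S.Tbar
  T_ne := S.T_ne
  Tbar_ne := S.Tbar_ne
  int_T := S.int_T
  red_T := S.red_T
  ord_T := S.ord_T
  ord_T_nonneg := S.ord_T_nonneg
  ord_Tbar := S.ord_Tbar
  ord_Tbar_nonneg := S.ord_Tbar_nonneg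
  bound := S.bound
  gF := S.gF
  gG := S.gG
  rrBound := S.rrBound
  rrF := S.rrF
  rrG := S.rrG
  exists_small := by
    obtain ⟨b, hb0, hb, -⟩ := S.exists_divisor (S.int_zero 0) (S.red_zero 0)
    exact ⟨b, hb0, hb⟩
  pairs := S.pairs
  pairs_affine x hx := ⟨(S.mem_pairs.mp hx).1, (S.mem_pairs.mp hx).2.1⟩
  pairs_inj_left x hx y hy h := by
    have h1 := S.mem_pairs.mp hx
    have h2 := S.mem_pairs.mp hy
    rw [h] at h1
    exact Prod.ext h (SplitModel.Pair.right_unique S h1 h2)
  pairs_inj_right x hx y hy h := by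
    have h1 := S.mem_pairs.mp hx
    have h2 := S.mem_pairs.mp hy
    rw [h] at h1
    exact Prod.ext (SplitModel.Pair.left_unique S h1 h2) h
  pairs_glue m f hfi hf x hx :=
    (S.mem_pairs.mp hx).2.2 (fun i => S.red i f) ⟨m, f, hf, hfi, rfl⟩
  count := le_of_eq S.delta_eq_card

/-- Pivots from embeddings into Laurent series, up to a denominator on each space. -/
theorem GlueModel.hasPivot_of_series (S : GlueModel A π F G)
    (E : Fin 2 → F →ₐ[L] LaurentSeries L) (ι : G →ₐ[k] LaurentSeries k)
    (hden : ∀ (i : Fin 2) (V : Submodule L F), FiniteDimensional L V → ∃ u : F, S.Int i u ∧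
      S.red i u ≠ 0 ∧ ∀ g ∈ V, S.Int i g → IntSeries A (E i (u * g)) ∧
        redSeries A π (E i (u * g)) = ι (S.red i u * S.red i g)) : S.HasPivot := by
  intro i V hV f hf hf0
  obtain ⟨u, -, hu0, hu⟩ := hden i V hV
  have h1 : ι (S.red i u * S.red i f) ≠ 0 := (map_ne_zero ι).mpr (mul_ne_zero hu0 hf0)
  obtain ⟨n, hn⟩ : ∃ n, (ι (S.red i u * S.red i f)).coeff n ≠ 0 := by
    by_contra! hall
    exact h1 (HahnSeries.ext (funext fun n => (hall n).trans HahnSeries.coeff_zero.symm))
  let φ : F →ₗ[L] L :=
    { toFun := fun z => (E i (u * z)).coeff n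
      map_add' := fun a b => by simp [mul_add]
      map_smul' := fun c a => by simp [mul_smul_comm, algHom_smul] }
  let ψ : G →ₗ[k] k :=
    { toFun := fun z => (ι (S.red i u * z)).coeff n
      map_add' := fun a b => by simp [mul_add]
      map_smul' := fun c a => by simp [mul_smul_comm, algHom_smul] }
  refine ⟨φ, ψ, fun g hgV hg => ?_, hn⟩
  obtain ⟨hgi, hgr⟩ := hu g hgV hg
  refine ⟨hgi n, ?_⟩
  show π _ = (ι (S.red i u * S.red i g)).coeff n
  rw [← hgr, redSeries_coeff hgi]
  rfl

section Inertia

variable {L' : Type*} [Field L'] [CharZero L'] [Algebra ℚ L'] [Algebra.IsAlgebraic ℚ L']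
  {B : ValuationSubring L'} {σ : L' ≃ₐ[ℚ] L'}

/-- An element of the decomposition group preserves the size of constants. -/
theorem div_mem_of_mem_iff (hσ : ∀ x, σ x ∈ B ↔ x ∈ B) {c : L'} (hc : c ≠ 0) : σ c / c ∈ B := by
  classical
  have hroot : ∀ i : ℕ, (σ ^ i) c ∈ (minpoly ℚ c).rootSet L' := fun i => by
    rw [Polynomial.mem_rootSet]
    exact ⟨minpoly.ne_zero (Algebra.IsIntegral.isIntegral c),
      by rw [Polynomial.aeval_algHom_apply, minpoly.aeval, map_zero]⟩
  obtain ⟨N, hN, hper⟩ : ∃ N, 0 < N ∧ (σ ^ N) c = c := by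
    obtain ⟨a, -, b, -, hne, heq⟩ := Set.infinite_univ.exists_ne_map_eq_of_mapsTo
      (f := fun i : ℕ => (σ ^ i) c) (fun i _ => hroot i) ((minpoly ℚ c).rootSet_finite L')
    wlog hab : a < b generalizing a b with H
    · exact H b a hne.symm heq.symm (by omega)
    refine ⟨b - a, by omega, (σ ^ a).injective ?_⟩
    rw [← AlgEquiv.mul_apply, ← pow_add, Nat.add_sub_cancel' hab.le]
    exact heq.symm
  by_contra hnot
  set t := c / σ c with ht
  have hσc : σ c ≠ 0 := by simpa using hc
  have htinv : t⁻¹ = σ c / c := by rw [ht, inv_div]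
  have htB : t ∈ B := (B.mem_or_inv_mem t).resolve_right (by rwa [htinv])
  have hiter : ∀ i : ℕ, (σ ^ i) t ∈ B := fun i => by
    induction i with
    | zero => simpa using htB
    | succ i ih => rw [pow_succ', AlgEquiv.mul_apply, hσ]; exact ih
  have hprod : ∀ i : ℕ, c / (σ ^ i) c ∈ B ∧ (1 ≤ i → (c / (σ ^ i) c) / t ∈ B) := fun i => by
    induction i with
    | zero => exact ⟨by simp [hc, B.one_mem], fun h => absurd h (by omega)⟩
    | succ i ih =>
      have hci : (σ ^ i) c ≠ 0 := (map_ne_zero _).mpr hc
      have hci' : σ ((σ ^ i) c) ≠ 0 := (map_ne_zero _).mpr hci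
      have heq : c / (σ ^ (i + 1)) c = (c / (σ ^ i) c) * (σ ^ i) t := by
        rw [ht, map_div₀, pow_succ', AlgEquiv.mul_apply,
          show (σ ^ i) (σ c) = σ ((σ ^ i) c) by
            rw [← AlgEquiv.mul_apply, ← AlgEquiv.mul_apply, ← pow_succ, ← pow_succ']]
        field_simp
      refine ⟨heq ▸ B.mul_mem _ _ ih.1 (hiter i), fun _ => ?_⟩
      rcases Nat.eq_zero_or_pos i with rfl | hi
      · rw [heq]
        simp [hc, ht, hσc, B.one_mem]
      · rw [heq, mul_div_right_comm]
        exact B.mul_mem _ _ (ih.2 hi) (hiter i)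
  have h1 := (hprod N).2 hN
  rw [hper, div_self hc, one_div, htinv] at h1
  exact hnot h1

end Inertia

end Fermat.Agent.XHLite

end
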