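import Fermat.Agent.XHLite.Glue.Zeta

/-!
# Newton iteration on the two charts

If the gluing datum of `u ≡ 1` is trivial then `u` is a constant times an `n`-th power: two Newton
iterations give roots of `u` on the two charts `H`, `zeros of T`, which are congruent to high
order; an integral family with independent reductions turns this into a uniform bound
contradicting `L(D) = 0`.
-/

set_option autoImplicit false
set_option linter.unusedSectionVars false

noncomputable section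

open AlgebraicCurve Fermat.Agent.FunctionFieldRR Fermat.Agent.SemistableRed

namespace Fermat.Agent.XHLite.GlueModel

variable {L : Type*} [Field L] {A : ValuationSubring L} {k : Type*} [Field k] [IsAlgClosed k]
  {π : A →+* k} {F : Type*} [Field F] [Algebra L F] {G : Type*} [Field G] [Algebra k G]
  [IsFunctionField k G]
variable (S : GlueModel A π F G)

include S in
theorem inv_mem_max {c : L} (hc : c ∉ A) : ∃ h : c⁻¹ ∈ A, π ⟨c⁻¹, h⟩ = 0 := by
  have ha : c⁻¹ ∈ A := (A.mem_or_inv_mem c).resolve_left hc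
  refine ⟨ha, (S.isResidueMap _).mpr fun hu => hc ?_⟩
  obtain ⟨u, hu⟩ := hu
  have h1 : c⁻¹ * ((↑u⁻¹ : A) : L) = 1 := by
    rw [← show ((u : A) : L) = c⁻¹ from congrArg Subtype.val hu]
    exact congrArg Subtype.val u.mul_inv
  have h2 := eq_inv_of_mul_eq_one_right h1
  rw [inv_inv] at h2
  rw [← h2]
  exact SetLike.coe_mem _

/-- An integral function reducing to zero is divisible by a scalar in the maximal ideal. -/
theorem exists_divisor {i : Fin 2} {y : F} (hy : S.Int i y) (hy0 : S.red i y = 0) :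
    ∃ b : A, (b : L) ≠ 0 ∧ π b = 0 ∧ ∀ b' : L, b' ≠ 0 → (b : L) / b' ∈ A →
      S.Int i (b'⁻¹ • y) := by
  rcases eq_or_ne y 0 with rfl | hne
  · obtain ⟨T, hT⟩ : ∃ b : A, (b : L) ≠ 0 ∧ π b = 0 := by
      exact S.exists_small
    exact ⟨T, hT.1, hT.2, fun b' _ _ => by rw [smul_zero]; exact S.int_zero i⟩
  · obtain ⟨c, hc, hcr⟩ := S.normalise i y hne
    have hcA : c ∉ A := fun h => hcr (by rw [S.red_smul i c y h hy, hy0, smul_zero])
    obtain ⟨h1, h2⟩ := S.inv_mem_max hcA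
    have hc0 : c ≠ 0 := fun h => hcA (h ▸ A.zero_mem)
    refine ⟨⟨_, h1⟩, inv_ne_zero hc0, h2, fun b' hb' hdiv => ?_⟩
    rw [show b'⁻¹ = c⁻¹ / b' * c by field_simp, mul_smul]
    exact S.int_smul i _ _ hdiv hc

theorem int_const_iff {i : Fin 2} {c : L} : S.Int i (c • (1 : F)) ↔ c ∈ A := by
  refine ⟨fun h => ?_, fun h => S.int_smul i c 1 h (S.int_one i)⟩
  by_contra hc
  obtain ⟨h1, h2⟩ := S.inv_mem_max hc
  have h3 := S.smul_mem_zero h1 h2 h
  have hc0 : c ≠ 0 := fun h0 => hc (by rw [h0]; exact A.zero_mem)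
  rw [smul_smul, inv_mul_cancel₀ hc0, one_smul, S.red_one] at h3
  exact one_ne_zero h3

theorem int_inv {i : Fin 2} {x : F} (hx : S.Int i x) (hx0 : S.red i x ≠ 0) :
    S.Int i x⁻¹ ∧ S.red i x⁻¹ = (S.red i x)⁻¹ := by
  have hne : x ≠ 0 := S.ne_zero_of_red_ne hx0
  obtain ⟨c, hc, hcr⟩ := S.normalise i x⁻¹ (inv_ne_zero hne)
  have hm : S.Int i (c • (1 : F)) := by
    have := S.int_mul i _ _ hc hx
    rwa [smul_mul_assoc, inv_mul_cancel₀ hne] at this
  have hcA := (S.int_const_iff).mp hm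
  have hu : IsUnit (⟨c, hcA⟩ : A) := by
    by_contra hu
    have h0 := (S.isResidueMap ⟨c, hcA⟩).mpr hu
    have h1 := S.red_mul i _ _ hc hx
    rw [smul_mul_assoc, inv_mul_cancel₀ hne, S.smul_mem_zero hcA h0 (S.int_one i)] at h1
    exact (mul_ne_zero hcr hx0) h1.symm
  obtain ⟨u, hu⟩ := hu
  have hcu : c * ((↑u⁻¹ : A) : L) = 1 := by
    rw [← show ((u : A) : L) = c from congrArg Subtype.val hu]
    exact congrArg Subtype.val u.mul_inv
  have hint : S.Int i x⁻¹ := by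
    have := S.int_smul i _ _ ((↑u⁻¹ : A).2) hc
    rwa [smul_smul, mul_comm, hcu, one_smul] at this
  refine ⟨hint, eq_inv_of_mul_eq_one_left ?_⟩
  rw [← S.red_mul i _ _ hint hx, inv_mul_cancel₀ hne, S.red_one]

/-- `x` is divisible by the scalar `b` on both components. -/
def DivBy (b : L) (x : F) : Prop := S.Int2 (b⁻¹ • x)

variable {S}

theorem DivBy.mul_int {b : L} {x y : F} (h : S.DivBy b x) (hy : S.Int2 y) : S.DivBy b (x * y) :=
  fun i => by rw [← smul_mul_assoc]; exact S.int_mul i _ _ (h i) (hy i)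

theorem DivBy.add {b : L} {x y : F} (h : S.DivBy b x) (h' : S.DivBy b y) : S.DivBy b (x + y) :=
  fun i => by rw [smul_add]; exact S.int_add i _ _ (h i) (h' i)

theorem DivBy.sub {b : L} {x y : F} (h : S.DivBy b x) (h' : S.DivBy b y) : S.DivBy b (x - y) :=
  fun i => by rw [smul_sub]; exact S.int_sub (h i) (h' i)

theorem DivBy.int {b : L} {x : F} (h : S.DivBy b x) (hb : b ∈ A) (hb0 : b ≠ 0) : S.Int2 x :=
  fun i => by
    have := S.int_smul i b _ hb (h i)
    rwa [smul_inv_smul₀ hb0] at this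

theorem DivBy.red_eq_zero {b : A} {x : F} (h : S.DivBy (b : L) x) (hb : π b = 0)
    (hb0 : (b : L) ≠ 0) (i : Fin 2) : S.red i x = 0 := by
  have := S.smul_mem_zero b.2 hb (h i)
  rwa [smul_inv_smul₀ hb0] at this

variable (S)

theorem int_natCast (m : ℕ) : S.Int2 (m : F) := fun i => by
  induction m with
  | zero => simpa using S.int_zero i
  | succ m ih => rw [Nat.cast_succ]; exact S.int_add i _ _ ih (S.int_one i)

/-- `(1 - x) ^ m = 1 - m x + x² r` with `r` integral. -/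
theorem one_sub_pow {x : F} (hx : S.Int2 x) (m : ℕ) :
    ∃ r, S.Int2 r ∧ (1 - x) ^ m = 1 - (m : F) * x + x ^ 2 * r := by
  induction m with
  | zero => exact ⟨0, S.int_zero, by simp⟩
  | succ m ih =>
    obtain ⟨r, hr, hp⟩ := ih
    refine ⟨(m : F) + r - x * r, fun i => S.int_sub (S.int_add i _ _ (S.int_natCast m i) (hr i))
      (S.int_mul i _ _ (hx i) (hr i)), ?_⟩
    rw [pow_succ, hp]
    push_cast
    ring

/-- The first-order Newton step improves a congruence `φ ^ n u ≡ 1`. -/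
theorem newton_step (n : ℕ) (ν : A) (hν : (n : L) * (ν : L) = 1) (R : S.Rep n) {φ : F}
    (hφ : S.Int2 φ) {b : A} (hb0 : (b : L) ≠ 0) {l : ℕ}
    (h : S.DivBy ((b : L) ^ (l + 1)) (φ ^ n * R.u - 1)) :
    S.Int2 (φ * (1 - (ν : L) • (φ ^ n * R.u - 1))) ∧
      S.DivBy ((b : L) ^ (l + 2)) ((φ * (1 - (ν : L) • (φ ^ n * R.u - 1))) ^ n * R.u - 1) := by
  set ε := φ ^ n * R.u - 1 with hε
  have hεi : S.Int2 ε := h.int (pow_mem b.2 _) (pow_ne_zero _ hb0)
  set x := (ν : L) • ε with hx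
  have hxi : S.Int2 x := fun i => S.int_smul i _ _ ν.2 (hεi i)
  obtain ⟨r, hr, hpow⟩ := S.one_sub_pow hxi n
  refine ⟨fun i => S.int_mul i _ _ (hφ i) (S.int_sub (S.int_one i) (hxi i)), ?_⟩
  have hnx : (n : F) * x = ε := by
    rw [hx, Algebra.smul_def, ← mul_assoc, ← map_natCast (algebraMap L F) n, ← map_mul, hν,
      map_one, one_mul]
  have hnew : (φ * (1 - x)) ^ n * R.u - 1 =
      ε * ε * ((1 + ε) * ((algebraMap L F (ν : L)) ^ 2 * r) - 1) := by
    rw [mul_pow, hpow, hnx, mul_right_comm, show φ ^ n * R.u = 1 + ε by rw [hε]; ring]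
    rw [hx, Algebra.smul_def]
    ring
  rw [hnew]
  intro i
  have hsq : S.Int i ((((b : L) ^ (l + 2))⁻¹) • (ε * ε)) := by
    have h1 := S.int_mul i _ _ (h i) (h i)
    rw [smul_mul_smul_comm] at h1
    have h2 := S.int_smul i ((b : L) ^ l) _ (pow_mem b.2 _) h1
    rw [smul_smul] at h2
    convert h2 using 2
    field_simp
    ring
  rw [← smul_mul_assoc]
  refine S.int_mul i _ _ hsq (S.int_sub (S.int_mul i _ _ (S.int_add i _ _ (S.int_one i) (hεi i))
    (S.int_mul i _ _ ?_ (hr i))) (S.int_one i))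
  refine S.int_pow ?_ 2
  rw [Algebra.algebraMap_eq_smul_one]
  exact S.int_smul i _ _ ν.2 (S.int_one i)

/-- Congruences `φ ^ n u ≡ ψ ^ n u` lift to congruences of the roots. -/
theorem root_congr (n : ℕ) (hn : (n : k) ≠ 0) (R : S.Rep n) {φ ψ : F} (hφ : S.Int2 φ)
    (hψ : S.Int2 ψ) (hφ1 : ∀ i, S.red i φ = 1) (hψ1 : ∀ i, S.red i ψ = 1) {b : L}
    (h : S.DivBy b (φ ^ n * R.u - 1)) (h' : S.DivBy b (ψ ^ n * R.u - 1)) :
    S.DivBy b (φ - ψ) := by
  set s := (∑ j ∈ Finset.range n, φ ^ j * ψ ^ (n - 1 - j)) * R.u with hs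
  have hterm : ∀ i, ∀ j ∈ Finset.range n, S.Int i (φ ^ j * ψ ^ (n - 1 - j)) := fun i j _ =>
    S.int_mul i _ _ (S.int_pow (hφ i) j) (S.int_pow (hψ i) _)
  have hsi : S.Int2 s := fun i =>
    S.int_mul i _ _ (S.int_sum _ (hterm i)).1 (R.int i)
  have hsr : ∀ i, S.red i s = (n : G) := fun i => by
    rw [hs, S.red_mul i _ _ (S.int_sum _ (hterm i)).1 (R.int i), R.red_u, mul_one,
      (S.int_sum _ (hterm i)).2]
    rw [Finset.sum_congr rfl fun j _ => show S.red i (φ ^ j * ψ ^ (n - 1 - j)) = (1 : G) by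
      rw [S.red_mul i _ _ (S.int_pow (hφ i) j) (S.int_pow (hψ i) _), S.red_pow (hφ i),
        S.red_pow (hψ i), hφ1, hψ1, one_pow, one_pow, mul_one]]
    simp
  have hsne : ∀ i, S.red i s ≠ 0 := fun i => by
    rw [hsr, ← map_natCast (algebraMap k G) n, Ne, map_eq_zero]; exact hn
  have hs0 : s ≠ 0 := S.ne_zero_of_red_ne (hsne 0)
  have hkey : φ - ψ = (φ ^ n * R.u - 1 - (ψ ^ n * R.u - 1)) * s⁻¹ := by
    rw [sub_sub_sub_cancel_right, ← sub_mul, ← geom_sum₂_mul φ ψ n, mul_right_comm _ (φ - ψ) R.u,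
      ← hs, mul_comm s, mul_assoc, mul_inv_cancel₀ hs0, mul_one]
  rw [hkey]
  exact (h.sub h').mul_int fun i => (S.int_inv (hsi i) (hsne i)).1

theorem T_mem : S.T ∈ riemannRochSpace (((1 : ℕ) : ℤ) • S.H) := by
  refine mem_rrs_iff.mpr (Or.inr fun P => ?_)
  rw [Nat.cast_one, one_smul]
  rcases (S.H_nonneg P).lt_or_eq with h | h
  · rw [S.ord_T P h]
  · rw [← h, neg_zero]; exact S.ord_T_nonneg P h.symm

theorem reach_Tbar : S.Reach fun _ => S.Tbar :=
  ⟨1, S.T, S.T_mem, S.int_T, funext S.red_T⟩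

theorem Tbar_pow_mem (N : ℕ) :
    S.Tbar ^ N ∈ riemannRochSpace ((N : ℤ) • S.C) := by
  refine mem_rrs_iff.mpr (Or.inr fun P => ?_)
  rw [ord_pow, Finsupp.smul_apply, smul_eq_mul]
  rcases (S.C_nonneg P).lt_or_eq with h | h
  · rw [S.ord_Tbar P h]; simp
  · rw [← h, mul_zero, neg_zero]
    exact mul_nonneg (Nat.cast_nonneg N) (S.ord_Tbar_nonneg P h.symm)

theorem mul_T_mem_twist {n : ℕ} {R : S.Rep n} {m : ℕ} {f : F} (hf : f ∈ S.twist R m) (j : ℕ) :
    S.T ^ j * f ∈ S.twist R (m + j) := by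
  induction j with
  | zero => simpa using hf
  | succ j ih =>
    have := mul_mem_rrs S.T_mem ih
    rw [pow_succ', mul_assoc]
    unfold twist
    rw [show R.D + ((m + (j + 1) : ℕ) : ℤ) • S.H =
      ((1 : ℕ) : ℤ) • S.H + (R.D + ((m + j : ℕ) : ℤ) • S.H) by push_cast; module]
    exact this

/-- Roots on the two charts, congruent to high order. -/
theorem exists_roots (n : ℕ) (hn : (n : k) ≠ 0) (R : S.Rep n) (hζ : S.HasZeta R 1) :
    ∃ b : A, (b : L) ≠ 0 ∧ π b = 0 ∧ ∀ l : ℕ, ∃ (N : ℕ) (f g : F), S.evalLevel ≤ N ∧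
      f ∈ S.twist R N ∧ g ∈ S.twist R N ∧ S.Int2 f ∧ S.Int2 g ∧ (∀ i, S.red i f = 1) ∧
        S.DivBy ((b : L) ^ (l + 1)) (S.T ^ N * f - g) := by
  set M := S.evalLevel with hM
  obtain ⟨f0, hf0, hf0i, hf0r⟩ : (1 : Fin 2 → G) ∈ S.imgSpace (S.twist R M) := by
    rw [hζ M le_rfl, S.zetaSpace_one]
    refine S.glue_of_reach S.reach_one (S.mem_pairSpace.mpr fun i => ?_)
    exact mem_rrs_iff.mpr (Or.inr fun P => by simpa using mul_nonneg (Nat.cast_nonneg M) (S.C_nonneg P))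
  obtain ⟨g0, hg0, hg0i, hg0r⟩ : (fun _ => S.Tbar ^ M : Fin 2 → G) ∈ S.imgSpace (S.twist R M) := by
    rw [hζ M le_rfl, S.zetaSpace_one]
    exact S.glue_of_reach (S.reach_Tbar.pow S M) (S.mem_pairSpace.mpr fun _ => S.Tbar_pow_mem M)
  have hTi : ∀ i, S.Int i (S.T ^ M) ∧ S.red i (S.T ^ M) ≠ 0 := fun i =>
    ⟨S.int_pow (S.int_T i) M, by
      rw [S.red_pow (S.int_T i), S.red_T]; exact pow_ne_zero _ S.Tbar_ne⟩
  set ψ0 := g0 / S.T ^ M with hψ0
  have hψ0i : S.Int2 ψ0 := fun i => by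
    rw [hψ0, div_eq_mul_inv]
    exact S.int_mul i _ _ (hg0i i) (S.int_inv (hTi i).1 (hTi i).2).1
  have hψ0r : ∀ i, S.red i ψ0 = 1 := fun i => by
    rw [hψ0, div_eq_mul_inv, S.red_mul i _ _ (hg0i i) (S.int_inv (hTi i).1 (hTi i).2).1,
      (S.int_inv (hTi i).1 (hTi i).2).2, show S.red i g0 = S.Tbar ^ M from congrFun hg0r i,
      S.red_pow (S.int_T i), S.red_T, mul_inv_cancel₀ (pow_ne_zero _ S.Tbar_ne)]
  have herr : ∀ φ, S.Int2 φ → (∀ i, S.red i φ = 1) →
      ∀ i, S.Int i (φ ^ n * R.u - 1) ∧ S.red i (φ ^ n * R.u - 1) = 0 := fun φ hφ hr i => by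
    have h1 := S.int_mul i _ _ (S.int_pow (hφ i) n) (R.int i)
    refine ⟨S.int_sub h1 (S.int_one i), ?_⟩
    rw [S.red_sub h1 (S.int_one i), S.red_mul i _ _ (S.int_pow (hφ i) n) (R.int i),
      S.red_pow (hφ i), hr, R.red_u, one_pow, mul_one, S.red_one, sub_self]
  choose bf hbf0 hbfπ hbf using fun i => S.exists_divisor (herr f0 hf0i (congrFun hf0r) i).1
    (herr f0 hf0i (congrFun hf0r) i).2
  choose bg hbg0 hbgπ hbg using fun i => S.exists_divisor (herr ψ0 hψ0i hψ0r i).1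
    (herr ψ0 hψ0i hψ0r i).2
  obtain ⟨i0, -, hmin⟩ := exists_forall_div_mem (A := A) (Finset.univ : Finset (Fin 2 ⊕ Fin 2))
    Finset.univ_nonempty (fun j => ((Sum.elim bf bg j : A) : L)⁻¹)
    (fun j _ => inv_ne_zero (by rcases j with j | j <;> simp [hbf0, hbg0]))
  set b : A := Sum.elim bf bg i0 with hb
  have hb0 : (b : L) ≠ 0 := by rcases i0 with j | j <;> simp [hb, hbf0, hbg0]
  have hbπ : π b = 0 := by rcases i0 with j | j <;> simp [hb, hbfπ, hbgπ]
  have hdiv : ∀ j, ((Sum.elim bf bg j : A) : L) / (b : L) ∈ A := fun j => by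
    have := hmin j (Finset.mem_univ j)
    rwa [inv_div_inv] at this
  obtain ⟨ν, hν⟩ : ∃ ν : A, (n : L) * (ν : L) = 1 := by
    have hu : IsUnit (n : A) := by
      by_contra h
      exact hn (by simpa using (S.isResidueMap (n : A)).mpr h)
    obtain ⟨u, hu⟩ := hu
    refine ⟨↑u⁻¹, ?_⟩
    have := congrArg Subtype.val u.mul_inv
    rw [hu] at this
    simpa using this
  -- the two sequences
  have key : ∀ l : ℕ, ∃ (N : ℕ) (φ ψ : F), M ≤ N ∧ φ ∈ S.twist R N ∧ S.T ^ N * ψ ∈ S.twist R N ∧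
      S.Int2 φ ∧ S.Int2 ψ ∧ (∀ i, S.red i φ = 1) ∧ (∀ i, S.red i ψ = 1) ∧
        S.DivBy ((b : L) ^ (l + 1)) (φ ^ n * R.u - 1) ∧
        S.DivBy ((b : L) ^ (l + 1)) (ψ ^ n * R.u - 1) := by
    intro l
    induction l with
    | zero =>
      refine ⟨M, f0, ψ0, le_rfl, hf0, ?_, hf0i, hψ0i, congrFun hf0r, hψ0r, fun i => ?_, fun i => ?_⟩
      · rwa [hψ0, mul_div_cancel₀ _ (pow_ne_zero _ S.T_ne)]
      · rw [pow_one]; exact hbf i _ hb0 (hdiv (Sum.inl i))
      · rw [pow_one]; exact hbg i _ hb0 (hdiv (Sum.inr i))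
    | succ l ih =>
      obtain ⟨N, φ, ψ, hN, hφ, hψ, hφi, hψi, hφr, hψr, hφd, hψd⟩ := ih
      have hone : ∀ m : ℕ, (1 : F) ∈ riemannRochSpace ((m : ℤ) • S.H) := fun m =>
        mem_rrs_iff.mpr (Or.inr fun P => by simpa using mul_nonneg (Nat.cast_nonneg m) (S.H_nonneg P))
      have hpowmem : ∀ {f : F}, f ∈ S.twist R N →
          f ^ n * R.u ∈ riemannRochSpace (((n * N : ℕ) : ℤ) • S.H) := fun {f} hf => by
        rw [mem_rrs_iff]
        rcases eq_or_ne f 0 with h0 | h0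
        · rcases Nat.eq_zero_or_pos n with hz | hz
          · exact absurd (by rw [hz]; simp) hn
          · exact Or.inl (by rw [h0, zero_pow hz.ne', zero_mul])
        refine Or.inr fun P => ?_
        rw [P.ord_mul (pow_ne_zero _ h0) R.u_ne, ord_pow, R.ord_u]
        have h := (mem_rrs_iff.mp hf).resolve_left h0 P
        simp only [Finsupp.add_apply, Finsupp.smul_apply, smul_eq_mul] at h ⊢
        push_cast
        nlinarith
      have hmul : ∀ {f e : F}, f ∈ S.twist R N →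
          e ∈ riemannRochSpace (((n * N : ℕ) : ℤ) • S.H) → f * e ∈ S.twist R (N + n * N) :=
        fun {f e} hf he => by
          have := mul_mem_rrs hf he
          rw [add_assoc, ← add_smul, ← Nat.cast_add] at this
          exact this
      obtain ⟨h1i, h1d⟩ := S.newton_step n ν hν R hφi hb0 hφd
      obtain ⟨h2i, h2d⟩ := S.newton_step n ν hν R hψi hb0 hψd
      have hred : ∀ θ, S.Int2 θ → (∀ i, S.red i θ = 1) →
          ∀ i, S.red i (θ * (1 - (ν : L) • (θ ^ n * R.u - 1))) = 1 := fun θ hθ hθr i => by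
        obtain ⟨h3, h4⟩ := herr θ hθ hθr i
        have h5 := S.int_smul i _ _ ν.2 h3
        rw [S.red_mul i _ _ (hθ i) (S.int_sub (S.int_one i) h5), S.red_sub (S.int_one i) h5,
          S.red_smul i _ _ ν.2 h3, h4, smul_zero, sub_zero, hθr, S.red_one, mul_one]
      refine ⟨N + n * N, _, _, le_trans hN (Nat.le_add_right _ _), ?_, ?_, h1i, h2i,
        hred φ hφi hφr, hred ψ hψi hψr, h1d, h2d⟩
      · exact hmul hφ (Submodule.sub_mem _ (hone _) (Submodule.smul_mem _ _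
          (Submodule.sub_mem _ (hpowmem hφ) (hone _))))
      · have e : S.T ^ (N + n * N) * (ψ * (1 - (ν : L) • (ψ ^ n * R.u - 1))) =
            (S.T ^ N * ψ) * ((1 + (ν : L)) • S.T ^ (n * N) -
              (ν : L) • ((S.T ^ N * ψ) ^ n * R.u)) := by
          rw [pow_add, pow_mul' S.T n N, mul_pow]
          simp only [Algebra.smul_def, map_add, map_one]
          ring
        rw [e]
        refine hmul hψ (Submodule.sub_mem _ (Submodule.smul_mem _ _ ?_)
          (Submodule.smul_mem _ _ (hpowmem hψ)))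
        have := S.mul_T_mem_twist (R := Rep.one S n) (m := 0) (f := 1)
          (by rw [S.twist_one]; exact hone 0) (n * N)
        rwa [S.twist_one, mul_one, zero_add] at this
  refine ⟨b, hb0, hbπ, fun l => ?_⟩
  obtain ⟨N, φ, ψ, hN, hφ, hψ, hφi, hψi, hφr, hψr, hφd, hψd⟩ := key l
  refine ⟨N, φ, S.T ^ N * ψ, hN, hφ, hψ, hφi,
    fun i => S.int_mul i _ _ (S.int_pow (S.int_T i) N) (hψi i), hφr, ?_⟩
  rw [← mul_sub, mul_comm]
  exact (S.root_congr n hn R hφi hψi hφr hψr hφd hψd).mul_int fun i => S.int_pow (S.int_T i) N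

end Fermat.Agent.XHLite.GlueModel

end
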