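import Fermat.Agent.XHLite.Glue.Kummer
import Fermat.Agent.XHLite.Glue.Newton
import Fermat.Agent.XHLite.Glue.FromSplit
import Fermat.Agent.Frobenius.Exists
import Mathlib.RingTheory.AdjoinRoot
import Mathlib.RingTheory.Adjoin.PowerBasis

/-!
# Carriers of the Kummer covers, inertia

`X ^ d - b` stays irreducible if `b` has order prime to `d` somewhere, or if this holds for its
reduction; any field generated by a root then carries a Kummer structure. Inertia at `A` fixes
residues and sizes of constants.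
-/

set_option autoImplicit false
set_option linter.unusedSectionVars false

noncomputable section

open AlgebraicCurve Fermat.Agent.FunctionFieldRR Fermat.Agent.SemistableRed Polynomial
open scoped Pointwise

namespace Fermat.Agent.XHLite

/-- A norm argument: if no proper power `b ^ e` is a `d`-th power, `X ^ d - b` is irreducible. -/
theorem irreducible_of_pow {K : Type*} [Field K] {d : ℕ} (hd : 0 < d) {b : K}
    (h : ∀ (e : ℕ) (c : K), 0 < e → e < d → c ^ d ≠ b ^ e) : Irreducible (X ^ d - C b) := by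
  have hmon : (X ^ d - C b).Monic := monic_X_pow_sub_C b hd.ne'
  by_contra hirr
  obtain ⟨g, g', hg, -, hgg, hdeg, hdeg'⟩ : ∃ g g' : K[X], g.Monic ∧ g'.Monic ∧
      g * g' = X ^ d - C b ∧ g.natDegree ≠ 0 ∧ g'.natDegree ≠ 0 := by
    have hne1 : (X ^ d - C b : K[X]) ≠ 1 := fun h1 => by
      have := congrArg natDegree h1
      rw [natDegree_X_pow_sub_C, natDegree_one] at this
      omega
    rw [hmon.irreducible_iff_natDegree] at hirr
    simp only [hne1, ne_eq, not_false_eq_true, true_and, not_forall] at hirr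
    obtain ⟨g, g', hg, hg', hgg, hne⟩ := hirr
    push Not at hne
    exact ⟨g, g', hg, hg', hgg, hne.1, hne.2⟩
  have hsum : g.natDegree + g'.natDegree = d := by
    rw [← natDegree_mul hg.ne_zero (right_ne_zero_of_mul (hgg ▸ hmon.ne_zero)), hgg,
      natDegree_X_pow_sub_C]
  -- the roots of `g` in a splitting field multiply to a `d`-th root of `b ^ deg g`
  let K' := AlgebraicClosure K
  set e := g.natDegree with he
  have hroots : ∀ x ∈ (g.map (algebraMap K K')).roots, x ^ d = algebraMap K K' b := fun x hx => by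
    have h1 : eval₂ (algebraMap K K') x g = 0 := by
      rw [eval₂_eq_eval_map]; exact isRoot_of_mem_roots hx
    have h2 : eval₂ (algebraMap K K') x (X ^ d - C b) = 0 := by rw [← hgg, eval₂_mul, h1, zero_mul]
    simpa [sub_eq_zero] using h2
  have hsplit : (g.map (algebraMap K K')).Splits := IsAlgClosed.splits _
  have hprod : algebraMap K K' (g.coeff 0) = (-1) ^ e * (g.map (algebraMap K K')).roots.prod := by
    have h1 := hsplit.coeff_zero_eq_prod_roots_of_monic (hg.map _)
    rwa [coeff_map, natDegree_map] at h1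
  refine h e ((-1) ^ e * g.coeff 0) (by omega) (by omega) ((algebraMap K K').injective ?_)
  have hcard : (g.map (algebraMap K K')).roots.card = e := by
    rw [← hsplit.natDegree_eq_card_roots, natDegree_map]
  rw [map_pow, map_pow, map_mul, map_pow, map_neg, map_one, hprod, ← mul_assoc, ← mul_pow,
    neg_mul_neg, one_mul, one_pow, one_mul,
    ← Multiset.map_id' (g.map (algebraMap K K')).roots, ← Multiset.prod_map_pow,
    Multiset.map_congr rfl hroots,
    Multiset.map_const', Multiset.prod_replicate, hcard]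

/-- Irreducibility from one place. -/
theorem irreducible_of_coprime {K E : Type*} [Field K] [Field E] [Algebra K E] {d : ℕ}
    (hd : 0 < d) {b : E} (hb : b ≠ 0) (P : Place K E) (h : IsCoprime (P.ord b) (d : ℤ)) :
    Irreducible (X ^ d - C b) := by
  refine irreducible_of_pow hd fun e c he hed hc => ?_
  have h1 : (d : ℤ) * P.ord c = (e : ℤ) * P.ord b := by
    rw [← ord_pow, ← ord_pow, hc]
  have h2 : (d : ℤ) ∣ (e : ℤ) := h.symm.dvd_of_dvd_mul_right ⟨P.ord c, h1.symm⟩
  have := Nat.le_of_dvd he (Int.natCast_dvd_natCast.mp h2)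
  omega

/-- Irreducibility from the reduction. -/
theorem GlueModel.irreducible_of_red {L : Type*} [Field L] {A : ValuationSubring L} {k : Type*}
    [Field k] [IsAlgClosed k] {π : A →+* k} {F : Type*} [Field F] [Algebra L F] {G : Type*}
    [Field G] [Algebra k G] [IsFunctionField k G] (S : GlueModel A π F G) {d : ℕ} (hd : 0 < d)
    {b : F} {i : Fin 2} (hbi : S.Int i b) (P : Place k G)
    (hP : IsCoprime (P.ord (S.red i b)) (d : ℤ)) (hb : S.red i b ≠ 0) :
    Irreducible (X ^ d - Polynomial.C b) := by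
  refine irreducible_of_pow hd fun e c he hed hc => ?_
  have hc0 : c ≠ 0 := fun h => by
    rw [h, zero_pow hd.ne', eq_comm] at hc
    exact pow_ne_zero e (S.ne_zero_of_red_ne hb) hc
  obtain ⟨a, ha, har⟩ := S.normalise i c hc0
  have h1 : (a • c) ^ d = a ^ d • b ^ e := by rw [_root_.smul_pow, hc]
  have hbe := S.int_pow hbi e
  have hbr : S.red i (b ^ e) ≠ 0 := by rw [S.red_pow hbi]; exact pow_ne_zero _ hb
  have had : a ^ d ∈ A := by
    have h2 := S.int_mul i _ _ (S.int_pow ha d) (S.int_inv hbe hbr).1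
    rw [h1, smul_mul_assoc, mul_inv_cancel₀ (S.ne_zero_of_red_ne hbr)] at h2
    exact S.int_const_iff.mp h2
  have h3 : S.red i (a • c) ^ d = algebraMap k G (π ⟨_, had⟩) * S.red i b ^ e := by
    rw [← S.red_pow ha, h1, S.red_smul i _ _ had hbe, S.red_pow hbi, Algebra.smul_def]
  have hκ : algebraMap k G (π ⟨_, had⟩) ≠ 0 := fun h0 => by
    rw [h0, zero_mul] at h3
    exact pow_ne_zero d har h3
  have h4 : (d : ℤ) * P.ord (S.red i (a • c)) = (e : ℤ) * P.ord (S.red i b) := by
    rw [← ord_pow, ← ord_pow, h3, P.ord_mul hκ (pow_ne_zero _ hb), ord_algebraMap, zero_add]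
  have h5 : (d : ℤ) ∣ (e : ℤ) :=
    hP.symm.dvd_of_dvd_mul_right ⟨P.ord (S.red i (a • c)), h4.symm⟩
  have := Nat.le_of_dvd he (Int.natCast_dvd_natCast.mp h5)
  omega

/-- The Kummer structure on a field generated by a root. -/
def KummerExt.ofIrreducible {K E₀ E : Type*} [Field K] [Field E₀] [Field E] [Algebra K E₀]
    [Algebra K E] [Algebra E₀ E] {d : ℕ} (hd : 0 < d) {b : E₀}
    (hirr : Irreducible (X ^ d - C b)) (hb : b ≠ 0) {y : E} (hy : y ^ d = algebraMap E₀ E b)
    (htop : Algebra.adjoin E₀ {y} = ⊤) {ζ : K} (hζ : IsPrimitiveRoot ζ d) (hdK : (d : K) ≠ 0) :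
    KummerExt K E₀ E d :=
  have hint : IsIntegral E₀ y := ⟨X ^ d - C b, monic_X_pow_sub_C b hd.ne', by simp [hy]⟩
  let pb := (Algebra.adjoin.powerBasis hint).map ((Subalgebra.equivOfEq _ _ htop).trans
    Subalgebra.topEquiv)
  have hgen : pb.gen = y := rfl
  have hdim : pb.dim = d := by
    rw [← pb.natDegree_minpoly, hgen, ← minpoly.eq_of_irreducible_of_monic hirr (by simp [hy])
      (monic_X_pow_sub_C b hd.ne'), natDegree_X_pow_sub_C]
  { b := b
    b_ne := hb
    y := y
    pow_y := hy
    basis := pb.basis.reindex (finCongr hdim)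
    basis_apply := fun j => by
      rw [Module.Basis.reindex_apply, pb.basis_eq_pow, hgen]
      simp
    ζ := ζ
    isPrimitiveRoot := hζ
    d_ne := hdK }

section Inertia

variable {L : Type*} [Field L] [CharZero L] [Algebra ℚ L] [Algebra.IsAlgebraic ℚ L]
  {A : ValuationSubring L} {σ : L ≃ₐ[ℚ] L}

theorem mem_iff_of_inertia (hσ : σ ∈ A.inertiaSubgroupIn ℚ) (x : L) : σ x ∈ A ↔ x ∈ A := by
  obtain ⟨h, -⟩ := Frobenius.mem_inertiaSubgroupIn_iff.mp hσ
  have hA : σ • A = A := h
  rw [← ValuationSubring.smul_mem_pointwise_smul_iff (g := σ) (S := A) (x := x), hA]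
  rfl

theorem inertia_div_mem (hσ : σ ∈ A.inertiaSubgroupIn ℚ) {c : L} (hc : c ≠ 0) : σ c / c ∈ A :=
  div_mem_of_mem_iff (mem_iff_of_inertia hσ) hc

theorem inertia_residue_eq (hσ : σ ∈ A.inertiaSubgroupIn ℚ) {k : Type*} [Field k] {π : A →+* k}
    (hπ : IsResidueMap A π) (c : L) (hc : c ∈ A) :
    ∃ h : σ c ∈ A, π ⟨_, h⟩ = π ⟨c, hc⟩ := by
  obtain ⟨hd, hres⟩ := Frobenius.mem_inertiaSubgroupIn_iff.mp hσ
  refine ⟨(mem_iff_of_inertia hσ c).mpr hc, ?_⟩
  have h := hres (IsLocalRing.residue A ⟨c, hc⟩)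
  rw [← IsLocalRing.ResidueField.residue_smul, ← sub_eq_zero, ← map_sub,
    IsLocalRing.residue_eq_zero_iff, IsLocalRing.mem_maximalIdeal, mem_nonunits_iff, ← hπ,
    map_sub, sub_eq_zero] at h
  rw [← h]
  rfl

end Inertia

end Fermat.Agent.XHLite

end
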