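import Fermat.Agent.XHLite.Glue.KummerRelation
import Fermat.Agent.XHLite.Glue.Carrier
import Fermat.Agent.SemistableRed.AtkinLehner
import Fermat.Agent.SemistableRed.SeriesRep
import Fermat.Agent.Reduction.Instances
import Fermat.Prelude.Def_ModularCurve_X0ModL
import Fermat.Prelude.Def_FLTPrelim_Ramification

/-!
# The two reductions of `X₀(M q)` at `q`

Consequences of the description of the two reductions by `q`-expansions at infinity and after
`w_q`: pivots, and triviality of inertia on both.
-/

set_option autoImplicit false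
set_option linter.unusedSectionVars false

noncomputable section

open AlgebraicCurve ModularCurve Fermat.Agent.FunctionFieldRR Fermat.Agent.SemistableRed
  Fermat.Agent.Reduction
open scoped Fermat.Agent.Reduction

namespace Fermat.Agent.XHLite

local notation "Qbar" => AlgebraicClosure ℚ

variable {A : ValuationSubring Qbar} [IsAlgClosed (IsLocalRing.ResidueField A)] {M q : ℕ}
  [NeZero M] [NeZero q]
  [IsFunctionField (IsLocalRing.ResidueField A)
    ↥(modularFunctionFieldFullC (IsLocalRing.ResidueField A) M)]

/-- The expansions at infinity and after `w_q`. -/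
def expansion (hq : q.Prime) (hqM : ¬ q ∣ M) :
    Fin 2 → (↥(modularFunctionFieldBar (M * q)) →ₐ[Qbar] LaurentSeries Qbar) :=
  ![(modularFunctionFieldBar (M * q)).val,
    (modularFunctionFieldBar (M * q)).val.comp (wq hq hqM).toAlgHom]

theorem expansion_zero (hq : q.Prime) (hqM : ¬ q ∣ M)
    (f : ↥(modularFunctionFieldBar (M * q))) :
    expansion hq hqM 0 f = (f : LaurentSeries Qbar) := rfl

theorem expansion_one (hq : q.Prime) (hqM : ¬ q ∣ M)
    (f : ↥(modularFunctionFieldBar (M * q))) :
    expansion hq hqM 1 f = (wq hq hqM f : LaurentSeries Qbar) := rfl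

/-- The reductions of a model of `X₀(M q)` are the Gauss reductions of `q`-expansions at infinity
and after `w_q`. -/
structure IsSeriesModel (hq : q.Prime) (hqM : ¬ q ∣ M)
    (S : GlueModel A (IsLocalRing.residue A) ↥(modularFunctionFieldBar (M * q))
      ↥(modularFunctionFieldFullC (IsLocalRing.ResidueField A) M)) : Prop where
  nil : NilModulo A
  srep_red : ∀ i f, S.Int i f → SRep (expansion hq hqM i f)
    (S.red i f : LaurentSeries (IsLocalRing.ResidueField A))
  int_of_srep : ∀ i f v, SRep (A := A) (expansion hq hqM i f) v → S.Int i f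
  den : ∀ {J : Type} [Fintype J] (f : J → ↥(modularFunctionFieldBar (M * q))),
    ∃ u, (∀ i, S.Int i u ∧ S.red i u ≠ 0) ∧ ∀ i j, Bdd A (expansion hq hqM i (u * f j))

namespace IsSeriesModel

variable {hq : q.Prime} {hqM : ¬ q ∣ M}
  {S : GlueModel A (IsLocalRing.residue A) ↥(modularFunctionFieldBar (M * q))
    ↥(modularFunctionFieldFullC (IsLocalRing.ResidueField A) M)}
variable (hS : IsSeriesModel hq hqM S)

include hS in
theorem red_eq {i : Fin 2} {f : ↥(modularFunctionFieldBar (M * q))}
    {v : LaurentSeries (IsLocalRing.ResidueField A)}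
    (h : SRep (expansion hq hqM i f) v) :
    S.Int i f ∧ (S.red i f : LaurentSeries (IsLocalRing.ResidueField A)) = v :=
  ⟨hS.int_of_srep i f v h, (hS.srep_red i f (hS.int_of_srep i f v h)).unique h⟩

include hS in
theorem red_eq_series {i : Fin 2} {f : ↥(modularFunctionFieldBar (M * q))} {y : LaurentSeries A}
    (h : expansion hq hqM i f = ιS A y) :
    S.Int i f ∧ (S.red i f : LaurentSeries (IsLocalRing.ResidueField A)) = redS A y :=
  hS.red_eq (h ▸ SRep.series y)

include hS in
theorem hasPivot : S.HasPivot := by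
  classical
  refine S.hasPivot_of_series (expansion hq hqM)
    (IntermediateField.val _) fun i V hV => ?_
  let b := Module.finBasis Qbar V
  obtain ⟨u, hu, hub⟩ := hS.den fun j => (b j : ↥(modularFunctionFieldBar (M * q)))
  refine ⟨u, (hu i).1, (hu i).2, fun g hg hgi => ?_⟩
  have hbdd : Bdd A (expansion hq hqM i (u * g)) := by
    have hdec := congrArg V.subtype (b.sum_repr ⟨g, hg⟩)
    rw [map_sum] at hdec
    rw [← show _ = g from hdec, Finset.mul_sum, map_sum]
    refine Bdd.sum _ _ fun j _ => ?_
    rw [map_smul, mul_smul_comm, algHom_smul, smul_eq_algebraMap_mul,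
      algebraMap_laurentSeries_eq_single]
    exact (hub i j).single_mul _
  have hrep := (hS.srep_red i u (hu i).1).mul (hS.srep_red i g hgi)
  rw [← map_mul] at hrep
  obtain ⟨z, hz, hz'⟩ := hrep.exists_series hS.nil hbdd
  rw [← hz]
  refine ⟨intSeries_coeffMap z, ?_⟩
  rw [redSeries_coeffMap]
  exact hz'

theorem srep_coeffMap {σ : Qbar ≃ₐ[ℚ] Qbar} (hσ : σ ∈ A.inertiaSubgroupIn ℚ)
    {f : LaurentSeries Qbar} {v : LaurentSeries (IsLocalRing.ResidueField A)} (hf : SRep f v) :
    SRep (coeffMap (σ : Qbar →+* Qbar) f) v := by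
  have : Algebra.IsAlgebraic ℚ Qbar := AlgebraicClosure.isAlgebraic ℚ
  let g : A →+* A := ((σ : Qbar →+* Qbar).comp A.subtype).codRestrict A.toSubring
    fun x => (mem_iff_of_inertia hσ _).mpr x.2
  have h := hf.map (σ : Qbar →+* Qbar) g (fun a => rfl) (RingHom.id _) fun a => by
    obtain ⟨h, he⟩ := inertia_residue_eq hσ (π := IsLocalRing.residue A)
      (fun a => IsLocalRing.residue_eq_zero_iff a) (a : Qbar) a.2
    exact he
  rwa [show coeffMap (RingHom.id (IsLocalRing.ResidueField A)) v = v from
    HahnSeries.ext (funext fun n => coeffMap_coeff _ _ _)] at h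

include hS in
/-- Inertia acts trivially on both reductions. -/
theorem inertia_red {σ : Qbar ≃ₐ[ℚ] Qbar} (hσ : σ ∈ A.inertiaSubgroupIn ℚ) (i : Fin 2)
    (f : ↥(modularFunctionFieldBar (M * q))) (hf : S.Int i f) :
    S.Int i (arithmeticGalois (modularFunctionFieldFull (M * q)) σ • f) ∧
      S.red i (arithmeticGalois (modularFunctionFieldFull (M * q)) σ • f) = S.red i f := by
  set g := arithmeticGalois (modularFunctionFieldFull (M * q)) σ • f with hg
  have hrep : SRep (expansion hq hqM i g)
      (S.red i f : LaurentSeries (IsLocalRing.ResidueField A)) := by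
    rcases (show i = 0 ∨ i = 1 by omega) with rfl | rfl
    · exact srep_coeffMap hσ (hS.srep_red 0 f hf)
    · have hw : expansion hq hqM 1 g =
          coeffMap (σ : Qbar →+* Qbar) (expansion hq hqM 1 f) := by
        rw [expansion_one, hg, wq_galois_smul]
        rfl
      rw [hw]
      exact srep_coeffMap hσ (hS.srep_red 1 f hf)
  obtain ⟨h1, h2⟩ := hS.red_eq hrep
  exact ⟨h1, Subtype.ext h2⟩

end IsSeriesModel

end Fermat.Agent.XHLite

end
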