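import Fermat.Agent.XHLite.Glue.Injective
import Fermat.Prelude.Def_AlgebraicCurve_BaseChangeGalois

/-!
# The relation `(σ - 1)(τ - 1)(τ - a) = 0`

`τ` is semilinear, trivial on the reduction of the component `0`; `a` is linear and has the same
effect as `τ` on the component `1`; `σ` fixes every glued place on both components. Then for a
divisor `D` with `nD` principal, `n` invertible in the residue field, the divisor
`(σ - 1)(τ - 1)(τ - a) D` is principal.
-/

set_option autoImplicit false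
set_option linter.unusedSectionVars false

noncomputable section

open AlgebraicCurve Fermat.Agent.FunctionFieldRR Fermat.Agent.SemistableRed

namespace Fermat.Agent.XHLite.GlueModel

variable {L : Type*} [Field L] [IsAlgClosed L] {A : ValuationSubring L} {k : Type*} [Field k]
  [IsAlgClosed k] {π : A →+* k}
  {F : Type*} [Field F] [Algebra L F] [IsFunctionField L F]
  {G : Type*} [Field G] [Algebra k G] [IsFunctionField k G]
variable (S : GlueModel A π F G)

/-- The inverse of a representative. -/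
def Rep.inv {n : ℕ} (R : S.Rep n) : S.Rep n where
  u := R.u⁻¹
  D := -R.D
  u_ne := inv_ne_zero R.u_ne
  ord_u P := by rw [P.ord_inv, R.ord_u, Finsupp.neg_apply]; ring
  degree_D := by rw [map_neg, R.degree_D, neg_zero]
  int i := (S.int_inv (R.int i) (by rw [R.red_u]; exact one_ne_zero)).1
  red_u i := by
    rw [(S.int_inv (R.int i) (by rw [R.red_u]; exact one_ne_zero)).2, R.red_u, inv_one]

theorem HasZeta.of_D_eq {n : ℕ} {R R' : S.Rep n} {ζ : S.pairs → k} (h : S.HasZeta R ζ)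
    (hD : R.D = R'.D) : S.HasZeta R' ζ := fun m hm => by
  rw [← h m hm]; unfold twist; rw [hD]

theorem residueConst_smul_aut {K E : Type*} [Field K] [Field E] [Algebra K E] [IsAlgClosed K]
    [IsFunctionField K E] (g : E ≃ₐ[K] E) {P : Place K E} (hP : g • P = P) {f : E}
    (hf : VanishesTo P 0 f) : residueConst P (g f) = residueConst P f := by
  refine residueConst_eq _ ?_
  have h := residueConst_spec P ((vanishesTo_zero_iff P).mp hf)
  rw [← g.commutes, ← map_sub]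
  refine h.imp (fun h => by rw [h, map_zero]) fun h => ?_
  have h' := Place.ord_smul g P (f - algebraMap K E (residueConst P f))
  rw [hP] at h'
  rwa [h']

/-- An automorphism of the model fixing the glued places keeps the gluing datum. -/
theorem HasZeta.map {n : ℕ} (hn : n ≠ 0) {σ : F ≃ₐ[L] F} (hH : σ • S.H = S.H)
    {γ : Fin 2 → G ≃ₐ[k] G}
    (hσ : ∀ i f, S.Int i f → S.Int i (σ f) ∧ S.red i (σ f) = γ i (S.red i f))
    (hfix : ∀ x ∈ S.pairs, γ 0 • x.1 = x.1 ∧ γ 1 • x.2 = x.2)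
    {R R' : S.Rep n} (hD : R'.D = σ • R.D) {ζ : S.pairs → k} (h : S.HasZeta R ζ) :
    S.HasZeta R' ζ := by
  obtain ⟨η, -, hη⟩ := S.exists_hasZeta hn R'
  suffices η = ζ by rw [← this]; exact hη
  obtain ⟨z, hz, hv⟩ := S.exists_pair_values (le_refl S.evalLevel) ζ 1
  have hz' : z ∈ S.imgSpace (S.twist R S.evalLevel) := by
    rw [h _ le_rfl]
    exact S.mem_zetaSpace.mpr ⟨hz, fun x => by rw [(hv x).1, (hv x).2]; simp⟩
  obtain ⟨f, hf, hfi, hfr⟩ := hz'
  have hσf : σ f ∈ S.twist R' S.evalLevel := by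
    unfold twist at hf ⊢
    rw [hD]
    rw [mem_rrs_iff] at hf ⊢
    refine hf.imp (fun h => by rw [h, map_zero]) fun h P => ?_
    have h1 := h (σ⁻¹ • P)
    have h2 := Place.ord_smul σ (σ⁻¹ • P) f
    rw [smul_inv_smul] at h2
    have h3 : S.H P = S.H (σ⁻¹ • P) := by rw [← Divisor.smul_apply, hH]
    simp only [Finsupp.add_apply, Finsupp.smul_apply, Divisor.smul_apply, h2, h3] at h1 ⊢
    exact h1
  have hmem : S.red2 (σ f) ∈ S.zetaSpace η S.evalLevel := by
    rw [← hη _ le_rfl]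
    exact ⟨σ f, hσf, fun i => (hσ i f (hfi i)).1, rfl⟩
  funext x
  have h1 := (S.mem_zetaSpace.mp hmem).2 x
  have hp := S.pairs_affine _ x.2
  have hF := hfix _ x.2
  simp only [ev, red2] at h1 hv
  rw [(hσ 0 f (hfi 0)).2, (hσ 1 f (hfi 1)).2,
    show S.red 0 f = z 0 from congrFun hfr 0, show S.red 1 f = z 1 from congrFun hfr 1,
    residueConst_smul_aut _ hF.1 (S.regular_of_mem_pairSpace hz _ hp.1),
    residueConst_smul_aut _ hF.2 (S.regular_of_mem_pairSpace hz _ hp.2),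
    (hv x).1, (hv x).2] at h1
  simpa using h1.symm

variable {S}

/-- A representative fixed by `σ` up to principal divisors. -/
theorem exists_principal_sigma {n : ℕ} (hn : (n : k) ≠ 0) {σ : F ≃ₐ[L] F} (hH : σ • S.H = S.H)
    {γ : Fin 2 → G ≃ₐ[k] G}
    (hσ : ∀ i f, S.Int i f → S.Int i (σ f) ∧ S.red i (σ f) = γ i (S.red i f))
    (hfix : ∀ x ∈ S.pairs, γ 0 • x.1 = x.1 ∧ γ 1 • x.2 = x.2) (R : S.Rep n) :
    ∃ g : F, g ≠ 0 ∧ ∀ P, P.ord g = (σ • R.D - R.D) P := by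
  have hn0 : n ≠ 0 := fun h => hn (by rw [h, Nat.cast_zero])
  let R' : S.Rep n :=
    { u := σ R.u
      D := σ • R.D
      u_ne := by simpa using R.u_ne
      ord_u := fun P => by
        have h2 := Place.ord_smul σ (σ⁻¹ • P) R.u
        rw [smul_inv_smul] at h2
        rw [h2, R.ord_u, Divisor.smul_apply]
      degree_D := by rw [Divisor.degree_smul, R.degree_D]
      int := fun i => (hσ i _ (R.int i)).1
      red_u := fun i => by rw [(hσ i _ (R.int i)).2, R.red_u, map_one] }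
  obtain ⟨ζ, -, hζ⟩ := S.exists_hasZeta hn0 R
  obtain ⟨ζ', -, hζ'⟩ := S.exists_hasZeta hn0 (Rep.inv S R)
  have h1 : ζ * ζ' = 1 :=
    HasZeta.unique S (R := R.mul (Rep.inv S R)) (HasZeta.mul S hn0 hζ hζ')
      (HasZeta.of_D_eq S (S.hasZeta_one (n := n)) (by simp [Rep.one, Rep.mul, Rep.inv]))
  have h2 := HasZeta.mul S hn0 (HasZeta.map S hn0 hH hσ hfix (R' := R') rfl hζ) hζ'
  rw [h1] at h2
  obtain ⟨c, f, hf0, hu⟩ := S.eq_const_mul_pow n hn _ h2
  refine ⟨f, hf0, fun P => ?_⟩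
  have hc : c ≠ 0 := fun h => (R'.mul (Rep.inv S R)).u_ne (by rw [hu, h]; simp)
  have h3 := (R'.mul (Rep.inv S R)).ord_u P
  rw [hu, P.ord_mul (by simpa using hc) (pow_ne_zero _ hf0), ord_pow, ord_algebraMap,
    zero_add] at h3
  have h4 := mul_left_cancel₀ (Nat.cast_ne_zero.mpr hn0) h3
  rw [h4]
  simp [R', Rep.mul, Rep.inv, sub_eq_add_neg]

/-- `(τ - 1)(τ - a)` sends torsion classes to representatives `≡ 1`. -/
theorem exists_toric_rep {n : ℕ} (τ : SemilinearAut L F) (a : F ≃ₐ[L] F)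
    (hτA : ∀ c : L, c ≠ 0 → SemilinearAut.baseAut τ c / c ∈ A)
    (hτπ : ∀ (c : L) (hc : c ∈ A), ∃ h : SemilinearAut.baseAut τ c ∈ A, π ⟨_, h⟩ = π ⟨c, hc⟩)
    {β : G →+* G} (hτ0 : ∀ f, S.Int 0 f → S.Int 0 (τ • f) ∧ S.red 0 (τ • f) = S.red 0 f)
    (hτ1 : ∀ f, S.Int 1 f → S.Int 1 (τ • f) ∧ S.red 1 (τ • f) = β (S.red 1 f))
    {γ : G →+* G} (ha0 : ∀ f, S.Int 0 f → S.Int 0 (a f) ∧ S.red 0 (a f) = γ (S.red 0 f))
    (ha1 : ∀ f, S.Int 1 f → S.Int 1 (a f) ∧ S.red 1 (a f) = β (S.red 1 f))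
    {D : Divisor L F} (hD : Divisor.degree D = 0) {u : F} (hu : u ≠ 0)
    (hord : ∀ P, P.ord u = (n : ℤ) * D P) :
    ∃ R : S.Rep n, R.D = τ • (τ • D - a • D) - (τ • D - a • D) := by
  choose c hc hcr using fun i => S.normalise i u hu
  have hc0 : ∀ i, c i ≠ 0 := fun i h => hcr i (by rw [h, zero_smul, S.red_zero])
  have hτne : ∀ i, SemilinearAut.baseAut τ (c i) ≠ 0 := fun i => by simpa using hc0 i
  set w := τ • u / a u with hw
  have hτu : τ • u ≠ 0 := by simpa using hu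
  have hau : a u ≠ 0 := by simpa using hu
  have hunit : ∀ i, c i / SemilinearAut.baseAut τ (c i) ∈ A := fun i => by
    have := hτA (c i)⁻¹ (inv_ne_zero (hc0 i))
    rwa [map_inv₀, inv_div_inv] at this
  have hsmul : ∀ (e : L) (f : F), τ • (e • f) = SemilinearAut.baseAut τ e • (τ • f) := fun e f => by
    rw [Algebra.smul_def, smul_mul', SemilinearAut.smul_algebraMap, ← Algebra.smul_def]
  have hweq : ∀ i, w = (c i / SemilinearAut.baseAut τ (c i)) •
      (τ • (c i • u) * (a (c i • u))⁻¹) := fun i => by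
    rw [hsmul, map_smul, hw]
    simp only [Algebra.smul_def, map_div₀]
    have h1 : algebraMap L F (c i) ≠ 0 := by simpa using hc0 i
    have h2 : algebraMap L F (SemilinearAut.baseAut τ (c i)) ≠ 0 := by simpa using hτne i
    field_simp
  -- `w` is integral with a nonzero reduction on both components
  have key : ∀ i, S.Int i w ∧ S.red i w ≠ 0 ∧ S.red i (τ • w) = S.red i w ∧ S.Int i (τ • w) := by
    intro i
    obtain ⟨z, hzne, hz1, hz2, hz3, hz4, hz5⟩ : ∃ z : G, z ≠ 0 ∧ S.Int i (τ • (c i • u)) ∧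
        S.Int i (a (c i • u)) ∧ S.red i (a (c i • u)) = z ∧
        S.red i (τ • (c i • u)) ≠ 0 ∧
        ∀ g, S.Int i g → S.Int i (τ • g) ∧
          (S.red i g = (S.red i (τ • (c i • u))) / z → S.red i (τ • g) = S.red i g) := by
      rcases (show i = 0 ∨ i = 1 by omega) with rfl | rfl
      · refine ⟨γ (S.red 0 (c 0 • u)), ?_, (hτ0 _ (hc 0)).1, (ha0 _ (hc 0)).1, (ha0 _ (hc 0)).2,
          ?_, fun g hg => ⟨(hτ0 g hg).1, fun _ => (hτ0 g hg).2⟩⟩
        · exact (map_ne_zero γ).mpr (hcr 0)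
        · rw [(hτ0 _ (hc 0)).2]; exact hcr 0
      · refine ⟨β (S.red 1 (c 1 • u)), (map_ne_zero β).mpr (hcr 1), (hτ1 _ (hc 1)).1,
          (ha1 _ (hc 1)).1, (ha1 _ (hc 1)).2, ?_, fun g hg => ⟨(hτ1 g hg).1, fun h => ?_⟩⟩
        · rw [(hτ1 _ (hc 1)).2]; exact (map_ne_zero β).mpr (hcr 1)
        · rw [(hτ1 _ (hc 1)).2, div_self ((map_ne_zero β).mpr (hcr 1))] at h
          rw [(hτ1 g hg).2, h, map_one]
    obtain ⟨hi1, hi2⟩ := S.int_inv hz2 (hz3 ▸ hzne)
    set g := τ • (c i • u) * (a (c i • u))⁻¹ with hg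
    have hgi : S.Int i g := S.int_mul i _ _ hz1 hi1
    have hgr : S.red i g = S.red i (τ • (c i • u)) / z := by
      rw [hg, S.red_mul i _ _ hz1 hi1, hi2, hz3, div_eq_mul_inv]
    obtain ⟨hτc, hτcπ⟩ := hτπ _ (hunit i)
    have hne : π ⟨_, hunit i⟩ ≠ 0 := fun h0 => by
      refine (S.isResidueMap _).mp h0 (IsUnit.of_mul_eq_one
        ⟨_, hτA (c i) (hc0 i)⟩ (Subtype.ext ?_))
      show c i / SemilinearAut.baseAut τ (c i) * (SemilinearAut.baseAut τ (c i) / c i) = 1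
      field_simp [hc0 i, hτne i]
    rw [hweq i, ← hg, hsmul]
    refine ⟨S.int_smul i _ _ (hunit i) hgi, ?_, ?_, S.int_smul i _ _ hτc (hz5 g hgi).1⟩
    · rw [S.red_smul i _ _ (hunit i) hgi, smul_ne_zero_iff, hgr]
      exact ⟨hne, div_ne_zero hz4 hzne⟩
    · rw [S.red_smul i _ _ hτc (hz5 g hgi).1, hτcπ, (hz5 g hgi).2 hgr,
        S.red_smul i _ _ (hunit i) hgi]
  have hwne : w ≠ 0 := div_ne_zero hτu hau
  have hτw : τ • w ≠ 0 := by simpa using hwne
  refine ⟨{ u := τ • w * w⁻¹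
            D := τ • (τ • D - a • D) - (τ • D - a • D)
            u_ne := mul_ne_zero hτw (inv_ne_zero hwne)
            ord_u := fun P => ?_
            degree_D := ?_
            int := fun i => S.int_mul i _ _ (key i).2.2.2 (S.int_inv (key i).1 (key i).2.1).1
            red_u := fun i => ?_ }, rfl⟩
  · have hordw : ∀ Q, Q.ord w = (n : ℤ) * (τ • D - a • D) Q := fun Q => by
      have h1 := SemilinearAut.ord_smul τ (τ⁻¹ • Q) u
      rw [smul_inv_smul] at h1
      have h2 := Place.ord_smul a (a⁻¹ • Q) u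
      rw [smul_inv_smul] at h2
      rw [hw, ord_div Q hτu hau, h1, h2, hord, hord, Finsupp.sub_apply,
        SemilinearAut.divisor_smul_apply, Divisor.smul_apply]
      ring
    have h1 := SemilinearAut.ord_smul τ (τ⁻¹ • P) w
    rw [smul_inv_smul] at h1
    rw [P.ord_mul hτw (inv_ne_zero hwne), P.ord_inv, h1, hordw, hordw,
      Finsupp.sub_apply _ (τ • D - a • D), SemilinearAut.divisor_smul_apply]
    ring
  · rw [map_sub, SemilinearAut.degree_smul, sub_self]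
  · rw [S.red_mul i _ _ (key i).2.2.2 (S.int_inv (key i).1 (key i).2.1).1, (key i).2.2.1,
      (S.int_inv (key i).1 (key i).2.1).2, mul_inv_cancel₀ (key i).2.1]

/-- **The relation**: `(σ - 1)(τ - 1)(τ - a) D` is principal when `n D` is. -/
theorem relation {n : ℕ} (hn : (n : k) ≠ 0) (τ : SemilinearAut L F) (a σ : F ≃ₐ[L] F)
    (hτA : ∀ c : L, c ≠ 0 → SemilinearAut.baseAut τ c / c ∈ A)
    (hτπ : ∀ (c : L) (hc : c ∈ A), ∃ h : SemilinearAut.baseAut τ c ∈ A, π ⟨_, h⟩ = π ⟨c, hc⟩)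
    {β : G →+* G} (hτ0 : ∀ f, S.Int 0 f → S.Int 0 (τ • f) ∧ S.red 0 (τ • f) = S.red 0 f)
    (hτ1 : ∀ f, S.Int 1 f → S.Int 1 (τ • f) ∧ S.red 1 (τ • f) = β (S.red 1 f))
    {γ : G →+* G} (ha0 : ∀ f, S.Int 0 f → S.Int 0 (a f) ∧ S.red 0 (a f) = γ (S.red 0 f))
    (ha1 : ∀ f, S.Int 1 f → S.Int 1 (a f) ∧ S.red 1 (a f) = β (S.red 1 f))
    (hH : σ • S.H = S.H) {δ : Fin 2 → G ≃ₐ[k] G}
    (hσ : ∀ i f, S.Int i f → S.Int i (σ f) ∧ S.red i (σ f) = δ i (S.red i f))
    (hfix : ∀ x ∈ S.pairs, δ 0 • x.1 = x.1 ∧ δ 1 • x.2 = x.2)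
    {D : Divisor L F} (hD : Divisor.degree D = 0)
    (hDn : (n : ℤ) • D ∈ Divisor.principal (K := L) (F := F)) :
    σ • (τ • (τ • D - a • D) - (τ • D - a • D)) - (τ • (τ • D - a • D) - (τ • D - a • D)) ∈
      Divisor.principal (K := L) (F := F) := by
  obtain ⟨u, hu, hord⟩ := hDn
  obtain ⟨R, hR⟩ := exists_toric_rep (n := n) τ a hτA hτπ hτ0 hτ1 ha0 ha1 hD hu fun P => by
    rw [← hord P, Finsupp.smul_apply, smul_eq_mul]
  obtain ⟨g, hg, hgo⟩ := exists_principal_sigma hn hH hσ hfix R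
  rw [← hR]
  exact ⟨g, hg, fun P => (hgo P).symm⟩

end Fermat.Agent.XHLite.GlueModel

end
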