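import Fermat.Agent.XHLite.Glue.Kummer
import Fermat.Agent.XHLite.Glue.Relation

/-!
# The relation on a Kummer cover

For a semilinear `τ` fixing `b`, trivial on the reductions of `F₀`, fixing `μ 0` and multiplying
`μ 1` by `ζ ^ l`: every divisor class killed by `n`, `n` invertible in the residue field, is killed
by `(σ - 1)(τ - 1)(τ - (y ↦ ζ ^ l y))` for `σ : y ↦ ζ ^ m y`.
-/

set_option autoImplicit false
set_option linter.unusedSectionVars false

noncomputable section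

open AlgebraicCurve Fermat.Agent.FunctionFieldRR Fermat.Agent.SemistableRed

namespace Fermat.Agent.XHLite

variable {L : Type*} [Field L] {A : ValuationSubring L} {k : Type*} [Field k]
  [IsAlgClosed k] {π : A →+* k}
  {F₀ : Type*} [Field F₀] [Algebra L F₀]
  {G₀ : Type*} [Field G₀] [Algebra k G₀] [IsFunctionField k G₀]
  {S₀ : GlueModel A π F₀ G₀} {F : Type*} [Field F] [Algebra L F] [Algebra F₀ F]
  [IsScalarTower L F₀ F] {G : Type*} [Field G] [Algebra k G] [Algebra G₀ G]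
  [IsScalarTower k G₀ G] {d : ℕ}

namespace KummerRed

variable (R : KummerRed S₀ F G d)

theorem coefY_aut (l : ℕ) (i : Fin 2) (f : F) (j : Fin d) :
    R.coefY i (R.KF.aut l f) j = R.KF.ζ ^ (l * (j : ℕ)) • R.coefY i f j := by
  rw [coefY, coefY, R.KF.coef_aut, smul_comm]

/-- The exponent by which `y ↦ ζ ^ l y` acts on the component `i`. -/
theorem exists_redExp (i : Fin 2) (l : ℕ) : ∃ l' : ℕ, R.r i * l' ≡ l [MOD d] := by
  rcases Nat.lt_or_ge 1 d with hd | hd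
  · obtain ⟨s, -, hs⟩ := Nat.exists_mul_mod_eq_one_of_coprime (R.r_coprime i) hd
    refine ⟨s * l, ?_⟩
    have h1 : R.r i * s ≡ 1 [MOD d] := by rw [Nat.ModEq, hs, Nat.one_mod_eq_one.mpr (by omega)]
    simpa [mul_assoc] using h1.mul_right l
  · have := R.KF.d_pos
    have hd1 : d = 1 := by omega
    subst hd1
    exact ⟨0, Nat.modEq_one⟩

/-- See `exists_redExp`. -/
def redExp (i : Fin 2) (l : ℕ) : ℕ := (R.exists_redExp i l).choose

theorem redExp_spec (i : Fin 2) (l : ℕ) : R.r i * R.redExp i l ≡ l [MOD d] :=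
  (R.exists_redExp i l).choose_spec

theorem aut_h (i : Fin 2) (l : ℕ) :
    R.KG.aut (R.redExp i l) (R.h i) = algebraMap k G (R.KG.ζ ^ l) * R.h i := by
  rw [h, map_mul, map_pow, R.KG.aut_algebraMap, R.KG.aut_y, mul_pow, ← map_pow, ← pow_mul,
    mul_comm (R.redExp i l)]
  have hmod : ∀ t : ℕ, R.KG.ζ ^ t = R.KG.ζ ^ (t % d) := fun t => by
    conv_lhs => rw [← Nat.mod_add_div t d, pow_add, pow_mul, R.KG.isPrimitiveRoot.pow_eq_one,
      one_pow, mul_one]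
  have hz : R.KG.ζ ^ (R.r i * R.redExp i l) = R.KG.ζ ^ l := by
    rw [hmod, hmod l]
    exact congrArg (R.KG.ζ ^ ·) (R.redExp_spec i l)
  rw [hz]
  ring

theorem red_pow_smul (i : Fin 2) (l : ℕ) {c : F₀} (hc : S₀.Int i c) (j : ℕ) :
    S₀.Int i (R.KF.ζ ^ (l * j) • c) ∧
      algebraMap G₀ G (S₀.red i (R.KF.ζ ^ (l * j) • c)) * R.h i ^ j =
        R.KG.aut (R.redExp i l) (algebraMap G₀ G (S₀.red i c) * R.h i ^ j) := by
  have hm : R.KF.ζ ^ (l * j) ∈ A := pow_mem R.zeta_mem _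
  refine ⟨S₀.int_smul i _ _ hm hc, ?_⟩
  have hz : π ⟨_, hm⟩ = R.KG.ζ ^ (l * j) := by
    rw [← R.zeta_red, ← map_pow]; rfl
  rw [S₀.red_smul i _ _ hm hc, hz, map_mul, map_pow, R.KG.aut_algebraMap, R.aut_h, mul_pow,
    Algebra.smul_def, map_mul, ← IsScalarTower.algebraMap_apply, ← map_pow, ← pow_mul]
  ring

theorem int_aut (i : Fin 2) (l : ℕ) (f : F) (hf : R.Int i f) :
    R.Int i (R.KF.aut l f) ∧ R.red i (R.KF.aut l f) = R.KG.aut (R.redExp i l) (R.red i f) := by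
  refine ⟨fun j => ?_, ?_⟩
  · rw [R.coefY_aut]; exact (R.red_pow_smul i l (hf j) j).1
  · rw [red, red, map_sum]
    exact Finset.sum_congr rfl fun j _ => by
      rw [R.coefY_aut]; exact (R.red_pow_smul i l (hf j) j).2

variable (τ₀ : SemilinearAut L F₀) (τ : SemilinearAut L F)

theorem smul_smul_semilinear (e : L) (f : F₀) :
    τ₀ • (e • f) = SemilinearAut.baseAut τ₀ e • (τ₀ • f) := by
  rw [Algebra.smul_def, smul_mul', SemilinearAut.smul_algebraMap, ← Algebra.smul_def]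

theorem coef_semilinear (hτ : ∀ f : F₀, τ • algebraMap F₀ F f = algebraMap F₀ F (τ₀ • f))
    (hy : τ • R.KF.y = R.KF.y) (f : F) (j : Fin d) :
    R.KF.coef (τ • f) j = τ₀ • R.KF.coef f j := by
  have h : τ • f = ∑ j : Fin d, algebraMap F₀ F (τ₀ • R.KF.coef f j) * R.KF.y ^ (j : ℕ) := by
    conv_lhs => rw [← R.KF.sum_mon f, Finset.smul_sum]
    exact Finset.sum_congr rfl fun i _ => by rw [KummerExt.mon, smul_mul', hτ, smul_pow', hy]
  rw [h, R.KF.coef_sum]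

theorem baseAut_eq (hτ : ∀ f : F₀, τ • algebraMap F₀ F f = algebraMap F₀ F (τ₀ • f)) :
    SemilinearAut.baseAut τ₀ = SemilinearAut.baseAut τ := by
  ext c
  refine (algebraMap L F).injective ?_
  rw [← SemilinearAut.smul_algebraMap τ c, IsScalarTower.algebraMap_apply L F₀ F,
    ← SemilinearAut.smul_algebraMap τ₀ c, IsScalarTower.algebraMap_apply L F₀ F, hτ]

theorem coefY_semilinear (hτ : ∀ f : F₀, τ • algebraMap F₀ F f = algebraMap F₀ F (τ₀ • f))
    (hy : τ • R.KF.y = R.KF.y) (i : Fin 2) {l : ℕ}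
    (hμ : SemilinearAut.baseAut τ (R.μ i) = R.KF.ζ ^ l * R.μ i) (f : F) (j : Fin d) :
    R.coefY i (τ • f) j = R.KF.ζ ^ (l * (j : ℕ)) • (τ₀ • R.coefY i f j) := by
  have hz : R.KF.ζ ≠ 0 := R.KF.isPrimitiveRoot.ne_zero R.KF.d_pos.ne'
  have hμ0 : SemilinearAut.baseAut τ₀ (R.μ i) = R.KF.ζ ^ l * R.μ i := by
    rw [baseAut_eq τ₀ τ hτ]; exact hμ
  rw [coefY, coefY, R.coef_semilinear τ₀ τ hτ hy, smul_smul_semilinear, map_inv₀, map_pow, hμ0,
    smul_smul, mul_pow, ← pow_mul, mul_inv_rev, mul_comm _ ((R.KF.ζ ^ (l * (j : ℕ)))⁻¹),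
    ← mul_assoc, mul_inv_cancel₀ (pow_ne_zero _ hz), one_mul]

theorem int_semilinear (hτ : ∀ f : F₀, τ • algebraMap F₀ F f = algebraMap F₀ F (τ₀ • f))
    (hy : τ • R.KF.y = R.KF.y) (i : Fin 2)
    (hS : ∀ f, S₀.Int i f → S₀.Int i (τ₀ • f) ∧ S₀.red i (τ₀ • f) = S₀.red i f) {l : ℕ}
    (hμ : SemilinearAut.baseAut τ (R.μ i) = R.KF.ζ ^ l * R.μ i) (f : F) (hf : R.Int i f) :
    R.Int i (τ • f) ∧ R.red i (τ • f) = R.KG.aut (R.redExp i l) (R.red i f) := by
  refine ⟨fun j => ?_, ?_⟩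
  · rw [R.coefY_semilinear τ₀ τ hτ hy i hμ]
    exact (R.red_pow_smul i l (hS _ (hf j)).1 j).1
  · rw [red, red, map_sum]
    refine Finset.sum_congr rfl fun j _ => ?_
    rw [R.coefY_semilinear τ₀ τ hτ hy i hμ, (R.red_pow_smul i l (hS _ (hf j)).1 j).2,
      (hS _ (hf j)).2]

theorem aut_redExp_zero (i : Fin 2) (z : G) : R.KG.aut (R.redExp i 0) z = z := by
  refine R.KG.eq_of_coef fun j => ?_
  rw [R.KG.coef_aut]
  have h0 : d ∣ R.r i * R.redExp i 0 := Nat.modEq_zero_iff_dvd.mp (R.redExp_spec i 0)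
  have hk : d ∣ R.redExp i 0 := (Nat.Coprime.symm (R.r_coprime i)).dvd_of_dvd_mul_left h0
  obtain ⟨t, ht⟩ := hk
  rw [ht, mul_assoc, pow_mul, R.KG.isPrimitiveRoot.pow_eq_one, one_pow, one_smul]

end KummerRed

variable [IsAlgClosed L] [IsFunctionField L F₀] [IsFunctionField L F] [FiniteDimensional F₀ F]
  [HasPrincipalDivisors L F] [IsFunctionField k G] [FiniteDimensional G₀ G]
  [HasPrincipalDivisors k G]

theorem KummerRed.smul_pullback_H (R : KummerRed S₀ F G d) (m : ℕ) :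
    R.KF.aut m • Divisor.pullback F S₀.H = Divisor.pullback F S₀.H := by
  refine Finsupp.ext fun P => ?_
  rw [Divisor.smul_apply]
  have h1 := R.KF.restrict_aut m ((R.KF.aut m)⁻¹ • P)
  have h2 := R.KF.ramificationIndex_aut m ((R.KF.aut m)⁻¹ • P)
  rw [smul_inv_smul] at h1 h2
  rw [Divisor.pullback_apply, Divisor.pullback_apply, h1, h2]

/-- **The relation on the Kummer cover.** -/
theorem KummerModel.relation {R : KummerRed S₀ F G d} (M : KummerModel R) {n : ℕ}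
    (hn : (n : k) ≠ 0) (τ₀ : SemilinearAut L F₀) (τ : SemilinearAut L F)
    (hτA : ∀ c : L, c ≠ 0 → SemilinearAut.baseAut τ c / c ∈ A)
    (hτπ : ∀ (c : L) (hc : c ∈ A), ∃ h : SemilinearAut.baseAut τ c ∈ A, π ⟨_, h⟩ = π ⟨c, hc⟩)
    (hτ : ∀ f : F₀, τ • algebraMap F₀ F f = algebraMap F₀ F (τ₀ • f))
    (hy : τ • R.KF.y = R.KF.y)
    (hS : ∀ i f, S₀.Int i f → S₀.Int i (τ₀ • f) ∧ S₀.red i (τ₀ • f) = S₀.red i f) {l : ℕ}
    (hμ0 : SemilinearAut.baseAut τ (R.μ 0) = R.μ 0)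
    (hμ1 : SemilinearAut.baseAut τ (R.μ 1) = R.KF.ζ ^ l * R.μ 1) (m : ℕ) {D : Divisor L F}
    (hD : Divisor.degree D = 0)
    (hDn : (n : ℤ) • D ∈ Divisor.principal (K := L) (F := F)) :
    R.KF.aut m • (τ • (τ • D - R.KF.aut l • D) - (τ • D - R.KF.aut l • D)) -
        (τ • (τ • D - R.KF.aut l • D) - (τ • D - R.KF.aut l • D)) ∈
      Divisor.principal (K := L) (F := F) := by
  have hτ0 : ∀ f, R.Int 0 f → R.Int 0 (τ • f) ∧ R.red 0 (τ • f) = R.red 0 f := fun f hf => by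
    obtain ⟨h1, h2⟩ := R.int_semilinear τ₀ τ hτ hy 0 (hS 0) (l := 0)
      (by rw [pow_zero, one_mul]; exact hμ0) f hf
    exact ⟨h1, by rw [h2, R.aut_redExp_zero]⟩
  exact GlueModel.relation (S := M.toGlueModel) hn τ (R.KF.aut l) (R.KF.aut m) hτA hτπ
    (β := ((R.KG.aut (R.redExp 1 l)).toRingEquiv.toRingHom)) hτ0
    (fun f hf => R.int_semilinear τ₀ τ hτ hy 1 (hS 1) hμ1 f hf)
    (γ := ((R.KG.aut (R.redExp 0 l)).toRingEquiv.toRingHom))
    (fun f hf => R.int_aut 0 l f hf) (fun f hf => R.int_aut 1 l f hf)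
    (R.smul_pullback_H m) (δ := fun i => R.KG.aut (R.redExp i m))
    (fun i f hf => R.int_aut i m f hf)
    (fun x hx => ⟨(M.aut_fix _ hx).1, (M.aut_fix _ hx).2⟩) hD hDn

end Fermat.Agent.XHLite

end
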