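import Fermat.Agent.FunctionFieldRR.RiemannRoch
import Mathlib.FieldTheory.SeparableDegree

/-!
# Riemann–Roch for finite separable extensions

A finite separable extension of a function field with a separating element is again one; radical
extensions of degree prime to the characteristic are separable.
-/

set_option autoImplicit false
set_option linter.unusedSectionVars false

noncomputable section

open AlgebraicCurve IntermediateField Polynomial Fermat.Agent.FunctionFieldRR

namespace Fermat.Agent.XHLite

variable {E₀ E : Type*} [Field E₀] [Field E] [Algebra E₀ E]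

/-- An extension generated by a `d`-th root, `d` invertible, is separable. -/
theorem isSeparable_of_root {d : ℕ} (hd : (d : E₀) ≠ 0) {b : E₀} (hb : b ≠ 0) {y : E}
    (hy : y ^ d = algebraMap E₀ E b) (htop : Algebra.adjoin E₀ {y} = ⊤) :
    Algebra.IsSeparable E₀ E := by
  have hd0 : d ≠ 0 := fun h => hd (by rw [h, Nat.cast_zero])
  have hpol : aeval y (X ^ d - C b) = 0 := by simp [hy]
  have hsep : IsSeparable E₀ y :=
    (separable_X_pow_sub_C b hd hb).of_dvd (minpoly.dvd E₀ y hpol)
  have h1 : Algebra.IsSeparable E₀ E₀⟮y⟯ :=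
    (IntermediateField.isSeparable_adjoin_simple_iff_isSeparable E₀ E).mpr hsep
  have htop' : E₀⟮y⟯ = ⊤ := IntermediateField.toSubalgebra_injective <| by
    rw [IntermediateField.adjoin_simple_toSubalgebra_of_isAlgebraic
      ⟨X ^ d - C b, (monic_X_pow_sub_C b hd0).ne_zero, hpol⟩, htop, top_toSubalgebra]
  exact AlgEquiv.Algebra.isSeparable ((equivOfEq htop').trans topEquiv)

variable {K : Type*} [Field K] [IsAlgClosed K] [Algebra K E₀] [Algebra K E] [IsScalarTower K E₀ E]
  [FiniteDimensional E₀ E] [Algebra.IsSeparable E₀ E]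

/-- The upper field is a function field with Riemann–Roch. -/
theorem exists_rr_of_tower {x : E₀} (hx : Transcendental K x) [FiniteDimensional K⟮x⟯ E₀]
    [Algebra.IsSeparable K⟮x⟯ E₀] :
    IsFunctionField K E ∧ ∃ g bnd : ℤ, ∀ D : Divisor K E, bnd ≤ Divisor.degree D →
      (Module.finrank K (riemannRochSpace D) : ℤ) = Divisor.degree D + 1 - g := by
  set z := algebraMap E₀ E x
  have hz : Transcendental K z :=
    (transcendental_algebraMap_iff (algebraMap E₀ E).injective).mpr hx
  let f := IsScalarTower.toAlgHom K E₀ E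
  have he : (K⟮x⟯).map f = K⟮z⟯ := by rw [adjoin_map, Set.image_singleton]; rfl
  let e : K⟮x⟯ ≃+* K⟮z⟯ := ((K⟮x⟯.equivMap f).trans (equivOfEq he)).toRingEquiv
  have hfin : FiniteDimensional K⟮x⟯ E := Module.Finite.trans E₀ E
  have hsep : Algebra.IsSeparable K⟮x⟯ E := Algebra.IsSeparable.trans K⟮x⟯ E₀ E
  have hcomm : (algebraMap K⟮z⟯ E).comp e.toRingHom =
      (RingEquiv.refl E).toRingHom.comp (algebraMap K⟮x⟯ E) := RingHom.ext fun a => rfl
  haveI : FiniteDimensional K⟮z⟯ E := Module.Finite.of_equiv_equiv e (RingEquiv.refl E) hcomm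
  haveI : Algebra.IsSeparable K⟮z⟯ E :=
    Algebra.IsSeparable.of_equiv_equiv e (RingEquiv.refl E) hcomm
  haveI hFF := IsFunctionField.of_finiteDimensional z hz
  exact ⟨hFF, genusOf hz, 2 * (genusOf hz : ℤ) - 1, fun D hD =>
    finrank_eq_of_degree_gt hz (by omega)⟩

end Fermat.Agent.XHLite

end
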