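import Fermat.Agent.XHLite.Glue.Supersingular
import Fermat.Agent.XHLite.Glue.KummerRelation
import Fermat.Agent.XHLite.Glue.Tower
import Mathlib.RingTheory.AdjoinRoot

/-!
# The relation on the cover `y ^ d = b` of `X₀(M q)`

`CoverInputs` lists the properties of `b`, of a root `c` of `b * w_q b` and of the two modular
units. They give: for `τ` in inertia at `q` fixing `y`, with `τ μ = ζ ^ l μ`, every divisor killed
by `n` prime to `q` is killed by `(σ - 1)(τ - 1)(τ - a)`, `a : y ↦ ζ ^ l y`, `σ : y ↦ ζ ^ m y`.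
-/

set_option autoImplicit false
set_option linter.unusedSectionVars false

noncomputable section

open AlgebraicCurve ModularCurve Fermat.Agent.FunctionFieldRR Fermat.Agent.SemistableRed
  Fermat.Agent.Reduction Polynomial
open scoped Fermat.Agent.Reduction

namespace Fermat.Agent.XHLite

local notation "Qbar" => AlgebraicClosure ℚ

/-- A root of unity is integral and its residue is primitive when the order is invertible. -/
theorem residue_isPrimitiveRoot {L : Type*} [Field L] {A : ValuationSubring L} {d : ℕ} {ζ : L}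
    (hζ : IsPrimitiveRoot ζ d) (hd : (d : IsLocalRing.ResidueField A) ≠ 0) :
    ∃ h : ζ ∈ A, IsPrimitiveRoot (IsLocalRing.residue A ⟨ζ, h⟩) d := by
  have hd0 : d ≠ 0 := fun h => hd (by rw [h, Nat.cast_zero])
  have hmem : ζ ∈ A := by
    refine (A.mem_or_inv_mem ζ).elim id fun hinv => ?_
    have hz : ζ = ζ⁻¹ ^ (d - 1) := by
      rw [inv_pow]
      refine eq_inv_of_mul_eq_one_left ?_
      rw [← pow_succ', Nat.sub_add_cancel (Nat.one_le_iff_ne_zero.mpr hd0), hζ.pow_eq_one]
    rw [hz]
    exact pow_mem hinv _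
  refine ⟨hmem, ?_⟩
  have hA : IsPrimitiveRoot (⟨ζ, hmem⟩ : A) d :=
    IsPrimitiveRoot.of_map_of_injective (f := A.subtype) hζ A.subtype_injective
  have : NeZero (d : IsLocalRing.ResidueField A) := ⟨hd⟩
  have hroot := (hA.isRoot_cyclotomic (Nat.pos_of_ne_zero hd0)).map (f := IsLocalRing.residue A)
  rw [map_cyclotomic] at hroot
  exact isRoot_cyclotomic_iff.mp hroot

/-- A `d`-th root of an element of order prime to `d` at some place generates a Kummer extension. -/
theorem adjoin_root_top {E₀ : Type*} [Field E₀] {d : ℕ} {b : E₀} :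
    Algebra.adjoin E₀ {AdjoinRoot.root (X ^ d - C b)} = ⊤ := AdjoinRoot.adjoinRoot_eq_top

variable {A : ValuationSubring Qbar} [IsAlgClosed (IsLocalRing.ResidueField A)] {M q : ℕ}
  [NeZero M] [NeZero q] [Fact q.Prime] [CharP (IsLocalRing.ResidueField A) q]
  [IsFunctionField (IsLocalRing.ResidueField A)
    ↥(modularFunctionFieldFullC (IsLocalRing.ResidueField A) M)]

/-- What the cover needs from `X₀(M q)`. -/
structure CoverInputs (hq : q.Prime) (hqM : ¬ q ∣ M)
    (S : GlueModel A (IsLocalRing.residue A) ↥(modularFunctionFieldBar (M * q))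
      ↥(modularFunctionFieldFullC (IsLocalRing.ResidueField A) M)) (d : ℕ) where
  units : UnitInputs hq hqM S
  /-- `y ^ d` -/
  b : ↥(modularFunctionFieldBar (M * q))
  dvd_ord : ∀ v : Place Qbar ↥(modularFunctionFieldBar (M * q)), (d : ℤ) ∣ v.ord b
  ζ : Qbar
  isPrimitiveRoot : IsPrimitiveRoot ζ d
  g : ↥(modularFunctionFieldFullC (IsLocalRing.ResidueField A) M)
  g_ne : g ≠ 0
  srep_b : SRep (b : LaurentSeries Qbar)
    ((g : LaurentSeries (IsLocalRing.ResidueField A)) ^ d * kSer A (betaSer q))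
  /-- `y * (y ∘ W)`, up to a constant -/
  c : ↥(modularFunctionFieldBar (M * q))
  c_pow : c ^ d = b * wq hq hqM b
  /-- the scalar on the component of the image of `∞` under `w_q` -/
  μ : Qbar
  μ_ne : μ ≠ 0
  cbar : ↥(modularFunctionFieldFullC (IsLocalRing.ResidueField A) M)
  cbar_ne : cbar ≠ 0
  srep_c : SRep ((μ • c : ↥(modularFunctionFieldBar (M * q))) : LaurentSeries Qbar)
    (cbar : LaurentSeries (IsLocalRing.ResidueField A))

namespace CoverInputs

variable {hq : q.Prime} {hqM : ¬ q ∣ M}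
  {S : GlueModel A (IsLocalRing.residue A) ↥(modularFunctionFieldBar (M * q))
    ↥(modularFunctionFieldFullC (IsLocalRing.ResidueField A) M)} {d : ℕ}
variable (I : CoverInputs hq hqM S d) (hS : IsSeriesModel hq hqM S)

include hS in
theorem red_b : S.Int 0 I.b ∧
    (S.red 0 I.b : LaurentSeries (IsLocalRing.ResidueField A)) =
      (I.g : LaurentSeries (IsLocalRing.ResidueField A)) ^ d * kSer A (betaSer q) :=
  hS.red_eq (i := 0) I.srep_b

/-- `b̄`. -/
def bbar : ↥(modularFunctionFieldFullC (IsLocalRing.ResidueField A) M) := S.red 0 I.b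

/-- `β`. -/
def beta : ↥(modularFunctionFieldFullC (IsLocalRing.ResidueField A) M) :=
  I.bbar / I.g ^ d

theorem bbar_eq : I.bbar = I.g ^ d * I.beta ^ 1 := by
  rw [pow_one, beta, mul_div_cancel₀ _ (pow_ne_zero _ I.g_ne)]

include hS in
theorem coe_beta :
    (I.beta : LaurentSeries (IsLocalRing.ResidueField A)) = kSer A (betaSer q) := by
  have hg : (I.g : LaurentSeries (IsLocalRing.ResidueField A)) ≠ 0 :=
    fun h => I.g_ne (Subtype.ext h)
  rw [beta, bbar, div_eq_mul_inv, MulMemClass.coe_mul, IntermediateField.coe_inv,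
    SubmonoidClass.coe_pow, (I.red_b hS).2, mul_comm ((_ : LaurentSeries _) ^ d), mul_assoc,
    mul_inv_cancel₀ (pow_ne_zero _ hg), mul_one]

include hS in
theorem beta_ne : I.beta ≠ 0 := fun h => by
  have h1 := I.coe_beta hS
  rw [h] at h1
  exact ((betaSer q).isUnit.map
    (coeffMap (Int.castRingHom (IsLocalRing.ResidueField A)))).ne_zero h1.symm

include hS in
theorem bbar_ne : I.bbar ≠ 0 := by
  rw [I.bbar_eq, pow_one]
  exact mul_ne_zero (pow_ne_zero _ I.g_ne) (I.beta_ne hS)

include hS in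
theorem b_ne : I.b ≠ 0 := S.ne_zero_of_red_ne (I.bbar_ne hS)

variable (hC : CuspData S) (hodd : Odd q) (hM : (M : IsLocalRing.ResidueField A) ≠ 0)

include I hS hC hodd hM in
theorem coprime_ord :
    ∀ p ∈ S.pairs, IsCoprime (p.1.ord I.bbar) (d : ℤ) ∧ IsCoprime (p.2.ord I.bbar) (d : ℤ) :=
  S.coprime_ord_of_simple (I.beta_ne hS) I.g_ne (Nat.coprime_one_left d) I.bbar_eq
    (I.units.ord_beta_eq_one hS hC hodd hM (I.coe_beta hS))

include hC in
theorem exists_pair : ∃ p, p ∈ S.pairs := by
  refine Finset.card_pos.mp ?_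
  have h := hC.card_pairs
  have h1 : (0 : ℤ) < ((q - 1 : ℕ) : ℤ) := by
    have := (Fact.out : q.Prime).two_le
    omega
  have h2 : (0 : ℤ) < dedekindPsi M := by exact_mod_cast dedekindPsi_pos M
  have := mul_pos h1 h2
  omega

include hS in
theorem red_one_b : S.Int 1 (I.μ ^ d • I.b) ∧
    S.red 1 (I.μ ^ d • I.b) = I.cbar ^ d * I.bbar⁻¹ := by
  have hb := hS.srep_red 0 I.b (I.red_b hS).1
  have hne : (S.red 0 I.b : LaurentSeries (IsLocalRing.ResidueField A)) ≠ 0 :=
    fun h => I.bbar_ne hS (Subtype.ext h)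
  have h := (I.srep_c.pow d).mul (hb.inv hne)
  rw [expansion_zero] at h
  have e : wq hq hqM (I.μ ^ d • I.b) = (I.μ • I.c) ^ d * I.b⁻¹ := by
    rw [Algebra.smul_def, map_mul, AlgEquiv.commutes, Algebra.smul_def I.μ I.c, mul_pow,
      ← map_pow, I.c_pow, mul_assoc, mul_comm I.b, mul_assoc (wq hq hqM I.b),
      mul_inv_cancel₀ (I.b_ne hS), mul_one]
  obtain ⟨h1, h2⟩ := hS.red_eq (i := 1) (f := I.μ ^ d • I.b)
    (v := ((I.cbar ^ d * I.bbar⁻¹ : _) : LaurentSeries (IsLocalRing.ResidueField A))) (by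
      rw [expansion_one, e, MulMemClass.coe_mul, MulMemClass.coe_mul, SubmonoidClass.coe_pow,
        SubmonoidClass.coe_pow, IntermediateField.coe_inv, IntermediateField.coe_inv]
      exact h)
  exact ⟨h1, Subtype.ext h2⟩

/-- The exponent on each component. -/
def expR (d : ℕ) : Fin 2 → ℕ := ![1, d - 1]

variable {F : Type*} [Field F] [Algebra Qbar F] [Algebra ↥(modularFunctionFieldBar (M * q)) F]
  [IsScalarTower Qbar ↥(modularFunctionFieldBar (M * q)) F]
  {G : Type*} [Field G] [Algebra (IsLocalRing.ResidueField A) G]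
  [Algebra ↥(modularFunctionFieldFullC (IsLocalRing.ResidueField A) M) G]
  [IsScalarTower (IsLocalRing.ResidueField A)
    ↥(modularFunctionFieldFullC (IsLocalRing.ResidueField A) M) G]

include I hS in
/-- The reduction data of the cover. -/
theorem exists_kummerRed (hd : (d : IsLocalRing.ResidueField A) ≠ 0)
    (KF : KummerExt Qbar ↥(modularFunctionFieldBar (M * q)) F d)
    (KG : KummerExt (IsLocalRing.ResidueField A)
      ↥(modularFunctionFieldFullC (IsLocalRing.ResidueField A) M) G d)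
    (hFb : KF.b = I.b) (hFζ : KF.ζ = I.ζ) (hGb : KG.b = I.bbar)
    (hGζ : ∀ h : I.ζ ∈ A, KG.ζ = IsLocalRing.residue A ⟨I.ζ, h⟩) :
    ∃ R : KummerRed S F G d, R.KF = KF ∧ R.KG = KG ∧ R.μ = ![1, I.μ] := by
  obtain ⟨hmem, -⟩ := residue_isPrimitiveRoot I.isPrimitiveRoot hd
  obtain ⟨h1, h1r⟩ := I.red_one_b hS
  have hd0 : 1 ≤ d := Nat.one_le_iff_ne_zero.mpr fun h => hd (by rw [h, Nat.cast_zero])
  refine ⟨{
    KF := KF
    KG := KG
    zeta_mem := hFζ ▸ hmem
    zeta_red := ?_
    μ := ![1, I.μ]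
    μ_ne := fun i => ?_
    e := ![1, I.cbar / I.bbar]
    e_ne := fun i => ?_
    r := expR d
    r_coprime := fun i => ?_
    int_b := fun i => ?_
    red_b := fun i => ?_
    pivot := hS.hasPivot }, rfl, rfl, rfl⟩
  · rw [hGζ hmem]; exact congrArg _ (Subtype.ext hFζ)
  · fin_cases i
    · exact one_ne_zero
    · exact I.μ_ne
  · fin_cases i
    · exact one_ne_zero
    · exact div_ne_zero I.cbar_ne (I.bbar_ne hS)
  · fin_cases i
    · exact Nat.coprime_one_left d
    · show Nat.Coprime (d - 1) d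
      rcases Nat.lt_or_ge 1 d with h | h
      · exact (Nat.coprime_self_sub_left hd0).mpr (Nat.coprime_one_left d)
      · simp [show d = 1 by omega]
  · rcases (show i = 0 ∨ i = 1 by omega) with rfl | rfl
    · simpa [hFb] using (I.red_b hS).1
    · simpa [hFb] using h1
  · rcases (show i = 0 ∨ i = 1 by omega) with rfl | rfl
    · simp [hFb, hGb, expR, bbar]
    · have hb := I.bbar_ne hS
      simp only [Matrix.cons_val_one, Matrix.cons_val_zero, hFb, hGb, expR, h1r]
      rw [div_pow, div_mul_eq_mul_div, eq_div_iff (pow_ne_zero _ hb), mul_assoc]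
      congr 1
      rw [pow_sub₀ _ hb hd0, pow_one, mul_comm]

end CoverInputs

end Fermat.Agent.XHLite

end
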