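import Fermat.Agent.XHLite.Glue.Cover
import Fermat.Agent.SemistableRed.Poles

/-!
# The relation on any carrier of the cover

`X ^ d - b` is irreducible; for every field generated over the function field of `X₀(M q)` by a
root `y`, and `τ` in inertia at `q` fixing `y` with `τ μ = ζ ^ l μ`, the relation
`(σ - 1)(τ - 1)(τ - a) = 0` holds on divisor classes killed by an `n` prime to `q`.
-/

set_option autoImplicit false
set_option linter.unusedSectionVars false

noncomputable section

open AlgebraicCurve ModularCurve Fermat.Agent.FunctionFieldRR Fermat.Agent.SemistableRed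
  Fermat.Agent.Reduction Polynomial
open scoped Fermat.Agent.Reduction

namespace Fermat.Agent.XHLite

local notation "Qbar" => AlgebraicClosure ℚ

variable {A : ValuationSubring Qbar} [IsAlgClosed (IsLocalRing.ResidueField A)] {M q : ℕ}
  [NeZero M] [NeZero q] [Fact q.Prime] [CharP (IsLocalRing.ResidueField A) q]
  [IsFunctionField (IsLocalRing.ResidueField A)
    ↥(modularFunctionFieldFullC (IsLocalRing.ResidueField A) M)]

namespace CoverInputs

variable {hq : q.Prime} {hqM : ¬ q ∣ M}
  {S : GlueModel A (IsLocalRing.residue A) ↥(modularFunctionFieldBar (M * q))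
    ↥(modularFunctionFieldFullC (IsLocalRing.ResidueField A) M)} {d : ℕ}
variable (I : CoverInputs hq hqM S d) (hS : IsSeriesModel hq hqM S) (hC : CuspData S)
  (hodd : Odd q) (hM : (M : IsLocalRing.ResidueField A) ≠ 0)

include I hS hC hodd hM in
theorem irreducible_F (hd : 0 < d) : Irreducible (X ^ d - C I.b) := by
  obtain ⟨p, hp⟩ := exists_pair (S := S) hC
  exact S.irreducible_of_red hd (i := 0) (I.red_b hS).1 p.1
    (I.coprime_ord hS hC hodd hM p hp).1 (I.bbar_ne hS)

include I hS hC hodd hM in
theorem irreducible_G (hd : 0 < d) : Irreducible (X ^ d - C I.bbar) := by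
  obtain ⟨p, hp⟩ := exists_pair (S := S) hC
  exact irreducible_of_coprime hd (I.bbar_ne hS) p.1 (I.coprime_ord hS hC hodd hM p hp).1

include I hS hC hodd hM in
/-- **The relation on the cover.** -/
theorem relation (hd : (d : IsLocalRing.ResidueField A) ≠ 0)
    {F : Type*} [Field F] [Algebra Qbar F] [Algebra ↥(modularFunctionFieldBar (M * q)) F]
    [IsScalarTower Qbar ↥(modularFunctionFieldBar (M * q)) F]
    {y : F} (hy : y ^ d = algebraMap ↥(modularFunctionFieldBar (M * q)) F I.b)
    (htop : Algebra.adjoin ↥(modularFunctionFieldBar (M * q)) {y} = ⊤)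
    {n : ℕ} (hn : (n : IsLocalRing.ResidueField A) ≠ 0)
    {σ : Qbar ≃ₐ[ℚ] Qbar} (hσ : σ ∈ A.inertiaSubgroupIn ℚ) {l : ℕ}
    (hσμ : σ I.μ = I.ζ ^ l * I.μ)
    (τ : SemilinearAut Qbar F)
    (hτ : ∀ f : ↥(modularFunctionFieldBar (M * q)),
      τ • algebraMap ↥(modularFunctionFieldBar (M * q)) F f =
        algebraMap ↥(modularFunctionFieldBar (M * q)) F
          (arithmeticGalois (modularFunctionFieldFull (M * q)) σ • f))
    (hτy : τ • y = y) (al am : F ≃ₐ[Qbar] F) (m : ℕ)
    (hal : ∀ f : ↥(modularFunctionFieldBar (M * q)),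
      al (algebraMap ↥(modularFunctionFieldBar (M * q)) F f) =
        algebraMap ↥(modularFunctionFieldBar (M * q)) F f)
    (haly : al y = algebraMap Qbar F (I.ζ ^ l) * y)
    (ham : ∀ f : ↥(modularFunctionFieldBar (M * q)),
      am (algebraMap ↥(modularFunctionFieldBar (M * q)) F f) =
        algebraMap ↥(modularFunctionFieldBar (M * q)) F f)
    (hamy : am y = algebraMap Qbar F (I.ζ ^ m) * y)
    {D : Divisor Qbar F} (hD : Divisor.degree D = 0)
    (hDn : (n : ℤ) • D ∈ Divisor.principal (K := Qbar) (F := F)) :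
    am • (τ • (τ • D - al • D) - (τ • D - al • D)) - (τ • (τ • D - al • D) - (τ • D - al • D)) ∈
      Divisor.principal (K := Qbar) (F := F) := by
  classical
  have : Algebra.IsAlgebraic ℚ Qbar := AlgebraicClosure.isAlgebraic ℚ
  have hd0 : 0 < d := Nat.pos_of_ne_zero fun h => hd (by rw [h, Nat.cast_zero])
  have hdQ : (d : Qbar) ≠ 0 := Nat.cast_ne_zero.mpr hd0.ne'
  have hdG : (d : ↥(modularFunctionFieldFullC (IsLocalRing.ResidueField A) M)) ≠ 0 := by
    rw [← map_natCast (algebraMap (IsLocalRing.ResidueField A) _)]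
    exact (_root_.map_ne_zero _).mpr hd
  obtain ⟨hmem, hprim⟩ := residue_isPrimitiveRoot I.isPrimitiveRoot hd
  -- the upper field in characteristic zero
  let KF : KummerExt Qbar ↥(modularFunctionFieldBar (M * q)) F d :=
    KummerExt.ofIrreducible hd0 (I.irreducible_F hS hC hodd hM hd0) (I.b_ne hS) hy htop
      I.isPrimitiveRoot hdQ
  haveI : FiniteDimensional ↥(modularFunctionFieldBar (M * q)) F := Module.Finite.of_basis KF.basis
  haveI := isSeparable_of_root (E₀ := ↥(modularFunctionFieldBar (M * q))) (Nat.cast_ne_zero.mpr hd0.ne')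
    (I.b_ne hS) hy htop
  haveI := isFunctionField_level (M * q)
  haveI := finiteDimensional_jBar (M * q)
  haveI := isSeparable_jBar (M * q)
  obtain ⟨hFF, gF, bF, hrF⟩ := exists_rr_of_tower (K := Qbar) (E := F) (transcendental_jBar (M * q))
  haveI := hFF
  haveI := FunctionFieldRR.hasPrincipalDivisors (K := Qbar) (F := F)
  -- the special fibre
  haveI : Fact (Irreducible (X ^ d - C I.bbar)) := ⟨I.irreducible_G hS hC hodd hM hd0⟩
  let G := AdjoinRoot (X ^ d - C I.bbar)
  have hroot : (AdjoinRoot.root (X ^ d - C I.bbar)) ^ d =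
      algebraMap _ G I.bbar := by
    have h := AdjoinRoot.eval₂_root (X ^ d - C I.bbar)
    rw [eval₂_sub, eval₂_X_pow, eval₂_C, sub_eq_zero] at h
    exact h
  let KG : KummerExt (IsLocalRing.ResidueField A)
      ↥(modularFunctionFieldFullC (IsLocalRing.ResidueField A) M) G d :=
    KummerExt.ofIrreducible hd0 (I.irreducible_G hS hC hodd hM hd0) (I.bbar_ne hS) hroot
      adjoin_root_top hprim hd
  haveI : FiniteDimensional ↥(modularFunctionFieldFullC (IsLocalRing.ResidueField A) M) G :=
    Module.Finite.of_basis KG.basis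
  haveI := isSeparable_of_root (E₀ := ↥(modularFunctionFieldFullC (IsLocalRing.ResidueField A) M))
    (E := G) hdG (I.bbar_ne hS) hroot adjoin_root_top
  haveI := finiteDimensional_jC (IsLocalRing.ResidueField A) M hM
  haveI := isSeparable_jC (IsLocalRing.ResidueField A) M hM
  obtain ⟨hGF, gG, bG, hrG⟩ := exists_rr_of_tower (K := IsLocalRing.ResidueField A) (E := G)
    (transcendental_jC (IsLocalRing.ResidueField A) M)
  haveI := hGF
  haveI := FunctionFieldRR.hasPrincipalDivisors (K := IsLocalRing.ResidueField A) (F := G)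
  obtain ⟨R, hRF, hRG, hRμ⟩ := I.exists_kummerRed hS hd KF KG rfl rfl rfl fun _ => rfl
  have hcop : ∀ x ∈ S.pairs,
      IsCoprime (x.1.ord R.KG.b) (d : ℤ) ∧ IsCoprime (x.2.ord R.KG.b) (d : ℤ) := by
    rw [hRG]; exact I.coprime_ord hS hC hodd hM
  let Mo : KummerModel R :=
    { dvd_ord := by rw [hRF]; exact I.dvd_ord
      coprime_ord := hcop
      gF := gF
      gG := gG
      bnd := max bF bG
      rrF := fun D hD => hrF D (le_trans (le_max_left _ _) hD)
      rrG := fun D hD => hrG D (le_trans (le_max_right _ _) hD) }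
  set τ₀ := arithmeticGalois (modularFunctionFieldFull (M * q)) σ
  have hbase : ∀ c, SemilinearAut.baseAut τ c = σ c := fun c => by
    rw [← KummerRed.baseAut_eq τ₀ τ hτ, baseAut_arithmeticGalois]; rfl
  have haut : ∀ (a : F ≃ₐ[Qbar] F) (e : ℕ),
      (∀ f : ↥(modularFunctionFieldBar (M * q)),
        a (algebraMap ↥(modularFunctionFieldBar (M * q)) F f) =
          algebraMap ↥(modularFunctionFieldBar (M * q)) F f) →
      a y = algebraMap Qbar F (I.ζ ^ e) * y → a = KF.aut e := by
    intro a e ha hay
    refine AlgEquiv.ext fun z => ?_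
    conv_lhs => rw [← KF.sum_mon z]
    conv_rhs => rw [← KF.sum_mon z]
    rw [map_sum, map_sum]
    refine Finset.sum_congr rfl fun j _ => ?_
    simp only [KummerExt.mon, map_mul, map_pow, ha, KF.aut_algebraMap, KF.aut_y]
    rw [show KF.y = y from rfl, hay, show KF.ζ = I.ζ from rfl, map_pow]
  obtain rfl := haut al l hal haly
  obtain rfl := haut am m ham hamy
  have hrel := Mo.relation hn τ₀ τ (fun c hc => by rw [hbase]; exact inertia_div_mem hσ hc)
    (fun c hc => by
      obtain ⟨h, he⟩ := inertia_residue_eq hσ (π := IsLocalRing.residue A)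
        (fun a => IsLocalRing.residue_eq_zero_iff a) c hc
      exact ⟨by rw [hbase]; exact h, (congrArg _ (Subtype.ext (hbase c))).trans he⟩)
    hτ (by rw [hRF]; exact hτy) (fun i f hf => hS.inertia_red hσ i f hf) (l := l)
    (by rw [hRμ, hbase]; exact map_one σ)
    (by rw [hRμ, hRF, hbase]; exact hσμ) m hD hDn
  rwa [hRF] at hrel

end CoverInputs

end Fermat.Agent.XHLite

end
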