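import Fermat.Agent.XHLite.Glue.Newton

/-!
# Injectivity of the gluing datum

If the gluing datum of `u ≡ 1` is trivial then `u` is a constant times an `n`-th power: two Newton
iterations give roots of `u` on the two charts `H`, `zeros of T`, which are congruent to high
order; an integral family with independent reductions turns this into a uniform bound
contradicting `L(D) = 0`.
-/

set_option autoImplicit false
set_option linter.unusedSectionVars false

noncomputable section

open AlgebraicCurve Fermat.Agent.FunctionFieldRR Fermat.Agent.SemistableRed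

namespace Fermat.Agent.XHLite.GlueModel

variable {L : Type*} [Field L] {A : ValuationSubring L} {k : Type*} [Field k] [IsAlgClosed k]
  {π : A →+* k} {F : Type*} [Field F] [Algebra L F] {G : Type*} [Field G] [Algebra k G]
  [IsFunctionField k G]
variable (S : GlueModel A π F G)

/-- A lift of a finite family in `imgSpace V`. -/
theorem exists_lifts {V : Submodule L F} {J : Type*} (z : J → Fin 2 → G)
    (hz : ∀ j, z j ∈ S.imgSpace V) :
    ∃ e : J → F, (∀ j, e j ∈ V) ∧ (∀ j, S.Int2 (e j)) ∧ ∀ j, S.red2 (e j) = z j := by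
  choose e h1 h2 h3 using hz
  exact ⟨e, h1, h2, h3⟩

theorem linearIndependent_of_red {J : Type*} [Fintype J] {e : J → F} (he : ∀ j, S.Int2 (e j))
    (hind : LinearIndependent k fun j => S.red2 (e j)) : LinearIndependent L e := by
  rw [Fintype.linearIndependent_iff]
  intro c hc
  by_contra hne
  push Not at hne
  obtain ⟨j, hj⟩ := hne
  obtain ⟨a, ha⟩ : ∃ a : L, a ∉ A := by
    obtain ⟨e', he'⟩ := S.exists_divisor (S.int_zero 0) (S.red_zero 0)
    refine ⟨((e' : A) : L)⁻¹, fun h => ?_⟩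
    have : (1 : A) = e' * ⟨_, h⟩ := Subtype.ext (mul_inv_cancel₀ he'.1).symm
    have := congrArg π this
    rw [map_one, map_mul, he'.2.1, zero_mul] at this
    exact one_ne_zero this
  have h := S.coeff_mem he hind (c := fun i => (a / c j) * c i) (fun i => by
    simp only [mul_smul, ← Finset.smul_sum, hc, smul_zero]; exact S.int_zero i) j
  rw [div_mul_cancel₀ _ hj] at h
  exact ha h

/-- Coordinates in an adapted family. -/
theorem exists_coords (V : Submodule L F) [FiniteDimensional L V] {J : Type*} [Fintype J]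
    {e : J → F} (he : ∀ j, e j ∈ V) (hi : ∀ j, S.Int2 (e j))
    (hind : LinearIndependent k fun j => S.red2 (e j))
    (hcard : Fintype.card J = Module.finrank k (S.imgSpace V))
    {y : F} (hy : y ∈ V) (hyi : S.Int2 y) :
    ∃ co : J → L, (∀ j, co j ∈ A) ∧ y = ∑ j, co j • e j := by
  have hspan : Submodule.span L (Set.range e) = V := by
    refine Submodule.eq_of_le_of_finrank_le
      (Submodule.span_le.mpr (by rintro _ ⟨j, rfl⟩; exact he j)) ?_
    rw [finrank_span_eq_card (S.linearIndependent_of_red hi hind), hcard]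
    exact (S.finrank_imgSpace V).2.ge
  rw [← hspan, Submodule.mem_span_range_iff_exists_fun] at hy
  obtain ⟨co, rfl⟩ := hy
  exact ⟨co, S.coeff_mem hi hind hyi, rfl⟩

/-- Completing a family with independent reductions to an adapted family of `V`. -/
theorem exists_completion (V : Submodule L F) [FiniteDimensional L V] {a : ℕ} (eM : Fin a → F)
    (heM : ∀ j, eM j ∈ V) (hiM : ∀ j, S.Int2 (eM j))
    (hind : LinearIndependent k fun j => S.red2 (eM j)) :
    ∃ (c : ℕ) (eA : Fin c → F), (∀ j, eA j ∈ V) ∧ (∀ j, S.Int2 (eA j)) ∧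
      (∀ r : Fin c → k, (∑ j, r j • S.red2 (eA j)) ∈
        Submodule.span k (Set.range fun j => S.red2 (eM j)) → r = 0) ∧
      ∀ y ∈ V, S.Int2 y → ∃ co : Fin a ⊕ Fin c → L, (∀ j, co j ∈ A) ∧
        y = ∑ j, co (Sum.inl j) • eM j + ∑ j, co (Sum.inr j) • eA j := by
  classical
  obtain ⟨hfd, -⟩ := S.finrank_imgSpace V
  set W := Submodule.span k (Set.range fun j => S.red2 (eM j)) with hW
  have hle : W ≤ S.imgSpace V := Submodule.span_le.mpr (by
    rintro _ ⟨j, rfl⟩; exact ⟨eM j, heM j, hiM j, rfl⟩)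
  obtain ⟨K0, hK0⟩ := Submodule.exists_isCompl W
  set K := K0 ⊓ S.imgSpace V with hKdef
  have : FiniteDimensional k K := Submodule.finiteDimensional_of_le (inf_le_right)
  have : FiniteDimensional k W := Submodule.finiteDimensional_of_le hle
  have hsup : W ⊔ K = S.imgSpace V := by
    rw [hKdef, ← sup_inf_assoc_of_le K0 hle, hK0.sup_eq_top, top_inf_eq]
  have hinf : W ⊓ K = ⊥ := eq_bot_iff.mpr
    ((inf_le_inf_left W inf_le_left).trans hK0.disjoint.le_bot)
  let bK := Module.finBasis k K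
  obtain ⟨eA, heA, hiA, hrA⟩ := S.exists_lifts (V := V)
    (fun j => ((bK j : K) : Fin 2 → G)) fun j => (bK j).2.2
  have hsep : ∀ r : Fin (Module.finrank k K) → k, (∑ j, r j • S.red2 (eA j)) ∈ W → r = 0 := by
    intro r hr
    have h1 : ((∑ j, r j • bK j : K) : Fin 2 → G) ∈ W ⊓ K := by
      refine ⟨?_, SetLike.coe_mem _⟩
      simpa [hrA] using hr
    rw [hinf, Submodule.mem_bot] at h1
    exact funext (Fintype.linearIndependent_iff.mp bK.linearIndependent r (Subtype.ext h1))
  refine ⟨_, eA, heA, hiA, hsep, fun y hy hyi => ?_⟩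
  have hall : LinearIndependent k fun j => S.red2 (Sum.elim eM eA j) := by
    rw [Fintype.linearIndependent_iff]
    intro r hr
    simp only [Fintype.sum_sum_type, Sum.elim_inl, Sum.elim_inr] at hr
    have h2 : (fun j => r (Sum.inr j)) = 0 := hsep _ (by
      rw [eq_neg_of_add_eq_zero_right hr]
      exact Submodule.neg_mem _ (Submodule.sum_mem _ fun j _ =>
        Submodule.smul_mem _ _ (Submodule.subset_span ⟨j, rfl⟩)))
    have h3 : ∀ j, r (Sum.inr j) = 0 := congrFun h2
    simp only [h3, zero_smul, Finset.sum_const_zero, add_zero] at hr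
    rintro (j | j)
    exacts [Fintype.linearIndependent_iff.mp hind _ hr j, h3 j]
  obtain ⟨co, hco, hyeq⟩ := S.exists_coords V (e := Sum.elim eM eA)
    (by rintro (j | j); exacts [heM j, heA j]) (by rintro (j | j); exacts [hiM j, hiA j]) hall (by
      have h := Submodule.finrank_sup_add_finrank_inf_eq W K
      rw [hsup, hinf, finrank_bot, hW, finrank_span_eq_card hind, Fintype.card_fin] at h
      rw [Fintype.card_sum, Fintype.card_fin, Fintype.card_fin]
      exact h.symm) hy hyi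
  refine ⟨co, hco, ?_⟩
  rw [hyeq, Fintype.sum_sum_type]
  rfl

/-- Multiplication of pairs by a power of `Tbar`. -/
def tbarMul (j : ℕ) : (Fin 2 → G) →ₗ[k] (Fin 2 → G) := LinearMap.mulLeft k fun _ => S.Tbar ^ j

theorem tbarMul_injective (j : ℕ) : Function.Injective (S.tbarMul j) := fun _ _ h =>
  funext fun i => mul_left_cancel₀ (pow_ne_zero j S.Tbar_ne) (congrFun h i)

theorem red2_T_pow_mul (j : ℕ) {y : F} (hy : S.Int2 y) :
    S.Int2 (S.T ^ j * y) ∧ S.red2 (S.T ^ j * y) = S.tbarMul j (S.red2 y) :=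
  ⟨fun i => S.int_mul i _ _ (S.int_pow (S.int_T i) j) (hy i), funext fun i => by
    show S.red i _ = S.Tbar ^ j * S.red i y
    rw [S.red_mul i _ _ (S.int_pow (S.int_T i) j) (hy i), S.red_pow (S.int_T i), S.red_T]⟩

theorem rrs_of_Tbar_mul {y : G} {d I : ℕ}
    (h1 : S.Tbar ^ d * y ∈ riemannRochSpace (((d + I : ℕ) : ℤ) • S.C))
    (h2 : ∀ P, S.C P = 0 → y = 0 ∨ 0 ≤ P.ord y) :
    y ∈ riemannRochSpace ((I : ℤ) • S.C) := by
  rcases eq_or_ne y 0 with h0 | h0
  · rw [h0]; exact Submodule.zero_mem _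
  refine mem_rrs_iff.mpr (Or.inr fun P => ?_)
  have h3 := (mem_rrs_iff.mp h1).resolve_left (mul_ne_zero (pow_ne_zero d S.Tbar_ne) h0) P
  rw [P.ord_mul (pow_ne_zero d S.Tbar_ne) h0, ord_pow] at h3
  simp only [Finsupp.smul_apply, smul_eq_mul] at h3 ⊢
  rcases (S.C_nonneg P).lt_or_eq with hC | hC
  · rw [S.ord_Tbar P hC] at h3
    push_cast at h3
    linarith
  · rw [← hC, mul_zero, neg_zero]
    exact (h2 P hC.symm).resolve_left h0

theorem tbarMul_mem_pairSpace {z : Fin 2 → G} {I : ℕ} (hz : z ∈ S.pairSpace I) (d : ℕ) :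
    S.tbarMul d z ∈ S.pairSpace (d + I) := S.mem_pairSpace.mpr fun i => by
  have h := mul_mem_rrs (S.Tbar_pow_mem d) (S.mem_pairSpace.mp hz i)
  rwa [← add_smul, ← Nat.cast_add] at h

/-- The glued pairs of level `N` separate from those of level `M` under `z ↦ Tbar ^ N * z`. -/
theorem glue_descent {M N : ℕ} (hN : M ≤ N) {a a' w : Fin 2 → G}
    (ha : a ∈ S.glueSpace N) (ha' : a' ∈ S.glueSpace N) (hw : w ∈ S.glueSpace (M + M))
    (h : S.tbarMul N a + (a' + S.tbarMul (N - M) w) = 0) :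
    a ∈ S.glueSpace M ∧ (a = 0 → a' ∈ (S.glueSpace M).map (S.tbarMul (N - M))) := by
  refine ⟨⟨S.mem_pairSpace.mpr fun i => ?_, ha.2⟩,
    fun ha0 => ?_⟩
  · refine S.rrs_of_Tbar_mul (d := N) ?_ fun P hP => S.regular_of_mem_pairSpace ha.1 i hP
    rw [show S.Tbar ^ N * a i = -(a' + S.tbarMul (N - M) w) i from
      eq_neg_of_add_eq_zero_left (congrFun h i)]
    refine Submodule.neg_mem _ (Submodule.add_mem _ ?_ ?_)
    · exact S.mem_pairSpace.mp (S.pairSpace_mono (Nat.le_add_right N M) ha'.1) i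
    · exact S.mem_pairSpace.mp (S.pairSpace_mono (by omega)
        (S.tbarMul_mem_pairSpace hw.1 (N - M))) i
  · rw [ha0, map_zero, zero_add] at h
    have hwM : w ∈ S.pairSpace M := S.mem_pairSpace.mpr fun i => by
      refine S.rrs_of_Tbar_mul (d := N - M) ?_ fun P hP => S.regular_of_mem_pairSpace hw.1 i hP
      rw [show S.Tbar ^ (N - M) * w i = -a' i from eq_neg_of_add_eq_zero_right (congrFun h i),
        Nat.sub_add_cancel hN]
      exact Submodule.neg_mem _ (S.mem_pairSpace.mp ha'.1 i)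
    refine ⟨-w, Submodule.neg_mem _ (⟨hwM, hw.2⟩), ?_⟩
    rw [map_neg]
    exact (eq_neg_of_add_eq_zero_left h).symm

theorem exists_clearing {J : Type*} [Fintype J] (y : J → F) :
    ∃ c : A, (c : L) ≠ 0 ∧ ∀ j, S.Int2 ((c : L) • y j) := by
  classical
  have hone : ∀ (y : F) (i : Fin 2), ∃ c : A, (c : L) ≠ 0 ∧ S.Int i ((c : L) • y) := by
    intro y i
    rcases eq_or_ne y 0 with rfl | hy
    · exact ⟨1, by simp, by simpa using S.int_zero i⟩
    obtain ⟨c, hc, hcr⟩ := S.normalise i y hy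
    have hc0 : c ≠ 0 := fun h => hcr (by rw [h, zero_smul, S.red_zero])
    by_cases hcA : c ∈ A
    · exact ⟨⟨c, hcA⟩, hc0, hc⟩
    · refine ⟨1, by simp, ?_⟩
      obtain ⟨h1, -⟩ := S.inv_mem_max hcA
      have := S.int_smul i _ _ h1 hc
      simpa [inv_smul_smul₀ hc0] using this
  choose cc hcc0 hcci using fun (x : J × Fin 2) => hone (y x.1) x.2
  refine ⟨∏ x, cc x, ?_, fun j i => ?_⟩
  · push_cast; exact Finset.prod_ne_zero_iff.mpr fun x _ => hcc0 x
  · rw [← Finset.prod_erase_mul _ _ (Finset.mem_univ (j, i)), MulMemClass.coe_mul, mul_smul]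
    exact S.int_smul i _ _ (SetLike.coe_mem _) (hcci (j, i))

/-- `(p, q) ↦ T ^ M * p - q` on `L(D + MH)`. -/
def shiftDiff {n : ℕ} (R : S.Rep n) (M : ℕ) : S.twist R M × S.twist R M →ₗ[L] F :=
  (LinearMap.mulLeft L (S.T ^ M)).comp
      ((S.twist R M).subtype.comp (LinearMap.fst L _ _)) -
    (S.twist R M).subtype.comp (LinearMap.snd L _ _)

theorem shiftDiff_injective {n : ℕ} (R : S.Rep n) (M : ℕ)
    (hzero : ∀ f ∈ S.twist R 0, f = 0) : Function.Injective (S.shiftDiff R M) := by
  have hTN : ∀ N, S.T ^ N ≠ 0 := fun N => pow_ne_zero _ S.T_ne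
  refine (injective_iff_map_eq_zero (S.shiftDiff R M)).mpr fun ⟨⟨p, hp⟩, ⟨q, hq⟩⟩ h => ?_
  have hpq : S.T ^ M * p = q := sub_eq_zero.mp h
  have hp0 : p = 0 := hzero p <| by
    rcases eq_or_ne p 0 with h0 | h0
    · rw [h0]; exact Submodule.zero_mem _
    refine mem_rrs_iff.mpr (Or.inr fun P => ?_)
    have h1 := (mem_rrs_iff.mp hp).resolve_left h0 P
    have h2 := (mem_rrs_iff.mp hq).resolve_left (hpq ▸ mul_ne_zero (hTN M) h0) P
    rw [← hpq, P.ord_mul (hTN M) h0, ord_pow] at h2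
    simp only [Finsupp.add_apply, Finsupp.smul_apply, smul_eq_mul] at h1 h2 ⊢
    rcases (S.H_nonneg P).lt_or_eq with hH | hH
    · rw [S.ord_T P hH] at h2
      push_cast
      linarith
    · rw [← hH] at h1 ⊢
      push_cast at h1 ⊢
      linarith
  subst hp0
  rw [mul_zero] at hpq
  subst hpq
  rfl

/-- Congruent roots split into congruent roots of bounded level. -/
theorem exists_small_roots {n : ℕ} (R : S.Rep n) (hζ : S.HasZeta R 1) {N : ℕ}
    (hN : S.evalLevel ≤ N) {f g : F} (hf : f ∈ S.twist R N) (hg : g ∈ S.twist R N)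
    (hfi : S.Int2 f) (hgi : S.Int2 g) {b : A} (hb0 : (b : L) ≠ 0) (hbπ : π b = 0)
    (hfg : S.DivBy (b : L) (S.T ^ N * f - g)) :
    ∃ fM gM, fM ∈ S.twist R S.evalLevel ∧ gM ∈ S.twist R S.evalLevel ∧
      S.red2 fM = S.red2 f ∧ S.Int2 fM ∧
      S.DivBy (b : L) (S.T ^ S.evalLevel * fM - gM) := by
  classical
  set M := S.evalLevel with hM
  have hbase := S.baseLevel_le_evalLevel
  have h2M : M ≤ M + M := Nat.le_add_right M M
  have := (S.finrank_twist R (hbase.trans hN)).1
  have := (S.finrank_twist R hbase).1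
  have := (S.finrank_twist R (hbase.trans h2M)).1
  have himg : ∀ {I : ℕ}, M ≤ I → S.imgSpace (S.twist R I) = S.glueSpace I :=
    fun {I} hI => by rw [hζ I hI, S.zetaSpace_one]
  obtain ⟨eM, hespanM, heMi, heMind⟩ := S.reduced_basis _ (S.twist R M) inferInstance rfl
  have heM : ∀ j, eM j ∈ S.twist R M := fun j => hespanM ▸ Submodule.subset_span ⟨j, rfl⟩
  obtain ⟨eW, hespanW, heWi, heWind⟩ := S.reduced_basis _ (S.twist R (M + M)) inferInstance rfl
  have heW : ∀ j, eW j ∈ S.twist R (M + M) := fun j => hespanW ▸ Submodule.subset_span ⟨j, rfl⟩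
  have hshiftmem : ∀ j, S.T ^ (N - M) * eM j ∈ S.twist R N := fun j => by
    have := S.mul_T_mem_twist (heM j) (N - M)
    rwa [Nat.add_sub_cancel' hN] at this
  have hspanM : Submodule.span k (Set.range fun j => S.red2 (eM j)) = S.glueSpace M := by
    rw [← himg le_rfl]
    have := (S.finrank_imgSpace (S.twist R M)).1
    refine Submodule.eq_of_le_of_finrank_le (Submodule.span_le.mpr (by
      rintro _ ⟨j, rfl⟩; exact ⟨eM j, heM j, heMi j, rfl⟩)) ?_
    rw [(S.finrank_imgSpace (S.twist R M)).2]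
    exact ((finrank_span_eq_card (b := fun j => S.red2 (eM j)) heMind).trans
      (Fintype.card_fin _)).ge
  have hspanMT : Submodule.span k (Set.range fun j => S.red2 (S.T ^ (N - M) * eM j)) =
      (S.glueSpace M).map (S.tbarMul (N - M)) := by
    rw [← hspanM, Submodule.map_span, ← Set.range_comp]
    exact congrArg _ (congrArg _ (funext fun j => (S.red2_T_pow_mul _ (heMi j)).2))
  obtain ⟨cA, eA, heA, heAi, hsepA, hdecA⟩ := S.exists_completion (S.twist R N) eM
    (fun j => S.twist_mono R hN (heM j)) heMi heMind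
  obtain ⟨cB, eB, heB, heBi, hsepB, hdecB⟩ := S.exists_completion (S.twist R N)
    (fun j => S.T ^ (N - M) * eM j) hshiftmem (fun j => (S.red2_T_pow_mul _ (heMi j)).1) (by
      have h := LinearIndependent.map' (v := fun j => S.red2 (eM j)) heMind (S.tbarMul (N - M))
        (LinearMap.ker_eq_bot.mpr (S.tbarMul_injective _))
      have e : (fun j => S.red2 (S.T ^ (N - M) * eM j)) =
          (S.tbarMul (N - M)) ∘ fun j => S.red2 (eM j) :=
        funext fun j => (S.red2_T_pow_mul _ (heMi j)).2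
      rw [e]
      exact h)
  rw [hspanM] at hsepA
  rw [hspanMT] at hsepB
  let β := Sum.elim (fun j => S.T ^ N * eA j) (Sum.elim eB fun j => S.T ^ (N - M) * eW j)
  have hβi : ∀ j, S.Int2 (β j) := by
    rintro (j | j | j)
    · exact (S.red2_T_pow_mul N (heAi j)).1
    · exact heBi j
    · exact (S.red2_T_pow_mul (N - M) (heWi j)).1
  have hmemimg : ∀ {I : ℕ} {J : Type} [Fintype J] (e : J → F) (r : J → k), M ≤ I →
      (∀ j, e j ∈ S.twist R I) → (∀ j, S.Int2 (e j)) →
      (∑ j, r j • S.red2 (e j)) ∈ S.glueSpace I := fun {I J} _ e r hI he hi => by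
    rw [← himg hI]
    exact Submodule.sum_mem _ fun j _ => Submodule.smul_mem _ _ ⟨e j, he j, hi j, rfl⟩
  have hβind : LinearIndependent k fun j => S.red2 (β j) := by
    rw [Fintype.linearIndependent_iff]
    intro r hr
    simp only [Fintype.sum_sum_type, β, Sum.elim_inl, Sum.elim_inr,
      (S.red2_T_pow_mul N (heAi _)).2, (S.red2_T_pow_mul (N - M) (heWi _)).2, ← map_smul,
      ← map_sum] at hr
    obtain ⟨h1, h2⟩ := S.glue_descent hN (hmemimg eA _ hN heA heAi) (hmemimg eB _ hN heB heBi)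
      (hmemimg eW _ h2M heW heWi) hr
    have hA := hsepA _ h1
    have ha0 : ∑ j, r (Sum.inl j) • S.red2 (eA j) = 0 := Finset.sum_eq_zero fun j _ => by
      rw [congrFun hA j, Pi.zero_apply, zero_smul]
    have hB := hsepB _ (h2 ha0)
    have hb0 : ∑ j, r (Sum.inr (Sum.inl j)) • S.red2 (eB j) = 0 :=
      Finset.sum_eq_zero fun j _ => by rw [congrFun hB j, Pi.zero_apply, zero_smul]
    rw [ha0, hb0, map_zero, zero_add, zero_add] at hr
    have hW := Fintype.linearIndependent_iff.mp heWind (fun j => r (Sum.inr (Sum.inr j)))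
      (S.tbarMul_injective (N - M) (by rw [map_zero]; exact hr))
    rintro (j | j | j)
    exacts [congrFun hA j, congrFun hB j, hW j]
  obtain ⟨coA, hcoA, hfeq⟩ := hdecA f hf hfi
  obtain ⟨coB, hcoB, hgeq⟩ := hdecB g hg hgi
  simp only [← mul_smul_comm, ← Finset.mul_sum] at hgeq
  set fM := ∑ j, coA (Sum.inl j) • eM j with hfM
  set gM := ∑ j, coB (Sum.inl j) • eM j with hgM
  have hfMmem : fM ∈ S.twist R M := Submodule.sum_mem _ fun j _ => Submodule.smul_mem _ _ (heM j)
  have hgMmem : gM ∈ S.twist R M := Submodule.sum_mem _ fun j _ => Submodule.smul_mem _ _ (heM j)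
  have hfMi : S.Int2 fM := fun i =>
    (S.int_sum _ fun j _ => S.int_smul i _ _ (hcoA _) (heMi j i)).1
  have hgMi : S.Int2 gM := fun i =>
    (S.int_sum _ fun j _ => S.int_smul i _ _ (hcoB _) (heMi j i)).1
  have hyi : S.Int2 (S.T ^ M * fM - gM) := fun i =>
    S.int_sub (S.int_mul i _ _ (S.int_pow (S.int_T i) M) (hfMi i)) (hgMi i)
  obtain ⟨coW, -, hyeq⟩ := S.exists_coords (S.twist R (M + M)) heW heWi heWind
    (by rw [(S.finrank_imgSpace (S.twist R (M + M))).2, Fintype.card_fin])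
    (Submodule.sub_mem _ (S.mul_T_mem_twist hfMmem M) (S.twist_mono R h2M hgMmem)) hyi
  have hdec : S.T ^ N * f - g = ∑ j, (Sum.elim (fun j => coA (Sum.inr j))
      (Sum.elim (fun j => -coB (Sum.inr j)) coW)) j • β j := by
    rw [Fintype.sum_sum_type, Fintype.sum_sum_type]
    simp only [β, Sum.elim_inl, Sum.elim_inr, neg_smul, Finset.sum_neg_distrib, ← mul_smul_comm,
      ← Finset.mul_sum, ← hyeq]
    rw [hfeq, hgeq, show S.T ^ N = S.T ^ (N - M) * S.T ^ M by
      rw [← pow_add, Nat.sub_add_cancel hN]]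
    ring
  have hcoef := S.coeff_mem hβi hβind (c := fun j => (b : L)⁻¹ * (Sum.elim (fun j => coA (Sum.inr j))
      (Sum.elim (fun j => -coB (Sum.inr j)) coW)) j) (by
    simp only [mul_smul, ← Finset.smul_sum, ← hdec]
    exact hfg)
  refine ⟨fM, gM, hfMmem, hgMmem, funext fun i => ?_, hfMi, fun i => ?_⟩
  · have h1 : S.DivBy (b : L) (f - fM) := fun i => by
      rw [show f - fM = ∑ j, coA (Sum.inr j) • eA j by rw [hfeq, add_sub_cancel_left],
        Finset.smul_sum]
      refine (S.int_sum _ fun j _ => ?_).1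
      rw [smul_smul]
      exact S.int_smul i _ _ (hcoef (Sum.inl j)) (heAi j i)
    have h2 := h1.red_eq_zero hbπ hb0 i
    rw [S.red_sub (hfi i) (hfMi i), sub_eq_zero] at h2
    exact h2.symm
  · rw [hyeq, Finset.smul_sum]
    refine (S.int_sum _ fun j _ => ?_).1
    rw [smul_smul]
    exact S.int_smul i _ _ (hcoef (Sum.inr (Sum.inr j))) (heWi j i)

/-- If the gluing datum is trivial, `L(D) ≠ 0`. -/
theorem exists_mem_twist_zero (n : ℕ) (hn : (n : k) ≠ 0) (R : S.Rep n) (hζ : S.HasZeta R 1) :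
    ∃ f ∈ S.twist R 0, f ≠ 0 := by
  by_contra hzero
  push Not at hzero
  obtain ⟨b, hb0, hbπ, hroots⟩ := S.exists_roots n hn R hζ
  set M := S.evalLevel with hM
  have hΦ := S.shiftDiff_injective R M hzero
  have := (S.finrank_twist R S.baseLevel_le_evalLevel).1
  obtain ⟨e, hespan, heint, heind⟩ :=
    S.reduced_basis _ (LinearMap.range (S.shiftDiff R M)) inferInstance rfl
  have hpre : ∀ j, ∃ x, S.shiftDiff R M x = e j := fun j =>
    LinearMap.mem_range.mp (hespan ▸ Submodule.subset_span ⟨j, rfl⟩)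
  choose pre hpre using hpre
  obtain ⟨c, hc0, hcint⟩ := S.exists_clearing fun j => ((pre j).1 : F)
  obtain ⟨l, hl⟩ := S.rankOne (c : L) hc0 b hbπ
  obtain ⟨N, f, g, hN, hf, hg, hfi, hgi, hfr, hfg⟩ := hroots l
  have hbl0 : ((b ^ (l + 1) : A) : L) ≠ 0 := by
    rw [SubmonoidClass.coe_pow]; exact pow_ne_zero _ hb0
  have hblπ : π (b ^ (l + 1) : A) = 0 := by rw [map_pow, hbπ, zero_pow (Nat.succ_ne_zero l)]
  obtain ⟨fM, gM, hfMmem, hgMmem, hfMr, -, hydiv⟩ := S.exists_small_roots R hζ hN hf hg hfi hgi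
    hbl0 hblπ (by rw [SubmonoidClass.coe_pow]; exact hfg)
  set bl : L := ((b ^ (l + 1) : A) : L) with hbl
  have hyrange : S.T ^ M * fM - gM ∈ LinearMap.range (S.shiftDiff R M) :=
    ⟨(⟨fM, hfMmem⟩, ⟨gM, hgMmem⟩), rfl⟩
  rw [← hespan, Submodule.mem_span_range_iff_exists_fun] at hyrange
  obtain ⟨s, hs⟩ := hyrange
  have hsA := S.coeff_mem heint heind (c := fun j => bl⁻¹ * s j) (by
    simp only [mul_smul, ← Finset.smul_sum, hs]; exact hydiv)
  have hpreeq : fM = ∑ j, s j • ((pre j).1 : F) := by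
    have h1 : S.shiftDiff R M (⟨fM, hfMmem⟩, ⟨gM, hgMmem⟩) =
        S.shiftDiff R M (∑ j, s j • pre j) := by
      rw [map_sum]
      simp only [map_smul, hpre]
      exact hs.symm
    have h2 := congrArg (fun x => ((x.1 : S.twist R M) : F)) (hΦ h1)
    simpa [Prod.fst_sum] using h2
  have hq : (b : L) ^ (l + 1) / (c : L) ∈ A := by
    rw [pow_succ, mul_comm, mul_div_assoc]
    exact A.mul_mem _ _ b.2 hl
  have hqπ : π ⟨_, hq⟩ = 0 := by
    have he : (⟨_, hq⟩ : A) = b * ⟨_, hl⟩ := Subtype.ext (by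
      show (b : L) ^ (l + 1) / (c : L) = (b : L) * ((b : L) ^ l / (c : L))
      rw [pow_succ]; ring)
    rw [he, map_mul, hbπ, zero_mul]
  have hlast : S.red 0 fM = 0 := by
    have hterm : ∀ j, s j • ((pre j).1 : F) = ((b : L) ^ (l + 1) / (c : L)) •
        ((bl⁻¹ * s j) • ((c : L) • ((pre j).1 : F))) := fun j => by
      rw [smul_smul, smul_smul]; congr 1
      rw [hbl, SubmonoidClass.coe_pow]
      field_simp
    rw [hpreeq, Finset.sum_congr rfl fun j _ => hterm j, ← Finset.smul_sum]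
    exact S.smul_mem_zero hq hqπ
      (S.int_sum _ fun j _ => S.int_smul 0 _ _ (hsA j) (hcint j 0)).1
  have h3 := congrFun hfMr 0
  simp only [red2, hlast, hfr 0] at h3
  exact one_ne_zero h3.symm

/-- Triviality of the gluing datum means triviality of the class. -/
theorem eq_const_mul_pow [IsAlgClosed L] [IsFunctionField L F] (n : ℕ) (hn : (n : k) ≠ 0)
    (R : S.Rep n) (hζ : S.HasZeta R 1) :
    ∃ (c : L) (f : F), f ≠ 0 ∧ R.u = algebraMap L F c * f ^ n := by
  obtain ⟨f, hf, hf0⟩ := S.exists_mem_twist_zero n hn R hζ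
  have hnn : ∀ P : Place L F, 0 ≤ P.ord (f ^ n * R.u) := fun P => by
    have h := (mem_rrs_iff.mp hf).resolve_left hf0 P
    simp only [Nat.cast_zero, zero_smul, add_zero] at h
    rw [P.ord_mul (pow_ne_zero _ hf0) R.u_ne, ord_pow, R.ord_u]
    nlinarith
  obtain ⟨c, hc⟩ := exists_algebraMap_eq_of_forall_ord_nonneg hnn
  refine ⟨c, f⁻¹, inv_ne_zero hf0, ?_⟩
  rw [← hc, inv_pow, mul_comm _ R.u, mul_assoc, mul_inv_cancel₀ (pow_ne_zero _ hf0), mul_one]

end Fermat.Agent.XHLite.GlueModel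

end
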