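import Fermat.Agent.XHLite.Glue.KummerRed

/-!
# The model of a Kummer cover branched only at the glued pairs

If `d` divides every order of `b` on `F₀` while the reduction `b̄` has order prime to `d` at the
glued pairs, the cover `F = F₀(y)` again has a model, with the same number of glued pairs, and
every automorphism `y ↦ ζ ^ l y` fixes each of them.
-/

set_option autoImplicit false
set_option linter.unusedSectionVars false

noncomputable section

open AlgebraicCurve Fermat.Agent.FunctionFieldRR Fermat.Agent.SemistableRed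

namespace Fermat.Agent.XHLite

/-- Two places of a Kummer extension over a point where `ord b` is prime to `d` coincide. -/
theorem KummerExt.place_unique {K E₀ E : Type*} [Field K] [Field E₀] [Field E] [Algebra K E₀]
    [Algebra K E] [Algebra E₀ E] [IsScalarTower K E₀ E] {d : ℕ} [IsAlgClosed K]
    [IsFunctionField K E₀] [IsFunctionField K E] [FiniteDimensional E₀ E]
    (S : KummerExt K E₀ E d) {w w' : Place K E} (h : w.restrict E₀ = w'.restrict E₀)
    (hb : IsCoprime ((w.restrict E₀).ord S.b) (d : ℤ)) : w = w' := by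
  classical
  by_contra hne
  have hdiv : ∀ u : Place K E, u.restrict E₀ = w.restrict E₀ → d ≤ u.ramificationIndex E₀ := by
    intro u hu
    have h1 : (d : ℤ) * u.ord S.y = u.ord (S.y ^ d) := (ord_pow u S.y d).symm
    rw [S.pow_y, u.ord_restrict, hu] at h1
    have h2 : (d : ℤ) ∣ (u.ramificationIndex E₀ : ℤ) :=
      hb.symm.dvd_of_dvd_mul_right ⟨u.ord S.y, h1.symm⟩
    exact Nat.le_of_dvd (u.ramificationIndex_pos (F := E₀)) (Int.natCast_dvd_natCast.mp h2)
  have h1 := sum_ramificationIndex_le (F := E₀) ({w, w'} : Finset (Place K E))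
    (v := w.restrict E₀) (fun u hu => by
      rcases Finset.mem_insert.mp hu with rfl | hu
      · rfl
      · rw [Finset.mem_singleton.mp hu, h])
  rw [Finset.sum_pair hne, Module.finrank_eq_card_basis S.basis, Fintype.card_fin] at h1
  have := hdiv w rfl
  have := hdiv w' h.symm
  have := S.d_pos
  omega

variable {L : Type*} [Field L] [IsAlgClosed L] {A : ValuationSubring L} {k : Type*} [Field k]
  [IsAlgClosed k] {π : A →+* k}
  {F₀ : Type*} [Field F₀] [Algebra L F₀] [IsFunctionField L F₀]
  {G₀ : Type*} [Field G₀] [Algebra k G₀] [IsFunctionField k G₀]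
  {S₀ : GlueModel A π F₀ G₀} {F : Type*} [Field F] [Algebra L F] [Algebra F₀ F]
  [IsScalarTower L F₀ F] [IsFunctionField L F] [FiniteDimensional F₀ F] [HasPrincipalDivisors L F]
  {G : Type*} [Field G] [Algebra k G] [Algebra G₀ G] [IsScalarTower k G₀ G]
  [IsFunctionField k G] [FiniteDimensional G₀ G] [HasPrincipalDivisors k G] {d : ℕ}

/-- What turns reduction data into a model: no branching on `F₀`, total branching at the pairs,
and Riemann–Roch upstairs. -/
structure KummerModel (R : KummerRed S₀ F G d) where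
  dvd_ord : ∀ v : Place L F₀, (d : ℤ) ∣ v.ord R.KF.b
  coprime_ord : ∀ x ∈ S₀.pairs,
    IsCoprime (x.1.ord R.KG.b) (d : ℤ) ∧ IsCoprime (x.2.ord R.KG.b) (d : ℤ)
  gF : ℤ
  gG : ℤ
  bnd : ℤ
  rrF : ∀ D : Divisor L F, bnd ≤ Divisor.degree D →
    (Module.finrank L (riemannRochSpace D) : ℤ) = Divisor.degree D + 1 - gF
  rrG : ∀ D : Divisor k G, bnd ≤ Divisor.degree D →
    (Module.finrank k (riemannRochSpace D) : ℤ) = Divisor.degree D + 1 - gG

namespace KummerRed

variable (R : KummerRed S₀ F G d)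

theorem zsmul_pullback_F (m : ℤ) :
    m • Divisor.pullback F S₀.H = Divisor.pullback F (m • S₀.H) := (map_zsmul _ _ _).symm

theorem zsmul_pullback_G (m : ℤ) :
    m • Divisor.pullback G S₀.C = Divisor.pullback G (m • S₀.C) := (map_zsmul _ _ _).symm

theorem bound (m : ℕ) (f : F) (hint : ∀ i, R.Int i f)
    (hf : f ∈ riemannRochSpace ((m : ℤ) • Divisor.pullback F S₀.H)) (i : Fin 2) :
    R.red i f ∈ riemannRochSpace ((m : ℤ) • Divisor.pullback G S₀.C) := by
  classical
  rw [zsmul_pullback_F] at hf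
  rw [zsmul_pullback_G, red]
  refine Submodule.sum_mem _ fun j _ => ?_
  -- `t = c Y ^ j` satisfies `t ^ d ∈ L(d m H₀)` and is integral on both components
  set c₁ := R.KF.coef f j with hc₁
  have hc : c₁ ∈ riemannRochSpace (R.KF.part ((m : ℤ) • S₀.H) j) :=
    (R.KF.mon_mem_iff j).mp (R.KF.mon_mem hf j)
  set u := c₁ ^ d * R.KF.b ^ (j : ℕ) with hu
  have hcoef : ∀ l, R.coefY l f j ^ d * R.B l ^ (j : ℕ) = u := fun l => by
    rw [coefY, B, smul_pow, smul_pow, smul_mul_smul_comm, inv_pow, ← pow_mul, ← pow_mul,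
      mul_comm (d : ℕ), inv_mul_cancel₀ (pow_ne_zero _ (R.μ_ne l)), one_smul]
  have hui : ∀ l, S₀.Int l u ∧
      S₀.red l u = S₀.red l (R.coefY l f j) ^ d * S₀.red l (R.B l) ^ (j : ℕ) := fun l => by
    have h1 := S₀.int_pow (hint l j) d
    have h2 : S₀.Int l (R.B l ^ (j : ℕ)) := S₀.int_pow (R.int_b l) _
    rw [← hcoef l]
    refine ⟨S₀.int_mul l _ _ h1 h2, ?_⟩
    rw [S₀.red_mul l _ _ h1 h2, S₀.red_pow (hint l j), S₀.red_pow (i := l) (f := R.B l) (R.int_b l)]
  have hum : u ∈ riemannRochSpace (((d * m : ℕ) : ℤ) • S₀.H) := by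
    rw [mem_rrs_iff]
    rcases eq_or_ne c₁ 0 with h0 | h0
    · exact Or.inl (by rw [hu, h0, zero_pow R.KF.d_pos.ne', zero_mul])
    refine Or.inr fun v => ?_
    have h1 := (mem_rrs_iff.mp hc).resolve_left h0 v
    rw [hu, v.ord_mul (pow_ne_zero _ h0) (pow_ne_zero _ R.KF.b_ne), ord_pow, ord_pow]
    simp only [KummerExt.part_apply, Finsupp.smul_apply, smul_eq_mul] at h1 ⊢
    have hd : (0 : ℤ) < d := by exact_mod_cast R.KF.d_pos
    have h2 := Int.ediv_mul_le ((j : ℕ) * v.ord R.KF.b : ℤ) hd.ne'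
    push_cast
    nlinarith
  have hw := S₀.bound _ u (fun l => (hui l).1) hum i
  rw [(hui i).2] at hw
  set t := algebraMap G₀ G (S₀.red i (R.coefY i f j)) * R.h i ^ (j : ℕ)
  have ht : t ^ d =
      algebraMap G₀ G (S₀.red i (R.coefY i f j) ^ d * S₀.red i (R.B i) ^ (j : ℕ)) := by
    simp only [t, mul_pow, map_mul, map_pow]
    rw [← R.h_pow, pow_right_comm (R.h i)]
  rw [mem_rrs_iff]
  rcases eq_or_ne t 0 with h0 | h0
  · exact Or.inl h0
  refine Or.inr fun w => ?_
  have hne : S₀.red i (R.coefY i f j) ^ d * S₀.red i (R.B i) ^ (j : ℕ) ≠ 0 := fun h' => by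
    rw [h', map_zero] at ht
    exact pow_ne_zero d h0 ht
  have h1 := (mem_rrs_iff.mp hw).resolve_left hne (w.restrict G₀)
  have h2 : (d : ℤ) * w.ord t = (w.ramificationIndex G₀ : ℤ) *
      (w.restrict G₀).ord (S₀.red i (R.coefY i f j) ^ d * S₀.red i (R.B i) ^ (j : ℕ)) := by
    rw [← ord_pow, ht, w.ord_restrict]
  have hd : (0 : ℤ) < d := by exact_mod_cast R.KF.d_pos
  have he : (0 : ℤ) ≤ w.ramificationIndex G₀ := by positivity
  simp only [Divisor.pullback_apply, Finsupp.smul_apply, smul_eq_mul] at h1 ⊢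
  refine le_of_mul_le_mul_left ?_ hd
  rw [h2]
  push_cast at h1
  nlinarith [mul_le_mul_of_nonneg_left h1 he]

/-- A place over a given one. -/
def lift (R : KummerRed S₀ F G d) (v : Place k G₀) : Place k G :=
  (R.KG.exists_place_over v).choose

theorem restrict_lift (v : Place k G₀) : (R.lift v).restrict G₀ = v :=
  (R.KG.exists_place_over v).choose_spec

/-- The glued pairs of the cover. -/
def pairs : Finset (Place k G × Place k G) := by
  classical exact S₀.pairs.image fun x => (R.lift x.1, R.lift x.2)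

theorem mem_pairs {x : Place k G × Place k G} :
    x ∈ R.pairs ↔ ∃ y ∈ S₀.pairs, (R.lift y.1, R.lift y.2) = x := by
  classical simp [pairs]

theorem card_pairs : R.pairs.card = S₀.pairs.card := by
  classical
  refine Finset.card_image_of_injective _ fun x y hxy => ?_
  simp only [Prod.mk.injEq] at hxy
  refine Prod.ext ?_ ?_
  · rw [← R.restrict_lift x.1, hxy.1, R.restrict_lift]
  · rw [← R.restrict_lift x.2, hxy.2, R.restrict_lift]

theorem pairs_glue (hb : ∀ x ∈ S₀.pairs,
      IsCoprime (x.1.ord R.KG.b) (d : ℤ) ∧ IsCoprime (x.2.ord R.KG.b) (d : ℤ))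
    (m : ℕ) (f : F) (hint : ∀ i, R.Int i f)
    (hf : f ∈ riemannRochSpace ((m : ℤ) • Divisor.pullback F S₀.H))
    (x : Place k G × Place k G) (hx : x ∈ R.pairs) :
    residueConst x.1 (R.red 0 f) = residueConst x.2 (R.red 1 f) := by
  obtain ⟨y, hy, rfl⟩ := R.mem_pairs.mp hx
  have hb' := hb y hy
  have hC := S₀.pairs_affine y hy
  have hval : ∀ (i : Fin 2) (v : Place k G₀), S₀.C v = 0 → IsCoprime (v.ord R.KG.b) (d : ℤ) →
      residueConst (R.lift v) (R.red i f) =
        residueConst v (S₀.red i (R.KF.coef f ⟨0, R.KF.d_pos⟩)) := fun i v hv hv' => by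
    have h1 := R.bound m f hint hf i
    rw [zsmul_pullback_G] at h1
    have h2 := R.KG.value_of_coprime h1 (w := R.lift v)
      (by rw [R.restrict_lift]; simp [hv]) (by rw [R.restrict_lift]; exact hv')
    rwa [R.restrict_lift, R.coef_red_zero] at h2
  rw [hval 0 _ hC.1 hb'.1, hval 1 _ hC.2 hb'.2]
  refine S₀.pairs_glue m _ (fun i => ?_) ?_ y hy
  · simpa [coefY] using hint i ⟨0, R.KF.d_pos⟩
  · have h := (R.KF.mon_mem_iff (D := (m : ℤ) • S₀.H) 0).mp
      (R.KF.mon_mem (by rwa [zsmul_pullback_F] at hf) ⟨0, R.KF.d_pos⟩)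
    rwa [show R.KF.part ((m : ℤ) • S₀.H) 0 = (m : ℤ) • S₀.H from
      Finsupp.ext fun v => by simp [KummerExt.part_apply]] at h

end KummerRed

/-- The model of the cover. -/
def KummerModel.toGlueModel {R : KummerRed S₀ F G d} (M : KummerModel R) : GlueModel A π F G where
  Int := R.Int
  red := R.red
  int_one := R.int_one
  red_one := R.red_one
  int_add := R.int_add
  red_add := R.red_add
  int_mul i f g hf hg := (R.int_mul_aux i f g hf hg).1
  red_mul i f g hf hg := (R.int_mul_aux i f g hf hg).2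
  int_smul := R.int_smul
  red_smul := R.red_smul
  isResidueMap := S₀.isResidueMap
  residue_surjective := S₀.residue_surjective
  rankOne := S₀.rankOne
  normalise := R.normalise
  reduced_basis := R.reduced_basis
  H := Divisor.pullback F S₀.H
  H_nonneg P := by
    rw [Divisor.pullback_apply]
    exact mul_nonneg (by positivity) (S₀.H_nonneg _)
  C := Divisor.pullback G S₀.C
  C_nonneg P := by
    rw [Divisor.pullback_apply]
    exact mul_nonneg (by positivity) (S₀.C_nonneg _)
  degree_H := by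
    have : FundamentalIdentity L F₀ F := fundamentalIdentity
    have : FundamentalIdentity k G₀ G := fundamentalIdentity
    rw [Divisor.degree_pullback, Divisor.degree_pullback, S₀.degree_H,
      Module.finrank_eq_card_basis R.KF.basis, Module.finrank_eq_card_basis R.KG.basis]
    ring
  degree_C_pos := by
    have : FundamentalIdentity k G₀ G := fundamentalIdentity
    rw [Divisor.degree_pullback]
    exact mul_pos (by exact_mod_cast Module.finrank_pos) S₀.degree_C_pos
  T := algebraMap F₀ F S₀.T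
  Tbar := algebraMap G₀ G S₀.Tbar
  T_ne := by simpa using S₀.T_ne
  Tbar_ne := by simpa using S₀.Tbar_ne
  int_T i := (R.int_algebraMap (S₀.int_T i)).1
  red_T i := by rw [(R.int_algebraMap (S₀.int_T i)).2, S₀.red_T]
  ord_T P hP := by
    rw [Divisor.pullback_apply] at hP ⊢
    rw [P.ord_restrict, S₀.ord_T _ (pos_of_mul_pos_right hP (by positivity)), mul_neg]
  ord_T_nonneg P hP := by
    rw [Divisor.pullback_apply, mul_eq_zero] at hP
    have he := P.ramificationIndex_pos (F := F₀)
    rw [P.ord_restrict]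
    exact mul_nonneg (by positivity) (S₀.ord_T_nonneg _ (hP.resolve_left (by omega)))
  ord_Tbar P hP := by
    rw [Divisor.pullback_apply] at hP ⊢
    rw [P.ord_restrict, S₀.ord_Tbar _ (pos_of_mul_pos_right hP (by positivity)), mul_neg]
  ord_Tbar_nonneg P hP := by
    rw [Divisor.pullback_apply, mul_eq_zero] at hP
    have he := P.ramificationIndex_pos (F := G₀)
    rw [P.ord_restrict]
    exact mul_nonneg (by positivity) (S₀.ord_Tbar_nonneg _ (hP.resolve_left (by omega)))
  bound m f hf hm i := R.bound m f hf hm i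
  gF := M.gF
  gG := M.gG
  rrBound := M.bnd
  rrF := M.rrF
  rrG := M.rrG
  exists_small := S₀.exists_small
  pairs := R.pairs
  pairs_affine x hx := by
    obtain ⟨y, hy, rfl⟩ := R.mem_pairs.mp hx
    simp [Divisor.pullback_apply, R.restrict_lift, S₀.pairs_affine y hy]
  pairs_inj_left x hx x' hx' h := by
    obtain ⟨y, hy, rfl⟩ := R.mem_pairs.mp hx
    obtain ⟨y', hy', rfl⟩ := R.mem_pairs.mp hx'
    rw [S₀.pairs_inj_left y hy y' hy' (by
      rw [← R.restrict_lift y.1, ← R.restrict_lift y'.1, show R.lift y.1 = R.lift y'.1 from h])]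
  pairs_inj_right x hx x' hx' h := by
    obtain ⟨y, hy, rfl⟩ := R.mem_pairs.mp hx
    obtain ⟨y', hy', rfl⟩ := R.mem_pairs.mp hx'
    rw [S₀.pairs_inj_right y hy y' hy' (by
      rw [← R.restrict_lift y.2, ← R.restrict_lift y'.2, show R.lift y.2 = R.lift y'.2 from h])]
  pairs_glue m f hf hm x hx := R.pairs_glue M.coprime_ord m f hf hm x hx
  count := by
    classical
    have h1 := R.KF.genus_eq_of_dvd S₀.rrF M.rrF M.dvd_ord
    have h2 := R.KG.two_mul_genus_ge S₀.rrG M.rrG (S₀.pairs.image Prod.fst) fun v hv => by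
      obtain ⟨x, hx, rfl⟩ := Finset.mem_image.mp hv
      exact (M.coprime_ord x hx).1
    rw [Finset.card_image_of_injOn fun x hx y hy h => S₀.pairs_inj_left x hx y hy h] at h2
    rw [R.card_pairs]
    have h3 : S₀.gF + 1 - 2 * S₀.gG ≤ (S₀.pairs.card : ℤ) := S₀.count
    have hd : (0 : ℤ) < d := by exact_mod_cast R.KF.d_pos
    nlinarith

/-- The automorphisms of the cover of the special fibre fix every glued place. -/
theorem KummerModel.aut_fix {R : KummerRed S₀ F G d} (M : KummerModel R) (l : ℕ)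
    {x : Place k G × Place k G} (hx : x ∈ R.pairs) :
    R.KG.aut l • x.1 = x.1 ∧ R.KG.aut l • x.2 = x.2 := by
  obtain ⟨y, hy, rfl⟩ := R.mem_pairs.mp hx
  constructor
  · refine R.KG.place_unique (R.KG.restrict_aut l _) ?_
    rw [R.KG.restrict_aut, R.restrict_lift]
    exact (M.coprime_ord y hy).1
  · refine R.KG.place_unique (R.KG.restrict_aut l _) ?_
    rw [R.KG.restrict_aut, R.restrict_lift]
    exact (M.coprime_ord y hy).2

end Fermat.Agent.XHLite

end
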