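import Fermat.Agent.FunctionFieldRR.RiemannRoch
import Fermat.Agent.FunctionFieldRR.PushPull
import Mathlib.RingTheory.PowerBasis
import Mathlib.RingTheory.RootsOfUnity.PrimitiveRoots

/-!
# Kummer extensions of function fields

For `E = E₀(y)`, `y ^ d = b`, the space `L(D)` of a divisor `D` pulled back from `E₀` splits along
the powers of `y`, which computes its dimension and hence the genus of `E`.
-/

set_option autoImplicit false
set_option linter.unusedSectionVars false

noncomputable section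

open AlgebraicCurve Fermat.Agent.FunctionFieldRR Polynomial

namespace Fermat.Agent.XHLite

/-- `E = E₀(y)` with `y ^ d = b` of degree `d`, together with a primitive `d`-th root of unity. -/
structure KummerExt (K E₀ E : Type*) [Field K] [Field E₀] [Field E] [Algebra K E₀] [Algebra K E]
    [Algebra E₀ E] (d : ℕ) where
  b : E₀
  b_ne : b ≠ 0
  y : E
  pow_y : y ^ d = algebraMap E₀ E b
  basis : Module.Basis (Fin d) E₀ E
  basis_apply : ∀ j, basis j = y ^ (j : ℕ)
  ζ : K
  isPrimitiveRoot : IsPrimitiveRoot ζ d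
  d_ne : (d : K) ≠ 0

namespace KummerExt

variable {K E₀ E : Type*} [Field K] [Field E₀] [Field E] [Algebra K E₀] [Algebra K E]
  [Algebra E₀ E] [IsScalarTower K E₀ E] {d : ℕ}
variable (S : KummerExt K E₀ E d)

include S in
theorem d_pos : 0 < d := Nat.pos_of_ne_zero fun h => S.d_ne (by rw [h, Nat.cast_zero])

theorem y_ne : S.y ≠ 0 := fun h => S.b_ne <| by
  have := S.pow_y
  rw [h, zero_pow S.d_pos.ne', eq_comm, map_eq_zero] at this
  exact this

/-- The coordinate along `y ^ j`. -/
def coef (z : E) (j : Fin d) : E₀ := S.basis.repr z j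

/-- The component along `y ^ j`. -/
def mon (z : E) (j : Fin d) : E := algebraMap E₀ E (S.coef z j) * S.y ^ (j : ℕ)

theorem sum_mon (z : E) : ∑ j, S.mon z j = z := by
  simp only [mon, coef, ← Algebra.smul_def, ← S.basis_apply]
  exact S.basis.sum_repr z

theorem coef_sum (c : Fin d → E₀) :
    S.coef (∑ j, algebraMap E₀ E (c j) * S.y ^ (j : ℕ)) = c := by
  funext i
  simp only [coef, ← Algebra.smul_def, ← S.basis_apply, S.basis.repr_sum_self]

theorem coef_add (z w : E) (j : Fin d) : S.coef (z + w) j = S.coef z j + S.coef w j := by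
  simp [coef]

theorem coef_smul₀ (c : E₀) (z : E) (j : Fin d) :
    S.coef (algebraMap E₀ E c * z) j = c * S.coef z j := by
  simp [coef, ← Algebra.smul_def]

theorem coef_smul (c : K) (z : E) (j : Fin d) : S.coef (c • z) j = c • S.coef z j := by
  rw [Algebra.smul_def c z, IsScalarTower.algebraMap_apply K E₀ E, coef_smul₀, ← Algebra.smul_def]

theorem eq_of_coef {z w : E} (h : ∀ j, S.coef z j = S.coef w j) : z = w := by
  rw [← S.sum_mon z, ← S.sum_mon w]
  exact Finset.sum_congr rfl fun j _ => by rw [mon, mon, h j]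

/-- The power basis `1, y, …`. -/
def powerBasis : PowerBasis E₀ E := ⟨S.y, d, S.basis, S.basis_apply⟩

@[simp] theorem powerBasis_gen : S.powerBasis.gen = S.y := rfl

theorem minpoly_y : minpoly E₀ S.y = X ^ d - C S.b := by
  have hfin : FiniteDimensional E₀ E := Module.Finite.of_basis S.basis
  refine (eq_of_monic_of_dvd_of_natDegree_le (minpoly.monic (Algebra.IsIntegral.isIntegral _))
    (monic_X_pow_sub_C S.b S.d_pos.ne') (minpoly.dvd E₀ _ ?_) ?_).symm
  · simp [S.pow_y]
  · rw [natDegree_X_pow_sub_C]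
    exact (S.powerBasis.natDegree_minpoly).ge

theorem aeval_twist (l : ℕ) :
    aeval (algebraMap K E (S.ζ ^ l) * S.y) (minpoly E₀ S.powerBasis.gen) = 0 := by
  rw [S.powerBasis_gen, S.minpoly_y]
  rw [map_sub, map_pow, aeval_X, aeval_C, mul_pow, S.pow_y, ← map_pow, ← pow_mul, mul_comm l, pow_mul, S.isPrimitiveRoot.pow_eq_one, one_pow, map_one, one_mul,
    sub_self]

/-- `y ↦ ζ ^ l y`. -/
def autHom (l : ℕ) : E →ₐ[E₀] E :=
  S.powerBasis.lift (algebraMap K E (S.ζ ^ l) * S.y) (S.aeval_twist l)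

theorem autHom_y (l : ℕ) : S.autHom l S.y = algebraMap K E (S.ζ ^ l) * S.y :=
  S.powerBasis.lift_gen _ (S.aeval_twist l)

/-- `y ↦ ζ ^ l y` as an automorphism over `K`. -/
def aut (l : ℕ) : E ≃ₐ[K] E :=
  have : FiniteDimensional E₀ E := Module.Finite.of_basis S.basis
  (AlgEquiv.ofBijective (S.autHom l) (S.autHom l).bijective).restrictScalars K

theorem aut_algebraMap (l : ℕ) (c : E₀) : S.aut l (algebraMap E₀ E c) = algebraMap E₀ E c :=
  (S.autHom l).commutes c

theorem aut_y (l : ℕ) : S.aut l S.y = algebraMap K E (S.ζ ^ l) * S.y := S.autHom_y l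

theorem coef_aut (l : ℕ) (z : E) (j : Fin d) :
    S.coef (S.aut l z) j = S.ζ ^ (l * (j : ℕ)) • S.coef z j := by
  have h : S.aut l z =
      ∑ i : Fin d, algebraMap E₀ E (S.ζ ^ (l * (i : ℕ)) • S.coef z i) * S.y ^ (i : ℕ) := by
    conv_lhs => rw [← S.sum_mon z]
    rw [map_sum]
    refine Finset.sum_congr rfl fun i _ => ?_
    simp only [mon, map_mul, map_pow, S.aut_algebraMap, S.aut_y]
    rw [Algebra.smul_def, map_mul, ← IsScalarTower.algebraMap_apply, pow_mul, map_pow, map_pow]
    ring
  rw [h, S.coef_sum]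

include S in
theorem sum_zeta (i j : Fin d) :
    ∑ l ∈ Finset.range d, (S.ζ ^ (l * (j : ℕ)))⁻¹ * S.ζ ^ (l * (i : ℕ)) =
      if i = j then (d : K) else 0 := by
  have hz : S.ζ ≠ 0 := S.isPrimitiveRoot.ne_zero S.d_pos.ne'
  set η := S.ζ ^ (i : ℕ) / S.ζ ^ (j : ℕ) with hη
  have hterm : ∀ l, (S.ζ ^ (l * (j : ℕ)))⁻¹ * S.ζ ^ (l * (i : ℕ)) = η ^ l := fun l => by
    rw [hη, div_pow, ← pow_mul, ← pow_mul, mul_comm l, mul_comm l, inv_mul_eq_div]
  simp only [hterm]
  split_ifs with h
  · subst h
    simp [hη, div_self (pow_ne_zero _ hz)]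
  · have h1 : η ≠ 1 := fun h' => h (Fin.ext (S.isPrimitiveRoot.pow_inj i.2 j.2
      ((div_eq_one_iff_eq (pow_ne_zero _ hz)).mp h')))
    have h2 := geom_sum_mul η d
    rw [hη, div_pow, ← pow_mul, ← pow_mul, mul_comm (i : ℕ), mul_comm (j : ℕ), pow_mul, pow_mul,
      S.isPrimitiveRoot.pow_eq_one, one_pow, one_pow, div_one, sub_self, ← hη] at h2
    exact (mul_eq_zero.mp h2).resolve_right (sub_ne_zero.mpr h1)

/-- Components are averages over the automorphisms. -/
theorem mon_eq_average (z : E) (j : Fin d) :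
    S.mon z j = (d : K)⁻¹ •
      ∑ l ∈ Finset.range d, (S.ζ ^ (l * (j : ℕ)))⁻¹ • S.aut l z := by
  classical
  refine S.eq_of_coef fun i => ?_
  have hl : S.coef (S.mon z j) i = if i = j then S.coef z i else 0 := by
    have h : S.mon z j =
        ∑ m, algebraMap E₀ E (if m = j then S.coef z j else 0) * S.y ^ (m : ℕ) := by
      simp only [apply_ite, map_zero, ite_mul, zero_mul, Finset.sum_ite_eq', Finset.mem_univ,
        if_true]
      rfl
    rw [h, S.coef_sum]
    split_ifs with hij
    · rw [hij]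
    · rfl
  rw [hl, S.coef_smul]
  have hsum : ∀ s : Finset ℕ, S.coef (∑ l ∈ s, (S.ζ ^ (l * (j : ℕ)))⁻¹ • S.aut l z) i =
      (∑ l ∈ s, (S.ζ ^ (l * (j : ℕ)))⁻¹ * S.ζ ^ (l * (i : ℕ))) • S.coef z i := fun s => by
    induction s using Finset.induction with
    | empty => simp [coef]
    | insert l s hl' ih =>
      rw [Finset.sum_insert hl', Finset.sum_insert hl', S.coef_add, ih, S.coef_smul, S.coef_aut,
        smul_smul, ← add_smul]
  rw [hsum, S.sum_zeta, smul_smul]
  split_ifs with hij
  · rw [inv_mul_cancel₀ S.d_ne, one_smul]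
  · rw [mul_zero, zero_smul]

section Places

variable [IsAlgClosed K] [IsFunctionField K E₀] [IsFunctionField K E] [FiniteDimensional E₀ E]
  [HasPrincipalDivisors K E]

omit [HasPrincipalDivisors K E] in
include S in
theorem exists_place_over (v : Place K E₀) : ∃ w : Place K E, w.restrict E₀ = v := by
  have h := fullFiber (F' := E) v
  rw [FullFiber] at h
  have hpos : 0 < Module.finrank E₀ E := Module.finrank_pos
  obtain ⟨w, hw, -⟩ := Finset.exists_ne_zero_of_sum_ne_zero (h.symm ▸ hpos.ne' :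
    ∑ w ∈ placesOver E v, w.ramificationIndex E₀ ≠ 0)
  exact ⟨w, mem_placesOver.mp hw⟩

theorem restrict_aut (l : ℕ) (w : Place K E) : (S.aut l • w).restrict E₀ = w.restrict E₀ := by
  refine eq_of_forall_mem fun f hf => ?_
  rw [Place.mem_restrict_iff] at hf ⊢
  rcases eq_or_ne f 0 with rfl | h0
  · simp
  have h1 : algebraMap E₀ E f ≠ 0 := by simpa using h0
  rw [mem_iff _ h1] at hf ⊢
  have := Place.ord_smul (S.aut l) w (algebraMap E₀ E f)
  rw [S.aut_algebraMap] at this
  omega

theorem ramificationIndex_aut (l : ℕ) (w : Place K E) :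
    (S.aut l • w).ramificationIndex E₀ = w.ramificationIndex E₀ := by
  obtain ⟨t, -, ht⟩ := exists_ord_eq_one (w.restrict E₀)
  have h1 := w.ord_restrict (F := E₀) t
  have h2 := (S.aut l • w).ord_restrict (F := E₀) t
  have h3 := Place.ord_smul (S.aut l) w (algebraMap E₀ E t)
  rw [S.aut_algebraMap] at h3
  rw [S.restrict_aut, ht, h3, h1, ht, mul_one, mul_one] at h2
  exact_mod_cast h2.symm

theorem aut_mem (l : ℕ) {D : Divisor K E₀} {z : E}
    (hz : z ∈ riemannRochSpace (Divisor.pullback E D)) :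
    S.aut l z ∈ riemannRochSpace (Divisor.pullback E D) := by
  rw [mem_riemannRochSpace] at hz ⊢
  intro w
  refine (hz ((S.aut l)⁻¹ • w)).imp (fun h => by rw [h, map_zero]) fun h => ?_
  have h' := Place.ord_smul (S.aut l) ((S.aut l)⁻¹ • w) z
  rw [smul_inv_smul] at h'
  have h3 := S.restrict_aut l ((S.aut l)⁻¹ • w)
  have h4 := S.ramificationIndex_aut l ((S.aut l)⁻¹ • w)
  rw [smul_inv_smul] at h3 h4
  rw [h', Divisor.pullback_apply, h3, h4]
  rwa [Divisor.pullback_apply] at h

theorem mon_mem {D : Divisor K E₀} {z : E} (hz : z ∈ riemannRochSpace (Divisor.pullback E D))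
    (j : Fin d) : S.mon z j ∈ riemannRochSpace (Divisor.pullback E D) := by
  rw [S.mon_eq_average]
  exact Submodule.smul_mem _ _ (Submodule.sum_mem _ fun l _ =>
    Submodule.smul_mem _ _ (S.aut_mem l hz))

theorem d_mul_ord {w : Place K E} {c : E₀} (hc : c ≠ 0) (j : ℕ) :
    (d : ℤ) * w.ord (algebraMap E₀ E c * S.y ^ j) =
      (w.ramificationIndex E₀ : ℤ) *
        ((d : ℤ) * (w.restrict E₀).ord c + j * (w.restrict E₀).ord S.b) := by
  have h1 : (d : ℤ) * w.ord (S.y ^ j) = j * w.ord (algebraMap E₀ E S.b) := by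
    rw [← ord_pow, ← ord_pow, ← pow_mul, mul_comm j, pow_mul, S.pow_y]
  rw [w.ord_mul (by simpa using hc) (pow_ne_zero _ S.y_ne), mul_add, h1, w.ord_restrict,
    w.ord_restrict]
  ring

/-- The divisor cut out on `E₀` by the component along `y ^ j` of `L(D)`. -/
def part (D : Divisor K E₀) (j : ℕ) : Divisor K E₀ :=
  D + (divisorOf S.b).mapRange (fun a => (j : ℤ) * a / (d : ℤ)) (by simp)

theorem part_apply (D : Divisor K E₀) (j : ℕ) (v : Place K E₀) :
    S.part D j v = D v + (j : ℤ) * v.ord S.b / (d : ℤ) := by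
  simp [part]

theorem mon_mem_iff {D : Divisor K E₀} {c : E₀} (j : ℕ) :
    algebraMap E₀ E c * S.y ^ j ∈ riemannRochSpace (Divisor.pullback E D) ↔
      c ∈ riemannRochSpace (S.part D j) := by
  have hd : (0 : ℤ) < d := by exact_mod_cast S.d_pos
  rcases eq_or_ne c 0 with rfl | hc
  · simp
  have hne : algebraMap E₀ E c * S.y ^ j ≠ 0 :=
    mul_ne_zero (by simpa using hc) (pow_ne_zero _ S.y_ne)
  simp only [mem_riemannRochSpace, VanishesTo, hne, hc, false_or, Divisor.pullback_apply,
    part_apply]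
  constructor
  · intro h v
    obtain ⟨w, rfl⟩ := S.exists_place_over v
    have h1 := mul_le_mul_of_nonneg_left (h w) hd.le
    rw [S.d_mul_ord hc] at h1
    have he : (0 : ℤ) < w.ramificationIndex E₀ := by
      exact_mod_cast w.ramificationIndex_pos (F := E₀)
    have h2 : -((d : ℤ) * D (w.restrict E₀)) ≤
        (d : ℤ) * (w.restrict E₀).ord c + j * (w.restrict E₀).ord S.b :=
      le_of_mul_le_mul_left (by linarith) he
    have h3 : -((w.restrict E₀).ord c + D (w.restrict E₀)) ≤
        (j : ℤ) * (w.restrict E₀).ord S.b / (d : ℤ) :=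
      (Int.le_ediv_iff_mul_le hd).mpr (by linarith)
    linarith
  · intro h w
    have h1 : -((w.restrict E₀).ord c + D (w.restrict E₀)) ≤
        (j : ℤ) * (w.restrict E₀).ord S.b / (d : ℤ) := by linarith [h (w.restrict E₀)]
    rw [Int.le_ediv_iff_mul_le hd] at h1
    refine le_of_mul_le_mul_left ?_ hd
    rw [S.d_mul_ord hc]
    have he : (0 : ℤ) ≤ w.ramificationIndex E₀ := by positivity
    nlinarith

/-- `L(D)` upstairs is the product of the spaces of its parts. -/
def splitEquiv (D : Divisor K E₀) :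
    riemannRochSpace (Divisor.pullback E D) ≃ₗ[K]
      ((j : Fin d) → riemannRochSpace (S.part D j)) where
  toFun z j := ⟨S.coef z j, (S.mon_mem_iff j).mp (S.mon_mem z.2 j)⟩
  invFun c := ⟨∑ j, algebraMap E₀ E (c j : E₀) * S.y ^ (j : ℕ),
    Submodule.sum_mem _ fun j _ => (S.mon_mem_iff j).mpr (c j).2⟩
  left_inv z := Subtype.ext (S.sum_mon z)
  right_inv c := funext fun j => Subtype.ext (congrFun (S.coef_sum _) j)
  map_add' z w := funext fun j => Subtype.ext (S.coef_add z w j)
  map_smul' r z := funext fun j => Subtype.ext (S.coef_smul r z j)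

variable {g₀ bound₀ g bound : ℤ}
  (rr₀ : ∀ D : Divisor K E₀, bound₀ ≤ Divisor.degree D →
    (Module.finrank K (riemannRochSpace D) : ℤ) = Divisor.degree D + 1 - g₀)
  (rr : ∀ D : Divisor K E, bound ≤ Divisor.degree D →
    (Module.finrank K (riemannRochSpace D) : ℤ) = Divisor.degree D + 1 - g)

include rr₀ rr in
/-- The genus of a Kummer extension. -/
theorem genus_eq :
    g - 1 = (d : ℤ) * (g₀ - 1) - ∑ j : Fin d, Divisor.degree (S.part 0 j) := by
  have hd : (1 : ℤ) ≤ d := by exact_mod_cast S.d_pos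
  have hf : (Module.finrank E₀ E : ℤ) = d := by
    rw [Module.finrank_eq_card_basis S.basis, Fintype.card_fin]
  obtain ⟨P⟩ : Nonempty (Place K E₀) := by
    obtain ⟨x, hx, hfd⟩ := IsFunctionField.exists_transcendental (K := K) (F := E₀)
    have := degree_polarDivisor (K := K) (F := E₀) hx
    by_contra h
    rw [not_nonempty_iff] at h
    have h0 : polarDivisor (K := K) x = 0 := Finsupp.ext fun v => isEmptyElim v
    rw [h0, map_zero] at this
    exact absurd this.symm (by exact_mod_cast Module.finrank_pos.ne')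
  set m : ℕ := bound.natAbs + bound₀.natAbs + g.natAbs + g₀.natAbs + 1 +
    ∑ j : Fin d, (Divisor.degree (S.part 0 j)).natAbs with hm
  set D : Divisor K E₀ := Finsupp.single P (m : ℤ) with hD
  have hdeg : Divisor.degree D = m := by rw [hD, Divisor.degree_single, deg_eq_one]; simp
  have hpart : ∀ j : Fin d,
      Divisor.degree (S.part D j) = m + Divisor.degree (S.part 0 j) := fun j => by
    rw [show S.part D j = D + S.part 0 j by simp [part], map_add, hdeg]
  have hj : ∀ j : Fin d, |Divisor.degree (S.part 0 j)| ≤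
      ∑ i : Fin d, |Divisor.degree (S.part 0 i)| := fun j =>
    Finset.single_le_sum (f := fun i : Fin d => |Divisor.degree (S.part 0 i)|)
      (fun i _ => abs_nonneg _)
      (Finset.mem_univ j)
  have hmZ : (m : ℤ) = |bound| + |bound₀| + |g| + |g₀| + 1 +
      ∑ i : Fin d, |Divisor.degree (S.part 0 i)| := by
    rw [hm]; push_cast [Int.natCast_natAbs]; rfl
  have := le_abs_self bound
  have := le_abs_self bound₀
  have := le_abs_self g
  have := le_abs_self g₀
  have := abs_nonneg bound
  have := abs_nonneg bound₀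
  have := abs_nonneg g
  have := abs_nonneg g₀
  have hFI : FundamentalIdentity K E₀ E := fundamentalIdentity
  have hdegE : Divisor.degree (Divisor.pullback E D) = (d : ℤ) * m := by
    rw [Divisor.degree_pullback, hf, hdeg]
  have h1 := rr (Divisor.pullback E D) (by
    rw [hdegE]
    have := Finset.sum_nonneg (s := Finset.univ)
      fun (i : Fin d) _ => abs_nonneg (Divisor.degree (S.part 0 i))
    nlinarith)
  have h2 : ∀ j : Fin d, (Module.finrank K (riemannRochSpace (S.part D j)) : ℤ) =
      m + Divisor.degree (S.part 0 j) + 1 - g₀ := fun j => by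
    rw [rr₀ _ (by rw [hpart]; have := hj j; have := neg_abs_le (Divisor.degree (S.part 0 j)); linarith),
      hpart]
  have hfin : ∀ j : Fin d, FiniteDimensional K (riemannRochSpace (S.part D j)) := fun j =>
    Module.finite_of_finrank_pos (by
      have := h2 j; have := hj j; have := neg_abs_le (Divisor.degree (S.part 0 j)); omega)
  rw [(S.splitEquiv D).finrank_eq, Module.finrank_pi_fintype, Nat.cast_sum, hdegE] at h1
  simp only [h2, Finset.sum_add_distrib, Finset.sum_sub_distrib, Finset.sum_const,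
    Finset.card_univ, Fintype.card_fin, nsmul_eq_mul, mul_one] at h1
  linarith

theorem degree_part_zero (j : ℕ) :
    (d : ℤ) * Divisor.degree (S.part 0 j) =
      -∑ v ∈ (divisorOf (K := K) S.b).support, ((j : ℤ) * v.ord S.b % (d : ℤ)) := by
  have h0 := degree_divisorOf (K := K) S.b
  have hsum : ∀ D : Divisor K E₀, D.support ⊆ (divisorOf (K := K) S.b).support →
      Divisor.degree D = ∑ v ∈ (divisorOf (K := K) S.b).support, D v := fun D hD => by
    conv_lhs => rw [← Finsupp.sum_single D]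
    rw [Finsupp.sum, map_sum]
    simp only [Divisor.degree_single, deg_eq_one, Nat.cast_one, mul_one]
    exact Finset.sum_subset hD fun v _ hv => Finsupp.notMem_support_iff.mp hv
  rw [hsum (S.part 0 j) (by simpa [part] using Finsupp.support_mapRange), Finset.mul_sum,
    ← Finset.sum_neg_distrib]
  rw [hsum _ subset_rfl] at h0
  simp only [divisorOf_apply] at h0
  have h1 : ∀ v : Place K E₀, (d : ℤ) * S.part 0 j v =
      -((j : ℤ) * v.ord S.b % (d : ℤ)) + (j : ℤ) * v.ord S.b := fun v => by
    have := Int.mul_ediv_add_emod ((j : ℤ) * v.ord S.b) (d : ℤ)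
    simp only [part_apply, Finsupp.coe_zero, Pi.zero_apply, zero_add]
    linarith
  simp only [h1, Finset.sum_add_distrib, ← Finset.mul_sum, h0, mul_zero, add_zero]

include rr₀ rr in
/-- Without branching the Euler characteristic is multiplied by the degree. -/
theorem genus_eq_of_dvd (h : ∀ v : Place K E₀, (d : ℤ) ∣ v.ord S.b) :
    g - 1 = (d : ℤ) * (g₀ - 1) := by
  have hd : (d : ℤ) ≠ 0 := by exact_mod_cast S.d_pos.ne'
  have hz : ∀ j : Fin d, Divisor.degree (S.part 0 j) = 0 := fun j => by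
    have h1 := S.degree_part_zero j
    rw [Finset.sum_eq_zero fun v _ => Int.emod_eq_zero_of_dvd ((h v).mul_left _),
      neg_zero] at h1
    exact (mul_eq_zero.mp h1).resolve_left hd
  simpa [hz] using S.genus_eq rr₀ rr

/-- Multiplication by an integer prime to `d` permutes the residues. -/
theorem two_mul_sum_emod {a : ℤ} (ha : IsCoprime a (d : ℤ)) :
    2 * ∑ j : Fin d, ((j : ℕ) : ℤ) * a % (d : ℤ) = (d : ℤ) * ((d : ℤ) - 1) := by
  rcases Nat.eq_zero_or_pos d with hd | hd
  · subst hd; simp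
  have hdZ : (0 : ℤ) < d := by exact_mod_cast hd
  let f : Fin d → Fin d := fun j => ⟨(((j : ℕ) : ℤ) * a % (d : ℤ)).toNat, by
    have := Int.emod_lt_of_pos (((j : ℕ) : ℤ) * a) hdZ
    omega⟩
  have hf : ∀ j, ((f j : ℕ) : ℤ) = ((j : ℕ) : ℤ) * a % (d : ℤ) := fun j =>
    Int.toNat_of_nonneg (Int.emod_nonneg _ hdZ.ne')
  have hinj : Function.Injective f := fun i j hij => by
    have h1 : ((f i : ℕ) : ℤ) = ((f j : ℕ) : ℤ) := by rw [hij]
    rw [hf, hf] at h1
    have h2 : (d : ℤ) ∣ (((i : ℕ) : ℤ) - ((j : ℕ) : ℤ)) * a := by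
      rw [sub_mul]; exact Int.dvd_of_emod_eq_zero (Int.emod_eq_emod_iff_emod_sub_eq_zero.mp h1)
    have h3 := (ha.symm).dvd_of_dvd_mul_right h2
    have h4 : |((i : ℕ) : ℤ) - ((j : ℕ) : ℤ)| < d := by
      rw [abs_lt]; constructor <;> omega
    have := Int.eq_zero_of_abs_lt_dvd h3 h4
    exact Fin.ext (by omega)
  calc 2 * ∑ j : Fin d, ((j : ℕ) : ℤ) * a % (d : ℤ)
      = 2 * ∑ j : Fin d, ((f j : ℕ) : ℤ) := by simp only [hf]
    _ = 2 * ∑ j : Fin d, ((j : ℕ) : ℤ) := by
      exact congrArg _ (Fintype.sum_bijective f (Finite.injective_iff_bijective.mp hinj) _ _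
        fun _ => rfl)
    _ = (d : ℤ) * ((d : ℤ) - 1) := by
      rw [Fin.sum_univ_eq_sum_range (fun j => (j : ℤ))]
      have := Finset.sum_range_id_mul_two d
      have h1 : ((∑ i ∈ Finset.range d, i : ℕ) : ℤ) * 2 = ((d * (d - 1) : ℕ) : ℤ) := by
        rw [← this]; push_cast; ring
      push_cast [Nat.cast_sub (show 1 ≤ d from hd)] at h1
      linarith

include rr₀ rr in
/-- Each point where `ord b` is prime to `d` raises the genus by `(d - 1) / 2`. -/
theorem two_mul_genus_ge (s : Finset (Place K E₀))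
    (hs : ∀ v ∈ s, IsCoprime (v.ord S.b) (d : ℤ)) :
    2 * ((d : ℤ) * (g₀ - 1)) + ((d : ℤ) - 1) * s.card ≤ 2 * (g - 1) := by
  classical
  have hdZ : (0 : ℤ) < d := by exact_mod_cast S.d_pos
  rw [S.genus_eq rr₀ rr]
  rcases Nat.lt_or_ge 1 d with hd1 | hd1
  · have hsub : s ⊆ (divisorOf (K := K) S.b).support := fun v hv => by
      rw [Finsupp.mem_support_iff, divisorOf_apply]
      intro h0
      have h2 := hs v hv
      rw [h0, isCoprime_zero_left, Int.isUnit_iff] at h2
      omega
    have key : ((d : ℤ) * ((d : ℤ) - 1)) * s.card ≤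
        2 * ((d : ℤ) * -∑ j : Fin d, Divisor.degree (S.part 0 j)) := by
      rw [mul_neg, Finset.mul_sum]
      simp only [S.degree_part_zero, Finset.sum_neg_distrib, neg_neg]
      rw [Finset.sum_comm, Finset.mul_sum]
      calc ((d : ℤ) * ((d : ℤ) - 1)) * s.card
          = ∑ v ∈ s, 2 * ∑ j : Fin d, ((j : ℕ) : ℤ) * v.ord S.b % (d : ℤ) := by
            rw [Finset.sum_congr rfl fun v hv => two_mul_sum_emod (hs v hv), Finset.sum_const,
              nsmul_eq_mul]
            ring
        _ ≤ ∑ v ∈ (divisorOf (K := K) S.b).support,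
              2 * ∑ j : Fin d, ((j : ℕ) : ℤ) * v.ord S.b % (d : ℤ) :=
            Finset.sum_le_sum_of_subset_of_nonneg hsub fun v _ _ =>
              mul_nonneg zero_le_two (Finset.sum_nonneg fun j _ => Int.emod_nonneg _ hdZ.ne')
    nlinarith
  · have hd : d = 1 := le_antisymm hd1 S.d_pos
    have hz : ∀ j : Fin d, Divisor.degree (S.part 0 j) = 0 := fun j => by
      have hj : (j : ℕ) = 0 := by omega
      rw [hj, show S.part 0 0 = 0 from Finsupp.ext fun v => by simp [part_apply], map_zero]
    simp [hz, hd]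

/-- At a point where `ord b` is prime to `d` only the component along `1` survives. -/
theorem value_of_coprime {D : Divisor K E₀} {z : E}
    (hz : z ∈ riemannRochSpace (Divisor.pullback E D)) {w : Place K E}
    (hw : D (w.restrict E₀) = 0) (hb : IsCoprime ((w.restrict E₀).ord S.b) (d : ℤ)) :
    residueConst w z = residueConst (w.restrict E₀) (S.coef z ⟨0, S.d_pos⟩) := by
  classical
  set v := w.restrict E₀ with hv
  set j0 : Fin d := ⟨0, S.d_pos⟩
  have hc0 : VanishesTo v 0 (S.coef z j0) := by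
    have h := (mem_riemannRochSpace.mp ((S.mon_mem_iff j0).mp (S.mon_mem hz j0))) v
    simpa [part_apply, hw, j0] using h
  have hrest : ∀ j : Fin d, j ≠ j0 → VanishesTo w 1 (S.mon z j) := by
    intro j hj
    have h := (mem_riemannRochSpace.mp (S.mon_mem hz j)) w
    rw [Divisor.pullback_apply, hw, mul_zero, neg_zero] at h
    rcases h with h | h
    · exact Or.inl h
    rcases eq_or_ne (S.coef z j) 0 with hc | hc
    · exact Or.inl (by simp [mon, hc])
    refine Or.inr ?_
    by_contra hlt
    have h0 : w.ord (S.mon z j) = 0 := by omega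
    have h1 := S.d_mul_ord (w := w) hc (j : ℕ)
    rw [← hv, show algebraMap E₀ E (S.coef z j) * S.y ^ (j : ℕ) = S.mon z j from rfl, h0,
      mul_zero, eq_comm, mul_eq_zero] at h1
    have he : (w.ramificationIndex E₀ : ℤ) ≠ 0 := by
      have := w.ramificationIndex_pos (F := E₀)
      omega
    have h2 := h1.resolve_left he
    have h3 : (d : ℤ) ∣ ((j : ℕ) : ℤ) * v.ord S.b :=
      ⟨-(v.ord (S.coef z j)), by linarith⟩
    have h4 := hb.symm.dvd_of_dvd_mul_right h3
    have h5 : (j : ℕ) = 0 := by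
      have := Int.eq_zero_of_abs_lt_dvd h4 (by rw [abs_of_nonneg (by positivity)]; omega)
      omega
    exact hj (Fin.ext h5)
  have hsplit : z = algebraMap E₀ E (S.coef z j0) + ∑ j ∈ Finset.univ.erase j0, S.mon z j := by
    conv_lhs => rw [← S.sum_mon z, ← Finset.add_sum_erase _ _ (Finset.mem_univ j0)]
    simp [mon, j0]
  refine residueConst_eq _ ?_
  rw [hsplit, add_sub_right_comm, IsScalarTower.algebraMap_apply K E₀ E, ← map_sub]
  refine VanishesTo.add ?_ (VanishesTo.sum _ _ fun j hj => hrest j (Finset.ne_of_mem_erase hj))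
  rw [← hsplit]
  have h1 := residueConst_spec v ((vanishesTo_zero_iff v).mp hc0)
  rcases h1 with h1 | h1
  · exact Or.inl (by rw [h1, map_zero])
  · refine Or.inr ?_
    rw [w.ord_restrict, ← hv]
    have := w.ramificationIndex_pos (F := E₀)
    nlinarith

end Places

end KummerExt

end Fermat.Agent.XHLite

end
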