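import Fermat.Agent.XHLite.Glue.Model
import Fermat.Agent.XHLite.Glue.KummerExt

/-!
# Reductions on a Kummer cover

The two reductions of `F₀` extend to `F = F₀(y)`: with `Y = μ y` chosen such that `Y ^ d` has
reduction `e ^ d * b̄ ^ r`, `r` prime to `d`, a function is integral when its coordinates along the
powers of `Y` are, and `Y` reduces to `e * η ^ r`, `η ^ d = b̄`.
-/

set_option autoImplicit false
set_option linter.unusedSectionVars false

noncomputable section

open AlgebraicCurve Fermat.Agent.FunctionFieldRR Fermat.Agent.SemistableRed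

namespace Fermat.Agent.XHLite

variable {L : Type*} [Field L] {A : ValuationSubring L} {k : Type*} [Field k] [IsAlgClosed k]
  {π : A →+* k}
  {F₀ : Type*} [Field F₀] [Algebra L F₀] {G₀ : Type*} [Field G₀] [Algebra k G₀]
  [IsFunctionField k G₀]

/-- On each finite-dimensional space, functionals detecting nonzero reductions. -/
def GlueModel.HasPivot (S₀ : GlueModel A π F₀ G₀) : Prop :=
  ∀ (i : Fin 2) (V : Submodule L F₀), FiniteDimensional L V → ∀ f : F₀,
    S₀.Int i f → S₀.red i f ≠ 0 → ∃ (φ : F₀ →ₗ[L] L) (ψ : G₀ →ₗ[k] k),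
      (∀ g ∈ V, S₀.Int i g → ∃ h : φ g ∈ A, π ⟨φ g, h⟩ = ψ (S₀.red i g)) ∧
        ψ (S₀.red i f) ≠ 0

/-- Reduction data for a Kummer cover of a model. -/
structure KummerRed (S₀ : GlueModel A π F₀ G₀) (F : Type*) [Field F] [Algebra L F] [Algebra F₀ F]
    [IsScalarTower L F₀ F] (G : Type*) [Field G] [Algebra k G] [Algebra G₀ G]
    [IsScalarTower k G₀ G] (d : ℕ) where
  KF : KummerExt L F₀ F d
  KG : KummerExt k G₀ G d
  zeta_mem : KF.ζ ∈ A
  zeta_red : π ⟨KF.ζ, zeta_mem⟩ = KG.ζ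
  μ : Fin 2 → L
  μ_ne : ∀ i, μ i ≠ 0
  e : Fin 2 → G₀
  e_ne : ∀ i, e i ≠ 0
  r : Fin 2 → ℕ
  r_coprime : ∀ i, Nat.Coprime (r i) d
  int_b : ∀ i, S₀.Int i ((μ i) ^ d • KF.b)
  red_b : ∀ i, S₀.red i ((μ i) ^ d • KF.b) = e i ^ d * KG.b ^ r i
  pivot : S₀.HasPivot

namespace KummerRed

variable {S₀ : GlueModel A π F₀ G₀} {F : Type*} [Field F] [Algebra L F] [Algebra F₀ F]
  [IsScalarTower L F₀ F] {G : Type*} [Field G] [Algebra k G] [Algebra G₀ G]
  [IsScalarTower k G₀ G] {d : ℕ}
variable (R : KummerRed S₀ F G d)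

/-- `Y ^ d`. -/
def B (i : Fin 2) : F₀ := (R.μ i) ^ d • R.KF.b

/-- The scaled Kummer generator. -/
def Y (i : Fin 2) : F := R.μ i • R.KF.y

/-- Its reduction. -/
def h (i : Fin 2) : G := algebraMap G₀ G (R.e i) * R.KG.y ^ R.r i

theorem Y_pow (i : Fin 2) : R.Y i ^ d = algebraMap F₀ F (R.B i) := by
  rw [Y, B, smul_pow, R.KF.pow_y, Algebra.smul_def, Algebra.smul_def, map_mul,
    ← IsScalarTower.algebraMap_apply]

theorem h_pow (i : Fin 2) : R.h i ^ d = algebraMap G₀ G (S₀.red i (R.B i)) := by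
  rw [h, B, R.red_b, mul_pow, ← pow_mul, mul_comm (R.r i), pow_mul, R.KG.pow_y, map_mul, map_pow,
    map_pow]

/-- The coordinate along `Y ^ j`. -/
def coefY (i : Fin 2) (f : F) (j : Fin d) : F₀ := ((R.μ i) ^ (j : ℕ))⁻¹ • R.KF.coef f j

/-- The coordinate as a linear map. -/
def coefYₗ (i : Fin 2) (j : Fin d) : F →ₗ[L] F₀ where
  toFun f := R.coefY i f j
  map_add' f g := by rw [coefY, R.KF.coef_add, smul_add]; rfl
  map_smul' c f := by
    rw [coefY, R.KF.coef_smul, smul_comm]; rfl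

@[simp] theorem coefYₗ_apply (i : Fin 2) (j : Fin d) (f : F) :
    R.coefYₗ i j f = R.coefY i f j := rfl

theorem Y_pow_eq (i : Fin 2) (j : ℕ) :
    R.Y i ^ j = algebraMap F₀ F (algebraMap L F₀ (R.μ i ^ j)) * R.KF.y ^ j := by
  rw [Y, smul_pow, Algebra.smul_def, IsScalarTower.algebraMap_apply L F₀ F]

theorem sum_coefY (i : Fin 2) (f : F) :
    ∑ j, algebraMap F₀ F (R.coefY i f j) * R.Y i ^ (j : ℕ) = f := by
  conv_rhs => rw [← R.KF.sum_mon f]
  refine Finset.sum_congr rfl fun j _ => ?_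
  rw [Y_pow_eq, coefY, Algebra.smul_def, ← mul_assoc, ← map_mul, mul_assoc, mul_comm (R.KF.coef f j),
    ← mul_assoc, ← map_mul, inv_mul_cancel₀ (pow_ne_zero _ (R.μ_ne i)), map_one, one_mul]
  rfl

theorem coefY_sum (i : Fin 2) (c : Fin d → F₀) :
    R.coefY i (∑ j, algebraMap F₀ F (c j) * R.Y i ^ (j : ℕ)) = c := by
  funext j
  simp only [coefY, Y_pow_eq, ← mul_assoc, ← map_mul]
  rw [R.KF.coef_sum, Algebra.smul_def, mul_comm (c j), ← mul_assoc, ← map_mul,
    inv_mul_cancel₀ (pow_ne_zero _ (R.μ_ne i)), map_one, one_mul]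

theorem coefY_term (i : Fin 2) (c : F₀) (j : Fin d) :
    R.coefY i (algebraMap F₀ F c * R.Y i ^ (j : ℕ)) = fun l => if l = j then c else 0 := by
  classical
  rw [← R.coefY_sum i fun l => if l = j then c else 0]
  congr 1
  simp [apply_ite (algebraMap F₀ F), ite_mul]

/-- Integrality on the component `i`. -/
def Int (i : Fin 2) (f : F) : Prop := ∀ j, S₀.Int i (R.coefY i f j)

/-- Reduction on the component `i`. -/
def red (i : Fin 2) (f : F) : G :=
  ∑ j, algebraMap G₀ G (S₀.red i (R.coefY i f j)) * R.h i ^ (j : ℕ)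

theorem coefY_add (i : Fin 2) (f g : F) (j : Fin d) :
    R.coefY i (f + g) j = R.coefY i f j + R.coefY i g j := map_add (R.coefYₗ i j) f g

theorem coefY_smul (i : Fin 2) (c : L) (f : F) (j : Fin d) :
    R.coefY i (c • f) j = c • R.coefY i f j := map_smul (R.coefYₗ i j) c f

theorem int_add (i : Fin 2) (f g : F) (hf : R.Int i f) (hg : R.Int i g) : R.Int i (f + g) :=
  fun j => by rw [R.coefY_add]; exact S₀.int_add i _ _ (hf j) (hg j)

theorem red_add (i : Fin 2) (f g : F) (hf : R.Int i f) (hg : R.Int i g) :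
    R.red i (f + g) = R.red i f + R.red i g := by
  simp only [red, ← Finset.sum_add_distrib, ← add_mul, ← map_add]
  exact Finset.sum_congr rfl fun j _ => by rw [R.coefY_add, S₀.red_add i _ _ (hf j) (hg j)]

theorem int_smul (i : Fin 2) (c : L) (f : F) (hc : c ∈ A) (hf : R.Int i f) : R.Int i (c • f) :=
  fun j => by rw [R.coefY_smul]; exact S₀.int_smul i c _ hc (hf j)

theorem red_smul (i : Fin 2) (c : L) (f : F) (hc : c ∈ A) (hf : R.Int i f) :
    R.red i (c • f) = π ⟨c, hc⟩ • R.red i f := by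
  simp only [red, Finset.smul_sum]
  refine Finset.sum_congr rfl fun j _ => ?_
  rw [R.coefY_smul, S₀.red_smul i c _ hc (hf j), Algebra.smul_def, Algebra.smul_def, map_mul,
    ← IsScalarTower.algebraMap_apply, mul_assoc]

theorem int_zero (i : Fin 2) : R.Int i 0 := fun j => by
  rw [← coefYₗ_apply, map_zero]; exact S₀.int_zero i

theorem red_zero (i : Fin 2) : R.red i 0 = 0 := by
  refine Finset.sum_eq_zero fun j _ => ?_
  rw [← coefYₗ_apply, map_zero, S₀.red_zero, map_zero, zero_mul]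

theorem int_sum {J : Type*} (s : Finset J) {f : J → F} {i : Fin 2}
    (hf : ∀ j ∈ s, R.Int i (f j)) :
    R.Int i (∑ j ∈ s, f j) ∧ R.red i (∑ j ∈ s, f j) = ∑ j ∈ s, R.red i (f j) := by
  classical
  induction s using Finset.induction with
  | empty => exact ⟨by simpa using R.int_zero i, by simpa using R.red_zero i⟩
  | insert j t hj ih =>
    obtain ⟨h1, h2⟩ := ih fun a ha => hf a (Finset.mem_insert_of_mem ha)
    have hj' := hf j (Finset.mem_insert_self j t)
    rw [Finset.sum_insert hj, Finset.sum_insert hj]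
    exact ⟨R.int_add i _ _ hj' h1, by rw [R.red_add i _ _ hj' h1, h2]⟩

/-- A single term `c Y ^ m`. -/
theorem int_term (i : Fin 2) {c : F₀} (hc : S₀.Int i c) (m : ℕ) :
    R.Int i (algebraMap F₀ F c * R.Y i ^ m) ∧
      R.red i (algebraMap F₀ F c * R.Y i ^ m) = algebraMap G₀ G (S₀.red i c) * R.h i ^ m := by
  classical
  have hd := R.KF.d_pos
  set j : Fin d := ⟨m % d, Nat.mod_lt m hd⟩ with hj
  have hB : S₀.Int i (R.B i ^ (m / d)) := S₀.int_pow (R.int_b i) _
  have hm : algebraMap F₀ F c * R.Y i ^ m =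
      algebraMap F₀ F (c * R.B i ^ (m / d)) * R.Y i ^ (j : ℕ) := by
    rw [map_mul, map_pow, ← R.Y_pow, ← pow_mul, mul_assoc, ← pow_add]
    simp only [hj, Nat.div_add_mod]
  have hh : algebraMap G₀ G (S₀.red i c) * R.h i ^ m =
      algebraMap G₀ G (S₀.red i (c * R.B i ^ (m / d))) * R.h i ^ (j : ℕ) := by
    rw [S₀.red_mul i _ _ hc hB, S₀.red_pow (i := i) (f := R.B i) (R.int_b i), map_mul, map_pow,
      ← R.h_pow, ← pow_mul, mul_assoc, ← pow_add]
    simp only [hj, Nat.div_add_mod]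
  rw [hm, hh]
  refine ⟨fun l => ?_, ?_⟩
  · rw [R.coefY_term]
    dsimp only
    split_ifs
    · exact S₀.int_mul i _ _ hc hB
    · exact S₀.int_zero i
  · rw [red, R.coefY_term]
    rw [Finset.sum_eq_single j]
    · simp
    · intro l _ hl; simp [hl, S₀.red_zero]
    · simp

theorem int_algebraMap {i : Fin 2} {c : F₀} (hc : S₀.Int i c) :
    R.Int i (algebraMap F₀ F c) ∧ R.red i (algebraMap F₀ F c) = algebraMap G₀ G (S₀.red i c) := by
  simpa using R.int_term i hc 0

theorem int_one (i : Fin 2) : R.Int i 1 := by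
  simpa using (R.int_algebraMap (S₀.int_one i)).1

theorem red_one (i : Fin 2) : R.red i 1 = 1 := by
  simpa [S₀.red_one] using (R.int_algebraMap (S₀.int_one i)).2

theorem int_mul_aux (i : Fin 2) (f g : F) (hf : R.Int i f) (hg : R.Int i g) :
    R.Int i (f * g) ∧ R.red i (f * g) = R.red i f * R.red i g := by
  have ht : ∀ a c : Fin d,
      R.Int i (algebraMap F₀ F (R.coefY i f a * R.coefY i g c) * R.Y i ^ ((a : ℕ) + c)) ∧
      R.red i (algebraMap F₀ F (R.coefY i f a * R.coefY i g c) * R.Y i ^ ((a : ℕ) + c)) =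
        algebraMap G₀ G (S₀.red i (R.coefY i f a)) * R.h i ^ (a : ℕ) *
          (algebraMap G₀ G (S₀.red i (R.coefY i g c)) * R.h i ^ (c : ℕ)) := fun a c => by
    obtain ⟨h1, h2⟩ := R.int_term i (S₀.int_mul i _ _ (hf a) (hg c)) ((a : ℕ) + c)
    refine ⟨h1, h2.trans ?_⟩
    rw [S₀.red_mul i _ _ (hf a) (hg c), map_mul, pow_add]
    ring
  have heq : f * g = ∑ a, ∑ c,
      algebraMap F₀ F (R.coefY i f a * R.coefY i g c) * R.Y i ^ ((a : ℕ) + c) := by
    conv_lhs => rw [← R.sum_coefY i f, ← R.sum_coefY i g, Finset.sum_mul_sum]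
    exact Finset.sum_congr rfl fun a _ => Finset.sum_congr rfl fun c _ => by
      rw [map_mul, pow_add]; ring
  obtain ⟨h1, h2⟩ := R.int_sum (i := i) Finset.univ
    fun a _ => (R.int_sum (i := i) Finset.univ fun c _ => (ht a c).1).1
  rw [heq]
  refine ⟨h1, h2.trans ?_⟩
  rw [red, red, Finset.sum_mul_sum]
  exact Finset.sum_congr rfl fun a _ =>
    (R.int_sum (i := i) Finset.univ fun c _ => (ht a c).1).2.trans
      (Finset.sum_congr rfl fun c _ => (ht a c).2)

/-- The position of `h ^ j` in the basis of `G`. -/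
def pos (i : Fin 2) (j : Fin d) : Fin d :=
  ⟨R.r i * (j : ℕ) % d, Nat.mod_lt _ R.KF.d_pos⟩

theorem pos_injective (i : Fin 2) : Function.Injective (R.pos i) := fun a c hac => by
  have h1 : R.r i * (a : ℕ) ≡ R.r i * (c : ℕ) [MOD d] := congrArg Fin.val hac
  exact Fin.ext ((Nat.ModEq.cancel_left_of_coprime (Nat.Coprime.symm (R.r_coprime i)) h1).eq_of_lt_of_lt
    a.2 c.2)

theorem pos_zero (i : Fin 2) : R.pos i ⟨0, R.KF.d_pos⟩ = ⟨0, R.KF.d_pos⟩ := by simp [pos]

/-- The factor relating `h ^ j` to the basis of `G`. -/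
def unit (i : Fin 2) (j : Fin d) : G₀ := R.e i ^ (j : ℕ) * R.KG.b ^ (R.r i * (j : ℕ) / d)

theorem unit_ne (i : Fin 2) (j : Fin d) : R.unit i j ≠ 0 :=
  mul_ne_zero (pow_ne_zero _ (R.e_ne i)) (pow_ne_zero _ R.KG.b_ne)

theorem unit_zero (i : Fin 2) : R.unit i ⟨0, R.KF.d_pos⟩ = 1 := by simp [unit]

theorem h_pow_eq (i : Fin 2) (j : Fin d) :
    R.h i ^ (j : ℕ) = algebraMap G₀ G (R.unit i j) * R.KG.y ^ (R.pos i j : ℕ) := by
  rw [h, mul_pow, unit, map_mul, map_pow, map_pow, ← R.KG.pow_y, ← pow_mul, ← pow_mul, mul_assoc,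
    ← pow_add]
  simp only [pos, Nat.div_add_mod]

/-- The coordinate along `h ^ j`. -/
def hCoord (i : Fin 2) (j : Fin d) : G →ₗ[k] G₀ where
  toFun z := (R.unit i j)⁻¹ * R.KG.coef z (R.pos i j)
  map_add' z w := by rw [R.KG.coef_add, mul_add]
  map_smul' c z := by rw [R.KG.coef_smul, RingHom.id_apply, mul_smul_comm]

theorem hCoord_sum (i : Fin 2) (c : Fin d → G₀) (l : Fin d) :
    R.hCoord i l (∑ j, algebraMap G₀ G (c j) * R.h i ^ (j : ℕ)) = c l := by
  classical
  let σ : Fin d ≃ Fin d :=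
    Equiv.ofBijective _ (Finite.injective_iff_bijective.mp (R.pos_injective i))
  have h1 : (∑ j, algebraMap G₀ G (c j) * R.h i ^ (j : ℕ)) =
      ∑ m, algebraMap G₀ G (c (σ.symm m) * R.unit i (σ.symm m)) * R.KG.y ^ (m : ℕ) := by
    refine Fintype.sum_equiv σ _ _ fun j => ?_
    rw [Equiv.symm_apply_apply, h_pow_eq, map_mul, mul_assoc]
    rfl
  show (R.unit i l)⁻¹ * R.KG.coef _ (R.pos i l) = c l
  rw [h1, R.KG.coef_sum, show R.pos i l = σ l from rfl, Equiv.symm_apply_apply, mul_comm (c l),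
    ← mul_assoc, inv_mul_cancel₀ (R.unit_ne i l), one_mul]

theorem hCoord_red (i : Fin 2) (f : F) (j : Fin d) :
    R.hCoord i j (R.red i f) = S₀.red i (R.coefY i f j) := R.hCoord_sum i _ j

/-- The coordinate along `1` commutes with reduction. -/
theorem coef_red_zero (i : Fin 2) (f : F) :
    R.KG.coef (R.red i f) ⟨0, R.KG.d_pos⟩ = S₀.red i (R.KF.coef f ⟨0, R.KF.d_pos⟩) := by
  have h1 := R.hCoord_red i f ⟨0, R.KF.d_pos⟩
  simpa [hCoord, coefY, R.unit_zero, R.pos_zero] using h1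

theorem normalise (i : Fin 2) (f : F) (hf : f ≠ 0) :
    ∃ c : L, R.Int i (c • f) ∧ R.red i (c • f) ≠ 0 := by
  classical
  let s : Finset (Fin d) := Finset.univ.filter fun j => R.coefY i f j ≠ 0
  have hs : s.Nonempty := by
    rw [Finset.filter_nonempty_iff]
    by_contra! h0
    exact hf (by rw [← R.sum_coefY i f]; exact Finset.sum_eq_zero fun j hj => by rw [h0 j hj]; simp)
  choose c hc hcr using fun (j : {j // j ∈ s}) =>
    S₀.normalise i (R.coefY i f j) (Finset.mem_filter.mp j.2).2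
  have hc0 : ∀ j, c j ≠ 0 := fun j h0 => hcr j (by rw [h0, zero_smul, S₀.red_zero])
  have : Nonempty {j // j ∈ s} := hs.to_subtype
  obtain ⟨j0, -, hmin⟩ := exists_forall_div_mem (A := A) Finset.univ Finset.univ_nonempty c
    fun j _ => hc0 j
  have hint : R.Int i (c j0 • f) := fun j => by
    rw [R.coefY_smul]
    by_cases hj : j ∈ s
    · have := S₀.int_smul i _ _ (hmin ⟨j, hj⟩ (Finset.mem_univ _)) (hc ⟨j, hj⟩)
      rwa [smul_smul, div_mul_cancel₀ _ (hc0 _)] at this
    · rw [show R.coefY i f j = 0 by simpa [s] using hj, smul_zero]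
      exact S₀.int_zero i
  refine ⟨c j0, hint, fun h0 => hcr j0 ?_⟩
  have h1 := R.hCoord_red i (c j0 • f) j0
  rwa [h0, map_zero, R.coefY_smul, eq_comm] at h1

/-- Both reductions at once. -/
def red2 (f : F) : Fin 2 → G := fun i => R.red i f

theorem exists_pivot (i : Fin 2) (V : Submodule L F) [FiniteDimensional L V] (y : F)
    (hy : R.Int i y) (hy0 : R.red i y ≠ 0) :
    ∃ (φ : F →ₗ[L] L) (ψ : (Fin 2 → G) →ₗ[k] k),
      (∀ g ∈ V, (∀ l, R.Int l g) → ∃ h : φ g ∈ A, π ⟨φ g, h⟩ = ψ (R.red2 g)) ∧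
        ψ (R.red2 y) ≠ 0 := by
  obtain ⟨j, hj⟩ : ∃ j, S₀.red i (R.coefY i y j) ≠ 0 := by
    by_contra! hall
    exact hy0 (Finset.sum_eq_zero fun j _ => by rw [hall j, map_zero, zero_mul])
  obtain ⟨φ, ψ, hφ, hψ⟩ := R.pivot i (V.map (R.coefYₗ i j)) inferInstance _ (hy j) hj
  refine ⟨φ.comp (R.coefYₗ i j), ψ.comp ((R.hCoord i j).comp (LinearMap.proj i)),
    fun g hgV hg => ?_, ?_⟩
  · obtain ⟨h, he⟩ := hφ _ ⟨g, hgV, rfl⟩ (hg i j)
    exact ⟨h, he.trans (by simp [red2, R.hCoord_red])⟩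
  · simpa [red2, R.hCoord_red] using hψ

theorem reduced_basis (r : ℕ) : ∀ V : Submodule L F, FiniteDimensional L V →
    Module.finrank L V = r → ∃ e : Fin r → F, Submodule.span L (Set.range e) = V ∧
      (∀ j i, R.Int i (e j)) ∧ LinearIndependent k fun j i => R.red i (e j) := by
  induction r with
  | zero =>
    intro V _ hV
    refine ⟨Fin.elim0, ?_, fun j => j.elim0, linearIndependent_empty_type⟩
    rw [Submodule.finrank_eq_zero.mp hV, Set.range_eq_empty, Submodule.span_empty]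
  | succ r ih =>
    intro V hfd hV
    obtain ⟨x, hxV, hx⟩ := Submodule.exists_mem_ne_zero_of_ne_bot
      (p := V) (fun h => by rw [h] at hV; simp at hV)
    choose a ha har using fun i => R.normalise i x hx
    have ha0 : ∀ i, a i ≠ 0 := fun i h0 => har i (by rw [h0, zero_smul, R.red_zero])
    obtain ⟨i, -, hmin⟩ := exists_forall_div_mem (A := A) Finset.univ Finset.univ_nonempty a
      fun j _ => ha0 j
    set y := a i • x with hy
    have hyV : y ∈ V := V.smul_mem _ hxV
    have hyi : ∀ l, R.Int l y := fun l => by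
      have := R.int_smul l _ _ (hmin l (Finset.mem_univ _)) (ha l)
      rwa [smul_smul, div_mul_cancel₀ _ (ha0 l)] at this
    obtain ⟨φ, ψ, hφ, hψ⟩ := R.exists_pivot i V y (ha i) (har i)
    have hφy : φ y ≠ 0 := fun h0 => hψ (by
      obtain ⟨h, he⟩ := hφ y hyV hyi
      rw [← he, show (⟨φ y, h⟩ : A) = 0 from Subtype.ext h0, map_zero])
    have hker : Module.finrank L (V ⊓ LinearMap.ker φ : Submodule L F) = r := by
      have h1 := LinearMap.finrank_range_add_finrank_ker (φ.domRestrict V)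
      have h2 : LinearMap.range (φ.domRestrict V) = ⊤ := by
        refine eq_top_iff.mpr fun z _ => ⟨(z / φ y) • ⟨y, hyV⟩, ?_⟩
        simp [div_mul_cancel₀ _ hφy]
      have h3 : Module.finrank L (LinearMap.ker (φ.domRestrict V)) =
          Module.finrank L (V ⊓ LinearMap.ker φ : Submodule L F) := by
        rw [LinearMap.ker_domRestrict]
        exact LinearEquiv.finrank_eq
          ((Submodule.comapSubtypeEquivOfLe (inf_le_left : V ⊓ LinearMap.ker φ ≤ V)).symm.trans
            (LinearEquiv.ofEq _ _ (by rw [Submodule.comap_inf, Submodule.comap_subtype_self,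
              top_inf_eq]))).symm
      rw [h2, finrank_top, Module.finrank_self, h3, hV] at h1
      omega
    obtain ⟨e, hespan, heint, heli⟩ := ih _ (Submodule.finiteDimensional_inf_left V _) hker
    have heV : ∀ j, e j ∈ V ⊓ LinearMap.ker φ := fun j =>
      hespan ▸ Submodule.subset_span ⟨j, rfl⟩
    refine ⟨Fin.cons y e, le_antisymm ?_ ?_, Fin.cases hyi heint, ?_⟩
    · rw [Submodule.span_le]
      rintro _ ⟨j, rfl⟩
      induction j using Fin.cases with
      | zero => exact hyV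
      | succ j => exact (Submodule.mem_inf.mp (heV j)).1
    · intro z hz
      have hz' : z - (φ z / φ y) • y ∈ V ⊓ LinearMap.ker φ :=
        ⟨V.sub_mem hz (V.smul_mem _ hyV), by simp [div_mul_cancel₀ _ hφy]⟩
      rw [← hespan] at hz'
      rw [← sub_add_cancel z ((φ z / φ y) • y)]
      refine add_mem (Submodule.span_mono ?_ hz')
        (Submodule.smul_mem _ _ (Submodule.subset_span ⟨0, rfl⟩))
      rintro _ ⟨j, rfl⟩
      exact ⟨j.succ, by simp⟩
    · have hcons : (fun j i => R.red i (Fin.cons (α := fun _ => F) y e j)) =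
          Fin.cons (α := fun _ => Fin 2 → G) (R.red2 y) (fun j => R.red2 (e j)) :=
        funext (Fin.cases rfl fun _ => rfl)
      rw [hcons]
      refine heli.finCons fun hmem => hψ ?_
      have h2 : ∀ j, ψ (R.red2 (e j)) = 0 := fun j => by
        obtain ⟨h, he⟩ := hφ _ (Submodule.mem_inf.mp (heV j)).1 (heint j)
        rw [← he, show (⟨φ (e j), h⟩ : A) = 0 from Subtype.ext (Submodule.mem_inf.mp (heV j)).2,
          map_zero]
      have : Submodule.span k (Set.range fun j => R.red2 (e j)) ≤ LinearMap.ker ψ := by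
        rw [Submodule.span_le]
        rintro _ ⟨j, rfl⟩
        exact h2 j
      exact this hmem

end KummerRed

end Fermat.Agent.XHLite

end
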