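import Fermat.Agent.SemistableRed.Gluing

/-!
# A weakened split semistable model

The core of `Fermat.Agent.SemistableRed` re-based on a structure in which the glued pairs are part
of the data; this form passes to cyclic covers branched only at the glued pairs.
-/

set_option autoImplicit false
set_option linter.unusedSectionVars false

noncomputable section

open AlgebraicCurve Fermat.Agent.FunctionFieldRR Fermat.Agent.SemistableRed

namespace Fermat.Agent.XHLite

/-- A weakened split model: two reductions `red i`, a pole divisor `H` reducing to `C` on both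
components, Riemann–Roch data, and a set of glued pairs of affine places which is at least as
large as the codimension of the reductions. -/
structure GlueModel {L : Type*} [Field L] (A : ValuationSubring L) {k : Type*} [Field k]
    [IsAlgClosed k] (π : A →+* k) (F : Type*) [Field F] [Algebra L F] (G : Type*) [Field G]
    [Algebra k G] [IsFunctionField k G] where
  Int : Fin 2 → F → Prop
  red : Fin 2 → F → G
  int_one : ∀ i, Int i 1
  red_one : ∀ i, red i 1 = 1
  int_add : ∀ i f g, Int i f → Int i g → Int i (f + g)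
  red_add : ∀ i f g, Int i f → Int i g → red i (f + g) = red i f + red i g
  int_mul : ∀ i f g, Int i f → Int i g → Int i (f * g)
  red_mul : ∀ i f g, Int i f → Int i g → red i (f * g) = red i f * red i g
  int_smul : ∀ i (c : L) f, c ∈ A → Int i f → Int i (c • f)
  red_smul : ∀ i (c : L) f (hc : c ∈ A), Int i f → red i (c • f) = π ⟨c, hc⟩ • red i f
  isResidueMap : IsResidueMap A π
  residue_surjective : Function.Surjective π
  rankOne : ∀ x : L, x ≠ 0 → ∀ y : A, π y = 0 → ∃ m : ℕ, (y : L) ^ m / x ∈ A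
  normalise : ∀ i f, f ≠ 0 → ∃ c : L, Int i (c • f) ∧ red i (c • f) ≠ 0
  reduced_basis : ∀ (r : ℕ) (V : Submodule L F), FiniteDimensional L V →
    Module.finrank L V = r → ∃ e : Fin r → F, Submodule.span L (Set.range e) = V ∧
      (∀ j i, Int i (e j)) ∧ LinearIndependent k fun j i => red i (e j)
  /-- poles of the affine part -/
  H : Divisor L F
  H_nonneg : ∀ P, 0 ≤ H P
  /-- their reduction on each component -/
  C : Divisor k G
  C_nonneg : ∀ P, 0 ≤ C P
  degree_H : Divisor.degree H = 2 * Divisor.degree C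
  degree_C_pos : 0 < Divisor.degree C
  T : F
  Tbar : G
  T_ne : T ≠ 0
  Tbar_ne : Tbar ≠ 0
  int_T : ∀ i, Int i T
  red_T : ∀ i, red i T = Tbar
  ord_T : ∀ P, 0 < H P → P.ord T = -H P
  ord_T_nonneg : ∀ P, H P = 0 → 0 ≤ P.ord T
  ord_Tbar : ∀ P, 0 < C P → P.ord Tbar = -C P
  ord_Tbar_nonneg : ∀ P, C P = 0 → 0 ≤ P.ord Tbar
  bound : ∀ (m : ℕ) (f : F), (∀ i, Int i f) → f ∈ riemannRochSpace ((m : ℤ) • H) →
    ∀ i, red i f ∈ riemannRochSpace ((m : ℤ) • C)
  gF : ℤ
  gG : ℤ
  rrBound : ℤ
  rrF : ∀ D : Divisor L F, rrBound ≤ Divisor.degree D →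
    (Module.finrank L (riemannRochSpace D) : ℤ) = Divisor.degree D + 1 - gF
  rrG : ∀ D : Divisor k G, rrBound ≤ Divisor.degree D →
    (Module.finrank k (riemannRochSpace D) : ℤ) = Divisor.degree D + 1 - gG
  /-- a scalar in the maximal ideal -/
  exists_small : ∃ b : A, (b : L) ≠ 0 ∧ π b = 0
  /-- the glued pairs (component `0`, component `1`) -/
  pairs : Finset (Place k G × Place k G)
  pairs_affine : ∀ x ∈ pairs, C x.1 = 0 ∧ C x.2 = 0
  pairs_inj_left : ∀ x ∈ pairs, ∀ y ∈ pairs, x.1 = y.1 → x = y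
  pairs_inj_right : ∀ x ∈ pairs, ∀ y ∈ pairs, x.2 = y.2 → x = y
  pairs_glue : ∀ (m : ℕ) (f : F), (∀ i, Int i f) → f ∈ riemannRochSpace ((m : ℤ) • H) →
    ∀ x ∈ pairs, residueConst x.1 (red 0 f) = residueConst x.2 (red 1 f)
  count : gF + 1 - 2 * gG ≤ (pairs.card : ℤ)

namespace GlueModel

variable {L : Type*} [Field L] {A : ValuationSubring L} {k : Type*} [Field k] [IsAlgClosed k]
  {π : A →+* k} {F : Type*} [Field F] [Algebra L F] {G : Type*} [Field G] [Algebra k G]
  [IsFunctionField k G]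
variable (S : GlueModel A π F G)

/-- Integral on both components. -/
def Int2 (f : F) : Prop := ∀ i, S.Int i f

/-- The pair of reductions. -/
def red2 (f : F) : Fin 2 → G := fun i => S.red i f

theorem int_zero (i : Fin 2) : S.Int i (0 : F) := by
  simpa using S.int_smul i 0 1 A.zero_mem (S.int_one i)

theorem red_zero (i : Fin 2) : S.red i (0 : F) = 0 := by
  have h := S.red_smul i 0 1 A.zero_mem (S.int_one i)
  rw [zero_smul, show (⟨0, A.zero_mem⟩ : A) = 0 from rfl, map_zero, zero_smul] at h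
  exact h

theorem int_neg {i : Fin 2} {f : F} (hf : S.Int i f) : S.Int i (-f) := by
  simpa using S.int_smul i (-1) f (A.neg_mem _ A.one_mem) hf

theorem red_neg {i : Fin 2} {f : F} (hf : S.Int i f) : S.red i (-f) = -S.red i f := by
  have h := S.red_add i f (-f) hf (S.int_neg hf)
  rw [add_neg_cancel, S.red_zero] at h
  exact eq_neg_of_add_eq_zero_right h.symm

theorem int_sub {i : Fin 2} {f g : F} (hf : S.Int i f) (hg : S.Int i g) : S.Int i (f - g) := by
  rw [sub_eq_add_neg]; exact S.int_add i f _ hf (S.int_neg hg)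

theorem red_sub {i : Fin 2} {f g : F} (hf : S.Int i f) (hg : S.Int i g) :
    S.red i (f - g) = S.red i f - S.red i g := by
  rw [sub_eq_add_neg, S.red_add i f _ hf (S.int_neg hg), S.red_neg hg, sub_eq_add_neg]

theorem int_sum {J : Type*} (s : Finset J) {f : J → F} {i : Fin 2}
    (hf : ∀ j ∈ s, S.Int i (f j)) :
    S.Int i (∑ j ∈ s, f j) ∧ S.red i (∑ j ∈ s, f j) = ∑ j ∈ s, S.red i (f j) := by
  classical
  induction s using Finset.induction with
  | empty => exact ⟨by simpa using S.int_zero i, by simpa using S.red_zero i⟩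
  | insert j t hj ih =>
    obtain ⟨h1, h2⟩ := ih fun a ha => hf a (Finset.mem_insert_of_mem ha)
    have hj' := hf j (Finset.mem_insert_self j t)
    rw [Finset.sum_insert hj, Finset.sum_insert hj]
    exact ⟨S.int_add i _ _ hj' h1, by rw [S.red_add i _ _ hj' h1, h2]⟩

theorem int_pow {i : Fin 2} {f : F} (hf : S.Int i f) (m : ℕ) : S.Int i (f ^ m) := by
  induction m with
  | zero => simpa using S.int_one i
  | succ m ih => rw [pow_succ]; exact S.int_mul i _ _ ih hf

theorem red_pow {i : Fin 2} {f : F} (hf : S.Int i f) (m : ℕ) :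
    S.red i (f ^ m) = S.red i f ^ m := by
  induction m with
  | zero => simpa using S.red_one i
  | succ m ih => rw [pow_succ, S.red_mul i _ _ (S.int_pow hf m) hf, ih, pow_succ]

theorem ne_zero_of_red_ne {i : Fin 2} {f : F} (h : S.red i f ≠ 0) : f ≠ 0 :=
  fun h0 => h (by rw [h0, S.red_zero])

theorem smul_mem_zero {i : Fin 2} {f : F} {c : L} (hc : c ∈ A) (hc0 : π ⟨c, hc⟩ = 0)
    (hf : S.Int i f) : S.red i (c • f) = 0 := by
  rw [S.red_smul i c f hc hf, hc0, zero_smul]

/-- If integral elements have independent reductions, an integral combination of them has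
integral coefficients. -/
theorem coeff_mem {J : Type*} [Fintype J] {e : J → F} (he : ∀ j, S.Int2 (e j))
    (hind : LinearIndependent k fun j => S.red2 (e j)) {c : J → L}
    (hint : S.Int2 (∑ j, c j • e j)) : ∀ j, c j ∈ A := by
  classical
  by_contra hne
  push Not at hne
  obtain ⟨j0, hj0⟩ := hne
  let s : Finset J := Finset.univ.filter fun j => c j ≠ 0
  have hs : s.Nonempty := ⟨j0, by simp [s]; exact fun h => hj0 (h ▸ A.zero_mem)⟩
  obtain ⟨i0, hi0, hmin⟩ := exists_forall_div_mem (A := A) s hs (fun j => (c j)⁻¹)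
    fun j hj => inv_ne_zero (Finset.mem_filter.mp hj).2
  have hci : c i0 ≠ 0 := (Finset.mem_filter.mp hi0).2
  have hall : ∀ j, c j / c i0 ∈ A := fun j => by
    by_cases hj : c j = 0
    · rw [hj, zero_div]; exact A.zero_mem
    · have := hmin j (by simp [s, hj])
      rwa [inv_div_inv] at this
  have hciA : c i0 ∉ A := fun h => hj0 (by
    rw [← div_mul_cancel₀ (c j0) hci]; exact A.mul_mem _ _ (hall j0) h)
  have ha : (c i0)⁻¹ ∈ A := (A.mem_or_inv_mem _).resolve_left hciA
  have ha0 : π ⟨_, ha⟩ = 0 := (S.isResidueMap _).mpr fun hu => hciA (by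
    obtain ⟨u, hu⟩ := hu
    have h1 : (c i0)⁻¹ * ((↑u⁻¹ : A) : L) = 1 := by
      rw [← show ((u : A) : L) = (c i0)⁻¹ from congrArg Subtype.val hu]
      exact congrArg Subtype.val u.mul_inv
    have h2 := eq_inv_of_mul_eq_one_right h1
    rw [inv_inv] at h2
    rw [← h2]
    exact SetLike.coe_mem _)
  have hsum : ∀ i, ∑ j, π ⟨_, hall j⟩ • S.red i (e j) = 0 := fun i => by
    have h1 := S.smul_mem_zero ha ha0 (hint i)
    rw [Finset.smul_sum] at h1
    simp only [smul_smul, ← div_eq_inv_mul] at h1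
    rw [(S.int_sum Finset.univ fun j _ => S.int_smul i _ _ (hall j) (he j i)).2] at h1
    rw [← h1]
    exact Finset.sum_congr rfl fun j _ => (S.red_smul i _ _ (hall j) (he j i)).symm
  have h0 := Fintype.linearIndependent_iff.mp hind (fun j => π ⟨_, hall j⟩) (funext fun i => by
    simpa [Finset.sum_apply, red2] using hsum i) i0
  simp only [div_self hci] at h0
  exact one_ne_zero ((map_one π).symm.trans h0)

/-- A representative `u ≡ 1` of an `n`-torsion class. -/
structure Rep (n : ℕ) where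
  u : F
  D : Divisor L F
  u_ne : u ≠ 0
  ord_u : ∀ P, P.ord u = (n : ℤ) * D P
  degree_D : Divisor.degree D = 0
  int : S.Int2 u
  red_u : ∀ i, S.red i u = 1

/-- The trivial representative. -/
def Rep.one (n : ℕ) : S.Rep n where
  u := 1
  D := 0
  u_ne := one_ne_zero
  ord_u P := by simp
  degree_D := map_zero _
  int := S.int_one
  red_u := S.red_one

variable {S}

/-- The product of two representatives. -/
def Rep.mul {n : ℕ} (R R' : S.Rep n) : S.Rep n where
  u := R.u * R'.u
  D := R.D + R'.D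
  u_ne := mul_ne_zero R.u_ne R'.u_ne
  ord_u P := by rw [P.ord_mul R.u_ne R'.u_ne, R.ord_u, R'.ord_u, Finsupp.add_apply]; ring
  degree_D := by rw [map_add, R.degree_D, R'.degree_D, add_zero]
  int i := S.int_mul i _ _ (R.int i) (R'.int i)
  red_u i := by rw [S.red_mul i _ _ (R.int i) (R'.int i), R.red_u, R'.red_u, mul_one]

variable (S)

/-- `L(D + mH)`. -/
def twist {n : ℕ} (R : S.Rep n) (m : ℕ) : Submodule L F :=
  riemannRochSpace (R.D + (m : ℤ) • S.H)

theorem twist_mono {n : ℕ} (R : S.Rep n) {m m' : ℕ} (h : m ≤ m') :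
    S.twist R m ≤ S.twist R m' := rrs_mono fun P => by
  simp only [Finsupp.add_apply, Finsupp.smul_apply, smul_eq_mul]
  have := S.H_nonneg P
  have : (m : ℤ) * S.H P ≤ (m' : ℤ) * S.H P :=
    mul_le_mul_of_nonneg_right (by exact_mod_cast h) this
  linarith

theorem mul_mem_twist {n : ℕ} {R R' : S.Rep n} {m m' : ℕ} {f g : F} (hf : f ∈ S.twist R m)
    (hg : g ∈ S.twist R' m') : f * g ∈ S.twist (R.mul R') (m + m') := by
  have := mul_mem_rrs hf hg
  rwa [show R.D + (m : ℤ) • S.H + (R'.D + (m' : ℤ) • S.H) =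
    (R.mul R').D + ((m + m' : ℕ) : ℤ) • S.H by
      show _ = R.D + R'.D + _
      push_cast; rw [add_smul]; abel] at this

/-- Pairs of functions with poles bounded by `mC`. -/
def pairSpace (m : ℕ) : Submodule k (Fin 2 → G) :=
  Submodule.pi Set.univ fun _ => riemannRochSpace ((m : ℤ) • S.C)

theorem mem_pairSpace {m : ℕ} {z : Fin 2 → G} :
    z ∈ S.pairSpace m ↔ ∀ i, z i ∈ riemannRochSpace ((m : ℤ) • S.C) := by
  simp [pairSpace]

theorem pairSpace_mono {m m' : ℕ} (h : m ≤ m') : S.pairSpace m ≤ S.pairSpace m' := fun z hz => by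
  rw [mem_pairSpace] at hz ⊢
  refine fun i => rrs_mono (fun P => ?_) (hz i)
  simp only [Finsupp.smul_apply, smul_eq_mul]
  exact mul_le_mul_of_nonneg_right (by exact_mod_cast h) (S.C_nonneg P)

/-- Reductions of the integral elements of a space. -/
def imgSpace (V : Submodule L F) : Submodule k (Fin 2 → G) where
  carrier := {z | ∃ f ∈ V, S.Int2 f ∧ S.red2 f = z}
  zero_mem' := ⟨0, V.zero_mem, S.int_zero, funext S.red_zero⟩
  add_mem' := by
    rintro _ _ ⟨f, hf, hfi, rfl⟩ ⟨g, hg, hgi, rfl⟩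
    exact ⟨f + g, V.add_mem hf hg, fun i => S.int_add i f g (hfi i) (hgi i),
      funext fun i => S.red_add i f g (hfi i) (hgi i)⟩
  smul_mem' := by
    rintro c _ ⟨f, hf, hfi, rfl⟩
    obtain ⟨a, rfl⟩ := S.residue_surjective c
    exact ⟨(a : L) • f, V.smul_mem _ hf, fun i => S.int_smul i _ f a.2 (hfi i),
      funext fun i => S.red_smul i _ f a.2 (hfi i)⟩

theorem imgSpace_mono {V W : Submodule L F} (h : V ≤ W) : S.imgSpace V ≤ S.imgSpace W := by
  rintro _ ⟨f, hf, hfi, rfl⟩
  exact ⟨f, h hf, hfi, rfl⟩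

theorem finrank_imgSpace (V : Submodule L F) [FiniteDimensional L V] :
    FiniteDimensional k (S.imgSpace V) ∧
      Module.finrank k (S.imgSpace V) = Module.finrank L V := by
  classical
  obtain ⟨e, hspan, hint, hind⟩ := S.reduced_basis _ V inferInstance rfl
  have heq : S.imgSpace V = Submodule.span k (Set.range fun j => S.red2 (e j)) := by
    refine le_antisymm ?_ (Submodule.span_le.mpr ?_)
    · rintro _ ⟨f, hf, hfi, rfl⟩
      rw [← hspan, Submodule.mem_span_range_iff_exists_fun] at hf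
      obtain ⟨c, rfl⟩ := hf
      have hc := S.coeff_mem hint hind hfi
      have h1 : S.red2 (∑ j, c j • e j) = ∑ j, π ⟨_, hc j⟩ • S.red2 (e j) := funext fun i => by
        rw [Finset.sum_apply]
        show S.red i _ = _
        rw [(S.int_sum Finset.univ fun j _ => S.int_smul i _ _ (hc j) (hint j i)).2]
        exact Finset.sum_congr rfl fun j _ => S.red_smul i _ _ (hc j) (hint j i)
      rw [h1]
      exact Submodule.sum_mem _ fun j _ => Submodule.smul_mem _ _ (Submodule.subset_span ⟨j, rfl⟩)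
    · rintro _ ⟨j, rfl⟩
      exact ⟨e j, hspan ▸ Submodule.subset_span ⟨j, rfl⟩, hint j, rfl⟩
  rw [heq]
  refine ⟨FiniteDimensional.span_of_finite k (Set.finite_range _), ?_⟩
  change Module.finrank k (Submodule.span k (Set.range fun j i => S.red i (e j))) = _
  rw [finrank_span_eq_card hind, Fintype.card_fin]

theorem imgSpace_twist_le {n : ℕ} (hn : n ≠ 0) (R : S.Rep n) (m : ℕ) :
    S.imgSpace (S.twist R m) ≤ S.pairSpace m := by
  rintro _ ⟨f, hf, hfi, rfl⟩
  rw [mem_pairSpace]
  intro i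
  rcases eq_or_ne f 0 with rfl | hf0
  · show S.red i 0 ∈ _
    rw [S.red_zero]; exact Submodule.zero_mem _
  have hmem : f ^ n * R.u ∈ riemannRochSpace (((n * m : ℕ) : ℤ) • S.H) := by
    rw [mem_rrs_iff]
    refine Or.inr fun P => ?_
    rw [P.ord_mul (pow_ne_zero _ hf0) R.u_ne, ord_pow, R.ord_u]
    have h := (mem_rrs_iff.mp hf).resolve_left hf0 P
    simp only [Finsupp.add_apply, Finsupp.smul_apply, smul_eq_mul] at h ⊢
    push_cast
    nlinarith
  have h := S.bound _ _ (fun j => S.int_mul j _ _ (S.int_pow (hfi j) n) (R.int j)) hmem i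
  rw [S.red_mul i _ _ (S.int_pow (hfi i) n) (R.int i), S.red_pow (hfi i), R.red_u, mul_one] at h
  show S.red i f ∈ _
  rcases eq_or_ne (S.red i f) 0 with h0 | h0
  · rw [h0]; exact Submodule.zero_mem _
  refine mem_rrs_iff.mpr (Or.inr fun P => ?_)
  have h' := (mem_rrs_iff.mp h).resolve_left (pow_ne_zero _ h0) P
  rw [ord_pow] at h'
  simp only [Finsupp.smul_apply, smul_eq_mul] at h' ⊢
  push_cast at h'
  have hn' : (0 : ℤ) < n := by exact_mod_cast Nat.pos_of_ne_zero hn
  nlinarith

/-- A level from which all the Riemann–Roch equalities hold. -/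
def baseLevel : ℕ :=
  (S.rrBound.natAbs + S.gF.natAbs + S.gG.natAbs + 1)

theorem degree_twist {n : ℕ} (R : S.Rep n) (m : ℕ) :
    Divisor.degree (R.D + (m : ℤ) • S.H) = 2 * (m : ℤ) * Divisor.degree S.C := by
  rw [map_add, R.degree_D, map_zsmul, S.degree_H, smul_eq_mul]; ring

theorem finrank_twist {n : ℕ} (R : S.Rep n) {m : ℕ} (hm : S.baseLevel ≤ m) :
    FiniteDimensional L (S.twist R m) ∧
      (Module.finrank L (S.twist R m) : ℤ) = 2 * (m : ℤ) * Divisor.degree S.C + 1 - S.gF := by
  have hC := S.degree_C_pos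
  have hd := S.degree_twist R m
  have hm' : (S.baseLevel : ℤ) ≤ m := by exact_mod_cast hm
  have hb : (S.baseLevel : ℤ) = |S.rrBound| + |S.gF| + |S.gG| + 1 := by
    simp [baseLevel]
  have hmC : (m : ℤ) ≤ (m : ℤ) * Divisor.degree S.C := by nlinarith
  have h := S.rrF (R.D + (m : ℤ) • S.H) (by
    rw [hd]; have := le_abs_self S.rrBound; nlinarith [abs_nonneg S.gF, abs_nonneg S.gG])
  rw [hd] at h
  refine ⟨Module.finite_of_finrank_pos ?_, h⟩
  show 0 < Module.finrank L (riemannRochSpace (R.D + (m : ℤ) • S.H))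
  have : (0 : ℤ) < 2 * (m : ℤ) * Divisor.degree S.C + 1 - S.gF := by
    nlinarith [le_abs_self S.gF, abs_nonneg S.rrBound, abs_nonneg S.gG]
  omega

theorem finrank_C {m : ℕ} (hm : S.baseLevel ≤ m) :
    FiniteDimensional k (riemannRochSpace ((m : ℤ) • S.C)) ∧
      (Module.finrank k (riemannRochSpace ((m : ℤ) • S.C)) : ℤ) =
        (m : ℤ) * Divisor.degree S.C + 1 - S.gG := by
  have hC := S.degree_C_pos
  have hd : Divisor.degree ((m : ℤ) • S.C) = (m : ℤ) * Divisor.degree S.C := by
    rw [map_zsmul, smul_eq_mul]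
  have hm' : (S.baseLevel : ℤ) ≤ m := by exact_mod_cast hm
  have hb : (S.baseLevel : ℤ) = |S.rrBound| + |S.gF| + |S.gG| + 1 := by
    simp [baseLevel]
  have hmC : (m : ℤ) ≤ (m : ℤ) * Divisor.degree S.C := by nlinarith
  have h := S.rrG ((m : ℤ) • S.C) (by
    rw [hd]; nlinarith [le_abs_self S.rrBound, abs_nonneg S.gF, abs_nonneg S.gG])
  rw [hd] at h
  refine ⟨Module.finite_of_finrank_pos ?_, h⟩
  have : (0 : ℤ) < (m : ℤ) * Divisor.degree S.C + 1 - S.gG := by
    nlinarith [le_abs_self S.gG, abs_nonneg S.rrBound, abs_nonneg S.gF]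
  omega

/-- `pairSpace` as a product. -/
def pairEquiv (m : ℕ) : S.pairSpace m ≃ₗ[k] (Fin 2 → riemannRochSpace ((m : ℤ) • S.C)) where
  toFun z i := ⟨(z : Fin 2 → G) i, S.mem_pairSpace.mp z.2 i⟩
  invFun z := ⟨fun i => (z i : G), S.mem_pairSpace.mpr fun i => (z i).2⟩
  left_inv _ := rfl
  right_inv _ := rfl
  map_add' _ _ := rfl
  map_smul' _ _ := rfl

theorem finrank_pairSpace {m : ℕ} (hm : S.baseLevel ≤ m) :
    FiniteDimensional k (S.pairSpace m) ∧
      (Module.finrank k (S.pairSpace m) : ℤ) =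
        2 * ((m : ℤ) * Divisor.degree S.C + 1 - S.gG) := by
  obtain ⟨hfd, hr⟩ := S.finrank_C hm
  refine ⟨Module.Finite.equiv (S.pairEquiv m).symm, ?_⟩
  rw [(S.pairEquiv m).finrank_eq, Module.finrank_pi_fintype]
  simp [← hr]

/-- The codimension of the reductions. -/
def delta : ℤ := S.gF + 1 - 2 * S.gG

theorem finrank_imgTwist {n : ℕ} (R : S.Rep n) {m : ℕ} (hm : S.baseLevel ≤ m) :
    FiniteDimensional k (S.imgSpace (S.twist R m)) ∧
      (Module.finrank k (S.imgSpace (S.twist R m)) : ℤ) + S.delta =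
        Module.finrank k (S.pairSpace m) := by
  obtain ⟨hfd, hr⟩ := S.finrank_twist R hm
  obtain ⟨h1, h2⟩ := S.finrank_imgSpace (S.twist R m)
  refine ⟨h1, ?_⟩
  rw [h2, hr, (S.finrank_pairSpace hm).2, delta]
  ring

end GlueModel

end Fermat.Agent.XHLite

end
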