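import Fermat.Agent.XHLite.Glue.Supersingular
import Fermat.Agent.XHLite.Glue.FromSplit
import Fermat.Agent.XHLite.Glue.GenusCount
import Fermat.Agent.SemistableRed.Components

/-!
# The model of `X₀(M q)` with its series and cusp data
-/

set_option autoImplicit false
set_option linter.unusedSectionVars false

noncomputable section

open IsLocalRing AlgebraicCurve ModularCurve Fermat.Agent.FunctionFieldRR
  Fermat.Agent.SemistableRed Fermat.Agent.Reduction
open scoped Fermat.Agent.Reduction

namespace Fermat.Agent.XHLite

local notation "Qbar" => AlgebraicClosure ℚ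

variable {A : ValuationSubring Qbar} {M q : ℕ} [NeZero M] [NeZero q] [Fact q.Prime]
  [CharP (ResidueField A) q] [IsAlgClosed (ResidueField A)]
  [IsFunctionField (ResidueField A) ↥(modularFunctionFieldFullC (ResidueField A) M)]
  (S : Setting A M q)

/-- The model of `X₀(M q)` at `q`. -/
def baseModel (S : Setting A M q) : GlueModel A (residue A) ↥(modularFunctionFieldBar (M * q))
    ↥(modularFunctionFieldFullC (ResidueField A) M) :=
  ofSplit S.splitModel

theorem expansion_eq_side (i : Fin 2) (f : ↥(modularFunctionFieldBar (M * q))) :
    expansion S.prime S.not_dvd i f = S.side i f := by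
  rcases (show i = 0 ∨ i = 1 by omega) with rfl | rfl <;> rfl

include S in
theorem isSeriesModel_baseModel : IsSeriesModel S.prime S.not_dvd (baseModel S) where
  nil := S.nilModulo'
  srep_red i f hf := by rw [expansion_eq_side S]; exact S.srep_red hf
  int_of_srep i f v h := by rw [expansion_eq_side S] at h; exact ⟨v, h⟩
  den f := by
    obtain ⟨u, hu, hb⟩ := S.exists_common_denominator f
    exact ⟨u, hu, fun i j => by rw [expansion_eq_side S]; exact hb i j⟩

include S in
/-- The genus of the special fibre is at most the genus in characteristic zero. -/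
theorem facts_choose_le : S.facts.choose ≤ (genus0 M : ℤ) := by
  have hN := S.natCast_ne_zero
  haveI := finiteDimensional_jC (ResidueField A) M hN
  haveI := isSeparable_jC (ResidueField A) M hN
  obtain ⟨c, hc⟩ := S.facts.choose_spec.genus_le
  set g' := genusC (ResidueField A) M hN with hg'
  -- compare the two Riemann-Roch equalities on a divisor of large degree
  set P := polarDivisor (K := ResidueField A) (jC (ResidueField A) M)
  have hP : (0 : ℤ) < Divisor.degree P := by
    rw [degree_polarDivisor (transcendental_jC _ M), finrank_jC _ M hN]
    exact_mod_cast dedekindPsi_pos M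
  set D := (max c (2 * (g' : ℤ)) + 1 + |max c (2 * (g' : ℤ))|) • P
  have hD : max c (2 * (g' : ℤ)) ≤ Divisor.degree D := by
    rw [map_zsmul, smul_eq_mul]
    have := le_abs_self (max c (2 * (g' : ℤ)))
    have := abs_nonneg (max c (2 * (g' : ℤ)))
    have := neg_abs_le (max c (2 * (g' : ℤ)))
    nlinarith
  have h1 := hc D (le_trans (le_max_left _ _) hD)
  have h3 : (Module.finrank (ResidueField A) (riemannRochSpace D) : ℤ) =
      Divisor.degree D + 1 - g' :=
    finrank_eq_of_degree_gt (transcendental_jC _ M)
      (show 2 * (g' : ℤ) - 2 < _ by have := le_max_right c (2 * (g' : ℤ)); omega)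
  have h4 : (g' : ℤ) ≤ genus0 M := by exact_mod_cast genusC_le_genus0 S.above hN
  omega

include S in
/-- **The cusps and the number of pairs.** -/
theorem cuspData_baseModel (h36 : 36 ∣ M) : CuspData (baseModel S) where
  H_eq P := S.polesH_apply P
  C_eq P := S.polesC_apply P
  card_pairs := by
    have h1 : (genus0 (M * q) : ℤ) + 1 - 2 * S.facts.choose ≤
        ((baseModel S).pairs.card : ℤ) := (baseModel S).count
    have h2 := facts_choose_le S
    have h3 := twelve_mul_genus0 qbarToComplex (q := q) S.prime S.not_dvd h36
    omega

end Fermat.Agent.XHLite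

end
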