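import Fermat.Agent.XHLite.Glue.CoverRelation
import Fermat.Agent.XHLite.Glue.SplitInstance
import Fermat.Agent.XHLite.Twist.Cover
import Fermat.Agent.Reduction.Igusa

/-!
# `TwistCover.Relation` from cover inputs

If over every place above `q` the element `(f * y ^ i) ^ d` of a `TwistCover` carries `CoverInputs` whose
scalar `μ` is moved by inertia through `χ ^ i ∘ κ`, the relation holds.
-/

set_option autoImplicit false
set_option linter.unusedSectionVars false

noncomputable section

open IsLocalRing AlgebraicCurve ModularCurve Fermat.Agent.FunctionFieldRR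
  Fermat.Agent.SemistableRed Fermat.Agent.Reduction Polynomial
open scoped Fermat.Agent.Reduction

namespace Fermat.Agent.XHLite

local notation "Qbar" => AlgebraicClosure ℚ

theorem place_smul_ofAlgAut {K E : Type*} [Field K] [Field E] [Algebra K E] (a : E ≃ₐ[K] E)
    (P : Place K E) : SemilinearAut.ofAlgAut a • P = a • P := by
  ext1
  rfl

theorem divisor_smul_ofAlgAut {K E : Type*} [Field K] [Field E] [Algebra K E] (a : E ≃ₐ[K] E)
    (D : Divisor K E) : SemilinearAut.ofAlgAut a • D = a • D := by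
  rw [SemilinearAut.divisor_smul_def, Divisor.smul_def]
  simp only [place_smul_ofAlgAut]

namespace TwistCover

variable {N q : ℕ} [NeZero N] [NeZero q] (C : TwistCover N q)

/-- The cover inputs the geometry needs from a twist cover: over each place `A` for a generator
`f * y ^ i` of the cover, as the reduction of `C.chi` is a different power of the cyclotomic
character for different `A`. -/
def HasCoverInputs (hq : q.Prime) (hqN : ¬ q ∣ N) : Prop :=
  ∀ (A : ValuationSubring Qbar) [Fact q.Prime] [IsAlgClosed (ResidueField A)]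
    [CharP (ResidueField A) q]
    [IsFunctionField (ResidueField A) ↥(modularFunctionFieldFullC (ResidueField A) N)]
    (S : Setting A N q),
    ∃ (I : CoverInputs hq hqN (baseModel S) C.d) (i : ℕ)
      (f : ↥(modularFunctionFieldBar (N * q))), i.Coprime C.d ∧
      (I.b : LaurentSeries Qbar) = ((f : LaurentSeries Qbar) * C.y ^ i) ^ C.d ∧
      (∀ σ ∈ A.inertiaSubgroupIn ℚ,
        coeffMap (σ : Qbar →+* Qbar) (f : LaurentSeries Qbar) = f) ∧
      ∀ σ ∈ A.inertiaSubgroupIn ℚ, ∀ κ : (ZMod q)ˣ,
        (∀ μ : Qbar, μ ^ q = 1 → σ μ = μ ^ (κ : ZMod q).val) →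
        ∀ c : Qbar, J0Torsion.jEmb c = C.chi κ → σ I.μ = c ^ i * I.μ

theorem adjoin_yEl [Algebra ↥(modularFunctionFieldBar (N * q)) C.field]
    (hincl : ∀ f : ↥(modularFunctionFieldBar (N * q)),
      ((algebraMap _ C.field f : C.field) : LaurentSeries Qbar) = (f : LaurentSeries Qbar)) :
    Algebra.adjoin ↥(modularFunctionFieldBar (N * q)) {C.yEl} = ⊤ := by
  set F₀ := ↥(modularFunctionFieldBar (N * q))
  haveI : IsScalarTower Qbar F₀ C.field :=
    IsScalarTower.of_algebraMap_eq fun c => Subtype.ext (by rw [hincl]; rfl)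
  have hint : IsIntegral F₀ C.yEl :=
    ⟨X ^ C.d - Polynomial.C ⟨C.y ^ C.d, C.pow_mem⟩, monic_X_pow_sub_C _ C.d_pos.ne', by
      simp only [eval₂_sub, eval₂_X_pow, eval₂_C, sub_eq_zero]
      exact Subtype.ext (by rw [SubmonoidClass.coe_pow, hincl]; rfl)⟩
  rw [← IntermediateField.adjoin_simple_toSubalgebra_of_isAlgebraic hint.isAlgebraic,
    eq_top_iff]
  intro z _
  have hle : C.field ≤
      ((IntermediateField.adjoin F₀ ({C.yEl} : Set C.field)).restrictScalars Qbar).map
        C.field.val := by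
    show IntermediateField.adjoin Qbar _ ≤ _
    rw [IntermediateField.adjoin_le_iff]
    rintro w (hw | rfl)
    · exact ⟨algebraMap F₀ C.field ⟨w, hw⟩,
        (IntermediateField.adjoin F₀ ({C.yEl} : Set C.field)).algebraMap_mem _, hincl _⟩
    · exact ⟨C.yEl, IntermediateField.mem_adjoin_simple_self F₀ C.yEl, rfl⟩
  obtain ⟨w, hw, hwz⟩ := hle z.2
  rwa [show z = w from Subtype.ext hwz.symm]

/-- **The geometry of the twist cover.** -/
theorem relation_of_inputs (hq : q.Prime) (h5 : 5 ≤ q) (h36 : 36 ∣ N) (hqN : ¬ q ∣ N)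
    (hd : C.d < q) (h : C.HasCoverInputs hq hqN) : C.Relation := by
  intro A hA σ hσ τ hτ κ hκ a m ha hm c hc hay n hn D hD hDn
  haveI : Fact q.Prime := ⟨hq⟩
  haveI := charP_residueField hA
  haveI := isAlgClosed_residueField (A := A)
  let S : Setting A N q := Setting.of_reductionFacts hqN hA (Reduction.reductionFacts hqN hA)
  haveI := S.isFunctionField_C
  obtain ⟨I, i, f, hi, hIb, hIf, hIμ⟩ := h A S
  letI : Algebra ↥(modularFunctionFieldBar (N * q)) C.field :=
    (IntermediateField.inclusion C.base_le).toRingHom.toAlgebra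
  have hincl : ∀ f : ↥(modularFunctionFieldBar (N * q)),
      ((algebraMap _ C.field f : C.field) : LaurentSeries Qbar) = (f : LaurentSeries Qbar) :=
    fun f => rfl
  haveI : IsScalarTower Qbar ↥(modularFunctionFieldBar (N * q)) C.field :=
    IsScalarTower.of_algebraMap_eq fun c => Subtype.ext rfl
  set z : C.field := algebraMap ↥(modularFunctionFieldBar (N * q)) C.field f * C.yEl ^ i with hz
  have hzc : (z : LaurentSeries Qbar) = (f : LaurentSeries Qbar) * C.y ^ i := by
    rw [hz, MulMemClass.coe_mul, SubmonoidClass.coe_pow, hincl]; rfl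
  have hy : z ^ C.d = algebraMap _ C.field I.b := Subtype.ext (by
    rw [SubmonoidClass.coe_pow, hincl, hIb, hzc])
  have hd0 : (C.d : ResidueField A) ≠ 0 := fun h0 =>
    absurd (Nat.le_of_dvd C.d_pos ((CharP.cast_eq_zero_iff (ResidueField A) q _).mp h0))
      (by omega)
  have hn0 : (n : ResidueField A) ≠ 0 := fun h0 => by
    have h1 := (CharP.cast_eq_zero_iff (ResidueField A) q _).mp h0
    have h2 : q ∣ 1 := by rw [← hn]; exact Nat.dvd_gcd h1 dvd_rfl
    exact hq.ne_one (Nat.dvd_one.mp h2)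
  have hζF : IsPrimitiveRoot (algebraMap Qbar C.field I.ζ) C.d :=
    I.isPrimitiveRoot.map_of_injective (algebraMap Qbar C.field).injective
  haveI : NeZero C.d := ⟨C.d_pos.ne'⟩
  have hodd : Odd q := hq.odd_of_ne_two (by omega)
  have hzne : z ≠ 0 := fun h0 => by
    rw [h0, zero_pow C.d_pos.ne', ← map_zero (algebraMap ↥(modularFunctionFieldBar (N * q)) C.field)] at hy
    refine I.bbar_ne (isSeriesModel_baseModel S) ?_
    rw [CoverInputs.bbar, ← (algebraMap ↥(modularFunctionFieldBar (N * q)) C.field).injective hy]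
    exact (baseModel S).red_zero 0
  have hyne : C.yEl ≠ 0 := fun h0 => C.y_ne (congrArg Subtype.val h0)
  have hf0 : algebraMap ↥(modularFunctionFieldBar (N * q)) C.field f ≠ 0 := left_ne_zero_of_mul hzne
  have htop : Algebra.adjoin ↥(modularFunctionFieldBar (N * q)) {z} = ⊤ := by
    set b0 : ↥(modularFunctionFieldBar (N * q)) := ⟨C.y ^ C.d, C.pow_mem⟩
    have hb0 : algebraMap ↥(modularFunctionFieldBar (N * q)) C.field b0 = C.yEl ^ C.d := Subtype.ext (by
      rw [SubmonoidClass.coe_pow, hincl]; rfl)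
    rcases Nat.lt_or_ge 1 C.d with h1 | h1
    swap
    · rw [eq_top_iff, ← C.adjoin_yEl hincl, Algebra.adjoin_le_iff, Set.singleton_subset_iff,
        SetLike.mem_coe, ← pow_one C.yEl, ← le_antisymm h1 C.d_pos, ← hb0]
      exact Subalgebra.algebraMap_mem _ _
    obtain ⟨i', -, hi'⟩ := Nat.exists_mul_mod_eq_one_of_coprime hi h1
    obtain ⟨t, hit⟩ : ∃ t : ℕ, i * i' = 1 + C.d * t :=
      ⟨i * i' / C.d, by have := Nat.mod_add_div (i * i') C.d; omega⟩
    have hyz : C.yEl = z ^ i' * algebraMap ↥(modularFunctionFieldBar (N * q)) C.field (f ^ i' * b0 ^ t)⁻¹ := by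
      rw [map_inv₀, map_mul, map_pow, map_pow, hb0, hz, mul_pow, ← pow_mul C.yEl i i', hit,
        pow_add, pow_one, ← pow_mul C.yEl C.d t]
      have := pow_ne_zero (C.d * t) hyne
      have := pow_ne_zero i' hf0
      field_simp
    rw [eq_top_iff, ← C.adjoin_yEl hincl, Algebra.adjoin_le_iff, Set.singleton_subset_iff,
      SetLike.mem_coe, hyz]
    exact mul_mem (_root_.pow_mem (Algebra.subset_adjoin (Set.mem_singleton z)) _)
      (Subalgebra.algebraMap_mem _ _)
  have hroot : ∀ g : C.field ≃ₐ[Qbar] C.field, C.IsOverBase g →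
      ∃ e : ℕ, g z = algebraMap Qbar C.field (I.ζ ^ e) * z := by
    intro g hg
    have h1 : (g z / z) ^ C.d = 1 := by
      rw [div_pow, ← map_pow, hg _ (by rw [hy, hincl]; exact (I.b).2),
        div_self (pow_ne_zero _ hzne)]
    obtain ⟨e, -, he⟩ := hζF.eq_pow_of_pow_eq_one h1
    exact ⟨e, by rw [map_pow, he, div_mul_cancel₀ _ hzne]⟩
  obtain ⟨m', hm'⟩ := hroot m hm
  obtain ⟨l, -, hl⟩ := I.isPrimitiveRoot.eq_pow_of_pow_eq_one (ξ := c ^ i) (by
    have hc1 : c ^ C.d = 1 := J0Torsion.jEmb.injective (by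
      rw [map_pow, map_one, hc, ← MonoidHom.pow_apply, C.chi_pow, MonoidHom.one_apply])
    rw [← pow_mul, mul_comm, pow_mul, hc1, one_pow])
  have haz : a z = algebraMap Qbar C.field (c ^ i) * z := by
    rw [hz, map_mul, map_pow, ha _ f.2, hay, Algebra.smul_def, mul_pow, map_pow]
    ring
  have hτz : τ • z = z := Subtype.ext ((hτ _).trans (by
    rw [hzc, map_mul, map_pow, hIf σ hσ, C.inertia_fix A hA σ hσ]))
  have hrel := I.relation (isSeriesModel_baseModel S) (cuspData_baseModel S h36)
    hodd S.natCast_ne_zero hd0 (y := z) hy htop hn0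
    hσ (l := l) (by rw [hl]; exact hIμ σ hσ κ hκ c hc) τ
    (fun f => Subtype.ext ((hτ _).trans rfl)) hτz
    a m m' (fun f => ha _ f.2) (by rw [haz, hl])
    (fun f => hm _ f.2) hm' hD hDn
  simp only [divisor_smul_ofAlgAut]
  exact hrel

end TwistCover

end Fermat.Agent.XHLite

end
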