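import Fermat.Agent.XHLite.Glue.Model

/-!
# Torsion classes as gluing data

For a representative `u ≡ 1` of an `n`-torsion class the reductions of `L(D + mH)` are the pairs
glued by an `n`-th root of unity at each pair, and this gluing datum is multiplicative.
-/

set_option autoImplicit false
set_option linter.unusedSectionVars false

noncomputable section

open AlgebraicCurve Fermat.Agent.FunctionFieldRR Fermat.Agent.SemistableRed

namespace Fermat.Agent.XHLite.GlueModel

variable {L : Type*} [Field L] {A : ValuationSubring L} {k : Type*} [Field k] [IsAlgClosed k]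
  {π : A →+* k} {F : Type*} [Field F] [Algebra L F] {G : Type*} [Field G] [Algebra k G]
  [IsFunctionField k G]
variable (S : GlueModel A π F G)

/-- The value of a pair of functions at a point of one of the components. -/
def ev (x : Fin 2 × Place k G) (z : Fin 2 → G) : k := residueConst x.2 (z x.1)

theorem twist_one (n m : ℕ) :
    S.twist (Rep.one S n) m = riemannRochSpace ((m : ℤ) • S.H) := by
  show riemannRochSpace ((0 : Divisor L F) + _) = _
  rw [zero_add]

/-- Pairs of reductions of functions with poles along `H`. -/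
def Reach (z : Fin 2 → G) : Prop :=
  ∃ m : ℕ, z ∈ S.imgSpace (riemannRochSpace ((m : ℤ) • S.H))

theorem Hspace_mono {m m' : ℕ} (h : m ≤ m') :
    riemannRochSpace ((m : ℤ) • S.H) ≤ riemannRochSpace ((m' : ℤ) • S.H) := by
  have := S.twist_mono (Rep.one S 1) h
  rwa [S.twist_one, S.twist_one] at this

theorem Reach.mul {z w : Fin 2 → G} (hz : S.Reach z) (hw : S.Reach w) : S.Reach (z * w) := by
  obtain ⟨m, f, hf, hfi, rfl⟩ := hz
  obtain ⟨m', g, hg, hgi, rfl⟩ := hw
  refine ⟨m + m', f * g, ?_, fun i => S.int_mul i f g (hfi i) (hgi i),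
    funext fun i => S.red_mul i f g (hfi i) (hgi i)⟩
  have := mul_mem_rrs hf hg
  rwa [← add_smul, ← Nat.cast_add] at this

theorem reach_one : S.Reach 1 :=
  ⟨0, 1, mem_rrs_iff.mpr (Or.inr fun P => by simp), S.int_one, funext S.red_one⟩

theorem Reach.pow {z : Fin 2 → G} (hz : S.Reach z) (n : ℕ) : S.Reach (z ^ n) := by
  induction n with
  | zero => simpa using S.reach_one
  | succ n ih => rw [pow_succ]; exact ih.mul S hz

theorem Reach.mem_pairSpace {z : Fin 2 → G} (hz : S.Reach z) :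
    ∃ m, z ∈ S.pairSpace m := by
  obtain ⟨m, hm⟩ := hz
  exact ⟨m, S.imgSpace_twist_le one_ne_zero (Rep.one S 1) m (by rwa [S.twist_one])⟩

theorem regular_of_mem_pairSpace {m : ℕ} {z : Fin 2 → G} (hz : z ∈ S.pairSpace m) (i : Fin 2)
    {P : Place k G} (hP : S.C P = 0) : VanishesTo P 0 (z i) := by
  refine (mem_rrs_iff.mp ((S.mem_pairSpace.mp hz) i)).imp id fun h => ?_
  simpa [hP] using h P

theorem Reach.regular {z : Fin 2 → G} (hz : S.Reach z) (i : Fin 2) {P : Place k G}
    (hP : S.C P = 0) : VanishesTo P 0 (z i) :=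
  let ⟨_, hm⟩ := hz.mem_pairSpace S
  S.regular_of_mem_pairSpace hm i hP

theorem baseLevel_bounds (m : ℕ) (c : ℤ) (hc : 0 ≤ c) (hm : (S.baseLevel : ℤ) + c ≤ m) :
    S.rrBound + c ≤ (m : ℤ) * Divisor.degree S.C ∧
      0 < (m : ℤ) * Divisor.degree S.C - c + 1 - S.gG ∧
      0 < (m : ℤ) * Divisor.degree S.C - c + 1 - S.gF := by
  have hC := S.degree_C_pos
  have hb : (S.baseLevel : ℤ) = |S.rrBound| + |S.gF| + |S.gG| + 1 := by
    simp [baseLevel]
  have hmC : (m : ℤ) ≤ (m : ℤ) * Divisor.degree S.C := by nlinarith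
  have := le_abs_self S.rrBound
  have := le_abs_self S.gG
  have := le_abs_self S.gF
  have := abs_nonneg S.rrBound
  have := abs_nonneg S.gG
  have := abs_nonneg S.gF
  omega

/-- Functions with prescribed values at finitely many affine places. -/
theorem exists_values (s : Finset (Place k G)) (hs : ∀ P ∈ s, S.C P = 0) (m : ℕ)
    (hm : S.baseLevel + s.card ≤ m) (a : s → k) :
    ∃ z ∈ riemannRochSpace ((m : ℤ) • S.C), ∀ P : s, residueConst (P : Place k G) z = a P := by
  obtain ⟨h1, h2, -⟩ := S.baseLevel_bounds m s.card (by positivity) (by exact_mod_cast hm)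
  refine exists_prescribed_values S.rrG _ s (fun P hP => by simp [hs P hP]) ?_ ?_ a <;>
    rw [map_zsmul, smul_eq_mul] <;> omega

/-- Pairs of functions agreeing at the glued pairs. -/
def glueSpace (m : ℕ) : Submodule k (Fin 2 → G) where
  carrier := {z | z ∈ S.pairSpace m ∧ ∀ x ∈ S.pairs, ev (0, x.1) z = ev (1, x.2) z}
  zero_mem' := ⟨Submodule.zero_mem _, fun x _ => by simp [ev, residueConst_zero]⟩
  add_mem' := by
    rintro z w ⟨hz, hz'⟩ ⟨hw, hw'⟩
    refine ⟨Submodule.add_mem _ hz hw, fun x hx => ?_⟩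
    have hp := S.pairs_affine x hx
    simp only [ev, Pi.add_apply]
    rw [residueConst_add (S.regular_of_mem_pairSpace hz _ hp.1)
        (S.regular_of_mem_pairSpace hw _ hp.1),
      residueConst_add (S.regular_of_mem_pairSpace hz _ hp.2)
        (S.regular_of_mem_pairSpace hw _ hp.2)]
    exact congrArg₂ (· + ·) (hz' x hx) (hw' x hx)
  smul_mem' := by
    rintro c z ⟨hz, hz'⟩
    refine ⟨Submodule.smul_mem _ c hz, fun x hx => ?_⟩
    have hp := S.pairs_affine x hx
    simp only [ev, Pi.smul_apply]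
    rw [residueConst_smul c (S.regular_of_mem_pairSpace hz _ hp.1),
      residueConst_smul c (S.regular_of_mem_pairSpace hz _ hp.2)]
    exact congrArg (c * ·) (hz' x hx)

theorem mem_glueSpace {m : ℕ} {z : Fin 2 → G} : z ∈ S.glueSpace m ↔
    z ∈ S.pairSpace m ∧ ∀ x ∈ S.pairs, ev (0, x.1) z = ev (1, x.2) z := Iff.rfl

theorem glue_of_reach {m : ℕ} {z : Fin 2 → G} (hz : S.Reach z) (hm : z ∈ S.pairSpace m) :
    z ∈ S.glueSpace m := by
  obtain ⟨m', f, hf, hfi, rfl⟩ := hz
  exact ⟨hm, fun x hx => S.pairs_glue m' f hfi hf x hx⟩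

theorem imgSpace_le_glueSpace (m : ℕ) :
    S.imgSpace (riemannRochSpace ((m : ℤ) • S.H)) ≤ S.glueSpace m := fun _ hz =>
  S.glue_of_reach ⟨m, hz⟩ (S.imgSpace_twist_le one_ne_zero (Rep.one S 1) m (by rwa [S.twist_one]))

/-- A level from which evaluation at all glued places is surjective. -/
def evalLevel : ℕ := S.baseLevel + 2 * S.pairs.card

theorem baseLevel_le_evalLevel : S.baseLevel ≤ S.evalLevel := Nat.le_add_right _ _

/-- Prescribed values at both members of every glued pair. -/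
theorem exists_pair_values {m : ℕ} (hm : S.evalLevel ≤ m) (a b : S.pairs → k) :
    ∃ z ∈ S.pairSpace m, ∀ x : S.pairs,
      ev (0, (x : Place k G × Place k G).1) z = a x ∧
        ev (1, (x : Place k G × Place k G).2) z = b x := by
  classical
  have hcard : ∀ p : Place k G × Place k G → Place k G,
      S.baseLevel + (S.pairs.image p).card ≤ m := fun p => by
    have := Finset.card_image_le (s := S.pairs) (f := p)
    simp only [evalLevel] at hm
    omega
  obtain ⟨z0, hz0, h0⟩ := S.exists_values (S.pairs.image Prod.fst) (fun P hP => by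
      obtain ⟨x, hx, rfl⟩ := Finset.mem_image.mp hP; exact (S.pairs_affine x hx).1) m (hcard _)
    fun P => a ⟨_, (Finset.mem_image.mp P.2).choose_spec.1⟩
  obtain ⟨z1, hz1, h1⟩ := S.exists_values (S.pairs.image Prod.snd) (fun P hP => by
      obtain ⟨x, hx, rfl⟩ := Finset.mem_image.mp hP; exact (S.pairs_affine x hx).2) m (hcard _)
    fun P => b ⟨_, (Finset.mem_image.mp P.2).choose_spec.1⟩
  refine ⟨![z0, z1], S.mem_pairSpace.mpr fun i => by fin_cases i <;> [exact hz0; exact hz1],
    fun x => ⟨?_, ?_⟩⟩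
  · have hm' : (x : Place k G × Place k G).1 ∈ S.pairs.image Prod.fst :=
      Finset.mem_image_of_mem _ x.2
    have hs := (Finset.mem_image.mp hm').choose_spec
    have := h0 ⟨_, hm'⟩
    simp only [ev, Matrix.cons_val_zero]
    rw [this]
    exact congrArg a (Subtype.ext (S.pairs_inj_left _ hs.1 _ x.2 hs.2))
  · have hm' : (x : Place k G × Place k G).2 ∈ S.pairs.image Prod.snd :=
      Finset.mem_image_of_mem _ x.2
    have hs := (Finset.mem_image.mp hm').choose_spec
    have := h1 ⟨_, hm'⟩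
    simp only [ev, Matrix.cons_val_one, Matrix.cons_val_fin_one]
    rw [this]
    exact congrArg b (Subtype.ext (S.pairs_inj_right _ hs.1 _ x.2 hs.2))

/-- `z ↦ (z(P) - ζ z(Q))` over the glued pairs `(P, Q)`. -/
def diffMap (ζ : S.pairs → k) (m : ℕ) : S.pairSpace m →ₗ[k] (S.pairs → k) where
  toFun z x := ev (0, (x : Place k G × Place k G).1) (z : Fin 2 → G) -
    ζ x * ev (1, (x : Place k G × Place k G).2) (z : Fin 2 → G)
  map_add' z w := funext fun x => by
    have hp := S.pairs_affine _ x.2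
    simp only [ev, Submodule.coe_add, Pi.add_apply]
    rw [residueConst_add (S.regular_of_mem_pairSpace z.2 _ hp.1)
        (S.regular_of_mem_pairSpace w.2 _ hp.1),
      residueConst_add (S.regular_of_mem_pairSpace z.2 _ hp.2)
        (S.regular_of_mem_pairSpace w.2 _ hp.2)]
    ring
  map_smul' c z := funext fun x => by
    have hp := S.pairs_affine _ x.2
    simp only [ev, Submodule.coe_smul, Pi.smul_apply, RingHom.id_apply, smul_eq_mul]
    rw [residueConst_smul c (S.regular_of_mem_pairSpace z.2 _ hp.1),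
      residueConst_smul c (S.regular_of_mem_pairSpace z.2 _ hp.2)]
    ring

/-- Pairs glued by `ζ`. -/
def zetaSpace (ζ : S.pairs → k) (m : ℕ) : Submodule k (Fin 2 → G) :=
  (LinearMap.ker (S.diffMap ζ m)).map (S.pairSpace m).subtype

theorem mem_zetaSpace {ζ : S.pairs → k} {m : ℕ} {z : Fin 2 → G} :
    z ∈ S.zetaSpace ζ m ↔ z ∈ S.pairSpace m ∧ ∀ x : S.pairs,
      ev (0, (x : Place k G × Place k G).1) z =
        ζ x * ev (1, (x : Place k G × Place k G).2) z := by
  simp only [zetaSpace, Submodule.mem_map, LinearMap.mem_ker, Submodule.coe_subtype]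
  constructor
  · rintro ⟨w, hw, rfl⟩
    exact ⟨w.2, fun x => sub_eq_zero.mp (congrFun hw x)⟩
  · rintro ⟨hz, hz'⟩
    exact ⟨⟨z, hz⟩, funext fun x => sub_eq_zero.mpr (hz' x), rfl⟩

theorem zetaSpace_one (m : ℕ) : S.zetaSpace 1 m = S.glueSpace m := by
  ext z
  simp only [mem_zetaSpace, mem_glueSpace, Pi.one_apply, one_mul]
  exact ⟨fun h => ⟨h.1, fun x hx => h.2 ⟨x, hx⟩⟩, fun h => ⟨h.1, fun x => h.2 _ x.2⟩⟩

theorem finrank_zetaSpace (ζ : S.pairs → k) {m : ℕ} (hm : S.evalLevel ≤ m) :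
    FiniteDimensional k (S.zetaSpace ζ m) ∧
      Module.finrank k (S.zetaSpace ζ m) + S.pairs.card = Module.finrank k (S.pairSpace m) := by
  obtain ⟨hfd, -⟩ := S.finrank_pairSpace (le_trans S.baseLevel_le_evalLevel hm)
  have hsurj : Function.Surjective (S.diffMap ζ m) := fun a => by
    obtain ⟨z, hz, hv⟩ := S.exists_pair_values hm a 0
    exact ⟨⟨z, hz⟩, funext fun x => by simp [diffMap, (hv x).1, (hv x).2]⟩
  have h := LinearMap.finrank_range_add_finrank_ker (S.diffMap ζ m)
  rw [LinearMap.range_eq_top.mpr hsurj, finrank_top, Module.finrank_pi, Fintype.card_coe] at h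
  have e := Submodule.equivMapOfInjective _ (S.pairSpace m).injective_subtype
    (LinearMap.ker (S.diffMap ζ m))
  refine ⟨Module.Finite.equiv e, ?_⟩
  rw [zetaSpace, ← e.finrank_eq]
  omega

theorem delta_eq_card : S.delta = S.pairs.card := by
  obtain ⟨-, h1⟩ := S.finrank_imgTwist (Rep.one S 1) S.baseLevel_le_evalLevel
  rw [S.twist_one] at h1
  obtain ⟨hfd, h2⟩ := S.finrank_zetaSpace 1 le_rfl
  have h3 : S.imgSpace (riemannRochSpace ((S.evalLevel : ℤ) • S.H)) ≤ S.zetaSpace 1 S.evalLevel := by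
    rw [S.zetaSpace_one]; exact S.imgSpace_le_glueSpace _
  have h4 := Submodule.finrank_mono h3
  have h5 : S.delta ≤ (S.pairs.card : ℤ) := S.count
  omega

/-- Reductions of `L(mH)` are exactly the glued pairs. -/
theorem imgSpace_eq_glueSpace {I : ℕ} (hI : S.evalLevel ≤ I) :
    S.imgSpace (riemannRochSpace ((I : ℤ) • S.H)) = S.glueSpace I := by
  rw [← S.zetaSpace_one]
  obtain ⟨hfd, h2⟩ := S.finrank_zetaSpace 1 hI
  refine Submodule.eq_of_le_of_finrank_le (by rw [S.zetaSpace_one]; exact S.imgSpace_le_glueSpace _) ?_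
  obtain ⟨-, h1⟩ := S.finrank_imgTwist (Rep.one S 1) (le_trans S.baseLevel_le_evalLevel hI)
  rw [S.twist_one] at h1
  have := S.delta_eq_card
  omega

section Zeta

variable {n : ℕ}

theorem pow_mem_glue (hn : n ≠ 0) (R : S.Rep n) {m : ℕ} {z : Fin 2 → G}
    (hz : z ∈ S.imgSpace (S.twist R m)) (x : S.pairs) :
    ev (0, (x : Place k G × Place k G).1) z ^ n =
      ev (1, (x : Place k G × Place k G).2) z ^ n := by
  have hp := S.pairs_affine _ x.2
  have hzm := S.imgSpace_twist_le hn R m hz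
  obtain ⟨f, hf, hfi, rfl⟩ := hz
  have hreach : S.Reach (S.red2 f ^ n) := by
    refine ⟨n * m, f ^ n * R.u, ?_, fun j => S.int_mul j _ _ (S.int_pow (hfi j) n) (R.int j),
      funext fun j => ?_⟩
    · rw [mem_rrs_iff]
      rcases eq_or_ne f 0 with h0 | h0
      · exact Or.inl (by rw [h0, zero_pow hn, zero_mul])
      refine Or.inr fun P => ?_
      rw [P.ord_mul (pow_ne_zero _ h0) R.u_ne, ord_pow, R.ord_u]
      have h := (mem_rrs_iff.mp hf).resolve_left h0 P
      simp only [Finsupp.add_apply, Finsupp.smul_apply, smul_eq_mul] at h ⊢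
      push_cast
      nlinarith
    · show S.red j (f ^ n * R.u) = S.red j f ^ n
      rw [S.red_mul j _ _ (S.int_pow (hfi j) n) (R.int j), S.red_pow (hfi j), R.red_u, mul_one]
  obtain ⟨m0, g, hg, hgi, hgr⟩ := hreach
  have h := S.pairs_glue m0 g hgi hg _ x.2
  have h0 : S.red 0 g = (S.red2 f ^ n) 0 := congrFun hgr 0
  have h1 : S.red 1 g = (S.red2 f ^ n) 1 := congrFun hgr 1
  rw [h0, h1] at h
  simp only [ev, Pi.pow_apply] at h ⊢
  rwa [residueConst_pow (S.regular_of_mem_pairSpace hzm _ hp.1),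
    residueConst_pow (S.regular_of_mem_pairSpace hzm _ hp.2)] at h

theorem exists_zeta_at (hn : n ≠ 0) (R : S.Rep n) {m : ℕ} (hm : S.evalLevel ≤ m) :
    ∃ ζ : S.pairs → k, (∀ x, ζ x ^ n = 1) ∧ S.imgSpace (S.twist R m) = S.zetaSpace ζ m := by
  classical
  have hline : ∀ x : S.pairs, ∃ c : k, c ^ n = 1 ∧ ∀ z ∈ S.imgSpace (S.twist R m),
      ev (0, (x : Place k G × Place k G).1) z =
        c * ev (1, (x : Place k G × Place k G).2) z := by
    intro x
    have hp := S.pairs_affine _ x.2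
    by_cases hall : ∀ z ∈ S.imgSpace (S.twist R m), ev (1, (x : Place k G × Place k G).2) z = 0
    · refine ⟨1, one_pow n, fun z hz => ?_⟩
      have := S.pow_mem_glue hn R hz x
      rw [hall z hz, zero_pow hn] at this
      rw [hall z hz, mul_zero]
      exact eq_zero_of_pow_eq_zero this
    · push Not at hall
      obtain ⟨z0, hz0, hne⟩ := hall
      set b0 := ev (1, (x : Place k G × Place k G).2) z0 with hb0
      set a0 := ev (0, (x : Place k G × Place k G).1) z0 with ha0
      refine ⟨a0 / b0, by rw [div_pow, S.pow_mem_glue hn R hz0 x, div_self (pow_ne_zero _ hne)],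
        fun z hz => ?_⟩
      have hzm := S.imgSpace_twist_le hn R m
      set b := ev (1, (x : Place k G × Place k G).2) z with hb
      set a := ev (0, (x : Place k G × Place k G).1) z with ha
      have hw : b0 • z + (-b) • z0 ∈ S.imgSpace (S.twist R m) :=
        add_mem (Submodule.smul_mem _ _ hz) (Submodule.smul_mem _ _ hz0)
      have h := S.pow_mem_glue hn R hw x
      have hev : ∀ (y : Fin 2 × Place k G), S.C y.2 = 0 →
          ev y (b0 • z + (-b) • z0) = b0 * ev y z + (-b) * ev y z0 := fun y hy => by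
        have r1 := S.regular_of_mem_pairSpace (hzm hz) y.1 hy
        have r2 := S.regular_of_mem_pairSpace (hzm hz0) y.1 hy
        simp only [ev, Pi.add_apply, Pi.smul_apply]
        rw [residueConst_add (r1.smul _) (r2.smul _), residueConst_smul _ r1,
          residueConst_smul _ r2]
      rw [hev _ hp.1, hev _ hp.2, ← ha, ← ha0, ← hb, ← hb0] at h
      rw [show b0 * b + -b * b0 = 0 by ring, zero_pow hn] at h
      have h' := eq_zero_of_pow_eq_zero h
      field_simp
      linear_combination h'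
  choose ζ hζn hζ using hline
  refine ⟨ζ, hζn, ?_⟩
  have hle : S.imgSpace (S.twist R m) ≤ S.zetaSpace ζ m := fun z hz =>
    S.mem_zetaSpace.mpr ⟨S.imgSpace_twist_le hn R m hz, fun x => hζ x z hz⟩
  obtain ⟨-, h1⟩ := S.finrank_imgTwist R (le_trans S.baseLevel_le_evalLevel hm)
  obtain ⟨hfd, h2⟩ := S.finrank_zetaSpace ζ hm
  refine Submodule.eq_of_le_of_finrank_le hle ?_
  have := S.delta_eq_card
  omega

theorem zetaSpace_injective {ζ ζ' : S.pairs → k} {m : ℕ} (hm : S.evalLevel ≤ m)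
    (h : S.zetaSpace ζ m ≤ S.zetaSpace ζ' m) : ζ = ζ' := by
  obtain ⟨z, hz, hv⟩ := S.exists_pair_values hm ζ 1
  have h1 := h (S.mem_zetaSpace.mpr ⟨hz, fun x => by rw [(hv x).1, (hv x).2]; simp⟩)
  funext x
  have := (S.mem_zetaSpace.mp h1).2 x
  rwa [(hv x).1, (hv x).2, Pi.one_apply, mul_one] at this

/-- The gluing datum of a representative: the reductions of `L(D + mH)` are glued by it. -/
def HasZeta (R : S.Rep n) (ζ : S.pairs → k) : Prop :=
  ∀ m, S.evalLevel ≤ m → S.imgSpace (S.twist R m) = S.zetaSpace ζ m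

theorem exists_hasZeta (hn : n ≠ 0) (R : S.Rep n) :
    ∃ ζ, (∀ x, ζ x ^ n = 1) ∧ S.HasZeta R ζ := by
  obtain ⟨ζ, hζn, hζ⟩ := S.exists_zeta_at hn R le_rfl
  refine ⟨ζ, hζn, fun m hm => ?_⟩
  obtain ⟨ζ', -, hζ'⟩ := S.exists_zeta_at hn R hm
  suffices ζ = ζ' by rw [this]; exact hζ'
  obtain ⟨z, hz, hv⟩ := S.exists_pair_values (le_refl S.evalLevel) ζ 1
  have h1 : z ∈ S.zetaSpace ζ S.evalLevel :=
    S.mem_zetaSpace.mpr ⟨hz, fun x => by rw [(hv x).1, (hv x).2]; simp⟩
  rw [← hζ] at h1
  have h2 := S.imgSpace_mono (S.twist_mono R hm) h1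
  rw [hζ'] at h2
  funext x
  have := (S.mem_zetaSpace.mp h2).2 x
  rwa [(hv x).1, (hv x).2, Pi.one_apply, mul_one] at this

theorem HasZeta.unique {R : S.Rep n} {ζ ζ' : S.pairs → k} (h : S.HasZeta R ζ)
    (h' : S.HasZeta R ζ') : ζ = ζ' :=
  S.zetaSpace_injective (le_refl _) (by rw [← h _ le_rfl, ← h' _ le_rfl])

theorem hasZeta_one : S.HasZeta (Rep.one S n) 1 := fun m hm => by
  rw [S.twist_one, S.zetaSpace_one,
    S.imgSpace_eq_glueSpace hm]

theorem HasZeta.mul (hn : n ≠ 0) {R R' : S.Rep n} {ζ ζ' : S.pairs → k} (h : S.HasZeta R ζ)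
    (h' : S.HasZeta R' ζ') : S.HasZeta (R.mul R') (ζ * ζ') := by
  obtain ⟨η, -, hη⟩ := S.exists_hasZeta hn (R.mul R')
  suffices η = ζ * ζ' by rw [← this]; exact hη
  obtain ⟨z, hz, hv⟩ := S.exists_pair_values (le_refl S.evalLevel) ζ 1
  obtain ⟨w, hw, hu⟩ := S.exists_pair_values (le_refl S.evalLevel) ζ' 1
  have hz' : z ∈ S.imgSpace (S.twist R S.evalLevel) := by
    rw [h _ le_rfl]
    exact S.mem_zetaSpace.mpr ⟨hz, fun x => by rw [(hv x).1, (hv x).2]; simp⟩
  have hw' : w ∈ S.imgSpace (S.twist R' S.evalLevel) := by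
    rw [h' _ le_rfl]
    exact S.mem_zetaSpace.mpr ⟨hw, fun x => by rw [(hu x).1, (hu x).2]; simp⟩
  obtain ⟨f, hf, hfi, hfr⟩ := hz'
  obtain ⟨g, hg, hgi, hgr⟩ := hw'
  have hmem : z * w ∈ S.imgSpace (S.twist (R.mul R') (S.evalLevel + S.evalLevel)) :=
    ⟨f * g, S.mul_mem_twist hf hg, fun i => S.int_mul i f g (hfi i) (hgi i), by
      rw [← hfr, ← hgr]; exact funext fun i => S.red_mul i f g (hfi i) (hgi i)⟩
  rw [hη _ (Nat.le_add_right _ _)] at hmem
  funext x
  have h1 := (S.mem_zetaSpace.mp hmem).2 x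
  have hp := S.pairs_affine _ x.2
  simp only [ev, Pi.mul_apply] at h1 hv hu ⊢
  rw [residueConst_mul (S.regular_of_mem_pairSpace hz _ hp.1)
      (S.regular_of_mem_pairSpace hw _ hp.1),
    residueConst_mul (S.regular_of_mem_pairSpace hz _ hp.2)
      (S.regular_of_mem_pairSpace hw _ hp.2), (hv x).1, (hv x).2, (hu x).1, (hu x).2] at h1
  simpa using h1.symm

end Zeta

end Fermat.Agent.XHLite.GlueModel

end
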